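/-
T4E-N (helper4), chain part 1: **the interface between `T4eNewUnrAux t4eWU` and the geometry**.

`p = 𝔓.p`, `L = tbFix 𝔓 ⊤` (the inertia field), level `N = N'' p^k p p` (`e = k + 2`), lower level
`N1 = N'' p^k p`, `F1 = tbLevF 𝔓 N1 ⊤`, `F = tbLevF 𝔓 N ⊤`.

* `t4eWLev 𝔓 H N'' k h` : the Atkin–Lehner involution `w_{p^e}` of `F` over the level field (lead's
  generic `t4wLev` with `Q = p^k p p`), `tbPhiF_t4eWLev` its compatibility with `t4eWU` over `ℚ̄`;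
* `T4eCoreAt 𝔓 N'' k h c` : **(NEW_e) inside the level field** — the target of the geometry: a Kummer
  function `y ∈ F` (all orders divisible by `m`, `m` prime to `p`, both at the places of `F / L` and
  at the places of `F_ℚ̄ / ℚ̄`) such that `N_β y` and `N_β (w y)` are `constant × m`-th powers in `F1`
  satisfies `y ^ c = constant × m`-th power.

The norms `t4nNormA`, `t4nNormB`, the product formula `T4nProdB` and `T4nCFE` of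
`Lib/T4/New/CoreDefs.lean` are stated for a variable lower level `N1` and are reused as they are.
-/
import Mathlib
import Fermat.Agent.Lib.T4.New.CoreDefs
import Fermat.Agent.Lib.T4.Inst.ALLevel
import Fermat.Agent.Lib.T4E.Desc.NewUnr
import Fermat.Agent.Lib.T4E.G.WU

set_option autoImplicit false
set_option linter.unusedSectionVars false
set_option linter.unusedVariables false
set_option linter.style.haveILetI false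

open Fermat.Agent.T1 Fermat.Agent.T2 Fermat.Agent.TW ModularCurve Fermat.Agent.S24Lib
  AlgebraicCurve

noncomputable section

namespace Fermat.Agent.T4

local notation "Qb" => AlgebraicClosure ℚ

/-- the residue characteristic of a place is prime -/
theorem t4e_fact (𝔓 : FFPlace) : Fact 𝔓.p.Prime := ⟨𝔓.hp⟩

attribute [local instance] t4e_fact

section Level

variable (𝔓 : FFPlace) (H : Subgroup 𝔓.I) (N'' k : ℕ) [NeZero N''] (h : ¬ 𝔓.p ∣ N'')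

/-- the level `N'' p^k p p` is non-zero -/
theorem t4e_neZero_lvl : NeZero (N'' * 𝔓.p ^ k * 𝔓.p * 𝔓.p) :=
  ⟨Nat.mul_ne_zero (Nat.mul_ne_zero (Nat.mul_ne_zero (NeZero.ne N'')
    (pow_ne_zero k 𝔓.hp.ne_zero)) 𝔓.hp.ne_zero) 𝔓.hp.ne_zero⟩

/-- the lower level `N'' p^k p` is non-zero -/
theorem t4e_neZero_lvl1 : NeZero (N'' * 𝔓.p ^ k * 𝔓.p) :=
  ⟨Nat.mul_ne_zero (Nat.mul_ne_zero (NeZero.ne N'') (pow_ne_zero k 𝔓.hp.ne_zero)) 𝔓.hp.ne_zero⟩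

attribute [local instance] t4e_neZero_lvl t4e_neZero_lvl1

/-- **the Atkin–Lehner involution `w_{p^e}`, `e = k + 2`, of the function field of level
`N'' p^k p p` over the level field `L_H`** -/
def t4eWLev : tbLevF 𝔓 (N'' * 𝔓.p ^ k * 𝔓.p * 𝔓.p) H ≃ₐ[↥(tbFix 𝔓 H)]
    tbLevF 𝔓 (N'' * 𝔓.p ^ k * 𝔓.p * 𝔓.p) H :=
  t4wLev 𝔓 H (N'' * 𝔓.p ^ k * 𝔓.p * 𝔓.p) N'' (𝔓.p ^ k * 𝔓.p * 𝔓.p) (t4e_lvl N'' 𝔓.p k)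
    (t4e_coprime N'' 𝔓.p k h)

theorem t4eWLev_t4eWLev (f : tbLevF 𝔓 (N'' * 𝔓.p ^ k * 𝔓.p * 𝔓.p) H) :
    t4eWLev 𝔓 H N'' k h (t4eWLev 𝔓 H N'' k h f) = f :=
  t4wLev_t4wLev 𝔓 H _ _ _ _ _ f

/-- compatibility with `w_{p^e}` over `ℚ̄` -/
theorem tbPhiF_t4eWLev (f : tbLevF 𝔓 (N'' * 𝔓.p ^ k * 𝔓.p * 𝔓.p) H) :
    tbPhiF 𝔓 (N'' * 𝔓.p ^ k * 𝔓.p * 𝔓.p) H (t4eWLev 𝔓 H N'' k h f)
      = t4w Qb (N'' * 𝔓.p ^ k * 𝔓.p * 𝔓.p) N'' (𝔓.p ^ k * 𝔓.p * 𝔓.p) (t4e_lvl N'' 𝔓.p k)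
          (t4e_coprime N'' 𝔓.p k h) (tbPhiF 𝔓 (N'' * 𝔓.p ^ k * 𝔓.p * 𝔓.p) H f) :=
  tbPhiF_t4wLev 𝔓 H _ _ _ _ _ f

/-- **`w_{p^e}` over `ℚ̄` (helper3's `t4eWU`) restricts to `t4eWLev` over the level fields** -/
theorem t4e_wU_tbPhiF (y : (↥(modularFunctionFieldBar (N'' * 𝔓.p ^ k * 𝔓.p * 𝔓.p)))ˣ)
    (f : ↥(tbLevF 𝔓 (N'' * 𝔓.p ^ k * 𝔓.p * 𝔓.p) H))
    (hf : tbPhiF 𝔓 (N'' * 𝔓.p ^ k * 𝔓.p * 𝔓.p) H f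
      = (y : ↥(modularFunctionFieldBar (N'' * 𝔓.p ^ k * 𝔓.p * 𝔓.p)))) :
    tbPhiF 𝔓 (N'' * 𝔓.p ^ k * 𝔓.p * 𝔓.p) H (t4eWLev 𝔓 H N'' k h f)
      = ((t4eWU N'' 𝔓.p k h y : (↥(modularFunctionFieldBar (N'' * 𝔓.p ^ k * 𝔓.p * 𝔓.p)))ˣ) :
          ↥(modularFunctionFieldBar (N'' * 𝔓.p ^ k * 𝔓.p * 𝔓.p))) := by
  rw [tbPhiF_t4eWLev, hf]
  rfl

/-- **(NEW_e) inside the level field** `L = ℚ̄^I`, with the multiplier `c`: the target of the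
geometry of T4E -/
def T4eCoreAt (c : ℕ) : Prop :=
  ∀ m : ℕ, Nat.Coprime m 𝔓.p → m ≠ 0 →
    ∀ y : (↥(tbLevF 𝔓 (N'' * 𝔓.p ^ k * 𝔓.p * 𝔓.p) ⊤))ˣ,
      y ∈ tWsub ↥(tbFix 𝔓 ⊤) (N'' * 𝔓.p ^ k * 𝔓.p * 𝔓.p) m →
      (∀ P : Place Qb ↥(modularFunctionFieldBar (N'' * 𝔓.p ^ k * 𝔓.p * 𝔓.p)),
        (m : ℤ) ∣ P.ord (tbPhiF 𝔓 (N'' * 𝔓.p ^ k * 𝔓.p * 𝔓.p) ⊤
          (y : ↥(tbLevF 𝔓 (N'' * 𝔓.p ^ k * 𝔓.p * 𝔓.p) ⊤)))) →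
      (∃ (a : ↥(tbFix 𝔓 ⊤)) (s : ↥(tbLevF 𝔓 (N'' * 𝔓.p ^ k * 𝔓.p) ⊤)), a ≠ 0 ∧ s ≠ 0 ∧
        t4nNormB ↥(tbFix 𝔓 ⊤) (N'' * 𝔓.p ^ k * 𝔓.p) 𝔓.p
          (y : ↥(tbLevF 𝔓 (N'' * 𝔓.p ^ k * 𝔓.p * 𝔓.p) ⊤)) = a • s ^ m) →
      (∃ (a : ↥(tbFix 𝔓 ⊤)) (s : ↥(tbLevF 𝔓 (N'' * 𝔓.p ^ k * 𝔓.p) ⊤)), a ≠ 0 ∧ s ≠ 0 ∧
        t4nNormB ↥(tbFix 𝔓 ⊤) (N'' * 𝔓.p ^ k * 𝔓.p) 𝔓.p
          (t4eWLev 𝔓 ⊤ N'' k h (y : ↥(tbLevF 𝔓 (N'' * 𝔓.p ^ k * 𝔓.p * 𝔓.p) ⊤))) = a • s ^ m) →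
      ∃ (a : ↥(tbFix 𝔓 ⊤)) (t : ↥(tbLevF 𝔓 (N'' * 𝔓.p ^ k * 𝔓.p * 𝔓.p) ⊤)), a ≠ 0 ∧ t ≠ 0 ∧
        (y : ↥(tbLevF 𝔓 (N'' * 𝔓.p ^ k * 𝔓.p * 𝔓.p) ⊤)) ^ c = a • t ^ m

end Level

end Fermat.Agent.T4
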