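/-
T4E-N (helper4), chain part 3: **the Atkin–Lehner intertwining `w_{Q₁ p} ∘ α = β ∘ w_{Q₁}`** over the
level fields, for a general coprime factor `Q₁` (`N1 = N' Q₁`, `gcd (Q₁, N') = 1`, `p = 𝔓.p`,
`gcd (p, N') = 1`):

  `t4wLev (N1 p) N' Q (α f) = β (t4wLev N1 N' Q₁ f)`,  `Q = Q₁ p`,

where `α = heckeAlphaBar` (inclusion of `q`-expansions) and `β = heckeBetaBar` (`𝔮 ↦ 𝔮^p`).  Proof on
the generators `j(𝔮^(d ε))`, `d ∣ N'`, `ε ε' = Q₁`:  `w_Q (j(𝔮^(d ε))) = j(𝔮^(d ε' p))` since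
`ε (ε' p) = Q`.  Consequently `N_β (w_Q y) = w_{Q₁} (N_α y)` (`t4n_normB_w` of
`Lib/T4/New/CoreDefs.lean`) — the transport of the norm used in the top assembly — and the two
degrees `[F : α F1]`, `[F : β F1]` agree.
-/
import Mathlib
import Fermat.Agent.Lib.T4E.New.CoreDefs

set_option autoImplicit false
set_option linter.unusedSectionVars false
set_option linter.unusedVariables false
set_option linter.style.haveILetI false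
set_option synthInstance.maxHeartbeats 400000

open Fermat.Agent.T1 Fermat.Agent.T2 Fermat.Agent.TW ModularCurve Fermat.Agent.S24Lib
  AlgebraicCurve HahnSeries Fermat.Agent.S05Lib

noncomputable section

namespace Fermat.Agent.T4

local notation "Qb" => AlgebraicClosure ℚ

section Gen

variable (𝔓 : FFPlace) (H : Subgroup 𝔓.I)
variable (N1 N' Q₁ Q : ℕ) [NeZero N1] [NeZero (N1 * 𝔓.p)] (hN1 : N1 = N' * Q₁)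
  (hcop1 : Nat.Coprime Q₁ N') (hN : N1 * 𝔓.p = N' * Q) (hcop : Nat.Coprime Q N')
  (hQ : Q = Q₁ * 𝔓.p)

include hQ in
/-- **`w_{Q₁ p} ∘ α = β ∘ w_{Q₁}`** at level `H` -/
theorem t4e_wLev_alpha (f : ↥(TaF ↥(tbFix 𝔓 H) N1)) :
    t4wLev 𝔓 H (N1 * 𝔓.p) N' Q hN hcop (heckeAlphaBar ↥(tbFix 𝔓 H) N1 𝔓.p f)
      = heckeBetaBar ↥(tbFix 𝔓 H) N1 𝔓.p (t4wLev 𝔓 H N1 N' Q₁ hN1 hcop1 f) := by
  have key :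
      (((t4wLev 𝔓 H (N1 * 𝔓.p) N' Q hN hcop :
            tbLevF 𝔓 (N1 * 𝔓.p) H ≃ₐ[↥(tbFix 𝔓 H)] tbLevF 𝔓 (N1 * 𝔓.p) H) :
          tbLevF 𝔓 (N1 * 𝔓.p) H →+* tbLevF 𝔓 (N1 * 𝔓.p) H).comp
        ((heckeAlphaBar ↥(tbFix 𝔓 H) N1 𝔓.p : ↥(TaF ↥(tbFix 𝔓 H) N1) →ₐ[↥(tbFix 𝔓 H)] _) :
          ↥(TaF ↥(tbFix 𝔓 H) N1) →+* tbLevF 𝔓 (N1 * 𝔓.p) H))
      = (((heckeBetaBar ↥(tbFix 𝔓 H) N1 𝔓.p : ↥(TaF ↥(tbFix 𝔓 H) N1) →ₐ[↥(tbFix 𝔓 H)] _) :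
          ↥(TaF ↥(tbFix 𝔓 H) N1) →+* tbLevF 𝔓 (N1 * 𝔓.p) H).comp
        ((t4wLev 𝔓 H N1 N' Q₁ hN1 hcop1 :
            tbLevF 𝔓 N1 H ≃ₐ[↥(tbFix 𝔓 H)] tbLevF 𝔓 N1 H) :
          tbLevF 𝔓 N1 H →+* tbLevF 𝔓 N1 H)) := by
    apply t2w_ringHom_ext ↥(tbFix 𝔓 H) N1
    · intro c
      simp
    · intro D hD
      obtain ⟨d, ε, ε', hd, hε, rfl⟩ := t4w_dvd_cases N1 N' Q₁ hN1 hD
      have hd0 : d ≠ 0 := by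
        rintro rfl
        rw [zero_mul] at hD
        exact NeZero.ne N1 (Nat.eq_zero_of_zero_dvd hD)
      have hε0 : ε ≠ 0 := by
        rintro rfl
        rw [mul_zero] at hD
        exact NeZero.ne N1 (Nat.eq_zero_of_zero_dvd hD)
      have hQ₁0 : Q₁ ≠ 0 := by
        rintro rfl
        rw [mul_zero] at hN1
        exact NeZero.ne N1 hN1
      have hε'0 : ε' ≠ 0 := by
        rintro rfl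
        rw [mul_zero] at hε
        exact hQ₁0 hε.symm
      have hε2 : ε * (ε' * 𝔓.p) = Q := by rw [hQ, ← hε, mul_assoc]
      haveI : NeZero (d * ε) := ⟨Nat.mul_ne_zero hd0 hε0⟩
      haveI : NeZero (d * ε') := ⟨Nat.mul_ne_zero hd0 hε'0⟩
      haveI : NeZero (d * (ε' * 𝔓.p)) :=
        ⟨Nat.mul_ne_zero hd0 (Nat.mul_ne_zero hε'0 𝔓.hp.ne_zero)⟩
      haveI : NeZero 𝔓.p := ⟨𝔓.hp.ne_zero⟩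
      show t4wLev 𝔓 H (N1 * 𝔓.p) N' Q hN hcop
          (heckeAlphaBar _ N1 𝔓.p (t2wJd ↥(tbFix 𝔓 H) N1 (d * ε) hD))
        = heckeBetaBar _ N1 𝔓.p
          (t4wLev 𝔓 H N1 N' Q₁ hN1 hcop1 (t2wJd ↥(tbFix 𝔓 H) N1 (d * ε) hD))
      have h1 : heckeAlphaBar _ N1 𝔓.p (t2wJd ↥(tbFix 𝔓 H) N1 (d * ε) hD)
          = t2wJd ↥(tbFix 𝔓 H) (N1 * 𝔓.p) (d * ε) (t4w_dvd _ N' Q hN hd hε2) := by
        apply Subtype.ext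
        rw [coe_heckeAlphaBar, coe_t2wJd _ N1 (d * ε) hD, coe_t2wJd _ _ (d * ε)]
      rw [h1, t4wLev_jd 𝔓 H (N1 * 𝔓.p) N' Q hN hcop hd hε2,
        t4wLev_jd 𝔓 H N1 N' Q₁ hN1 hcop1 hd hε]
      apply Subtype.ext
      rw [coe_heckeBetaBar, coe_t2wJd _ _ (d * (ε' * 𝔓.p)), coe_t2wJd _ N1 (d * ε'),
        qExpand_qExpand]
      exact t4w_qExpand_congr _ _ (by ring) _
  exact RingHom.congr_fun key f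

end Gen

attribute [local instance] t4e_fact t4e_neZero_lvl t4e_neZero_lvl1

section Level

variable (𝔓 : FFPlace) (H : Subgroup 𝔓.I) (N'' k : ℕ) [NeZero N''] (h : ¬ 𝔓.p ∣ N'')

/-- the lower level `N'' p^k p = N'' (p^k p)` -/
theorem t4e_lvl1 : N'' * 𝔓.p ^ k * 𝔓.p = N'' * (𝔓.p ^ k * 𝔓.p) := mul_assoc _ _ _

include h in
/-- `p^k p` is prime to `N''` -/
theorem t4e_coprime1 : Nat.Coprime (𝔓.p ^ k * 𝔓.p) N'' := by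
  have h1 : Nat.Coprime 𝔓.p N'' := (Nat.Prime.coprime_iff_not_dvd 𝔓.hp).mpr h
  exact Nat.Coprime.mul_left (Nat.Coprime.pow_left k h1) h1

/-- **the Atkin–Lehner involution `w_{p^(e-1)}` of the function field of the lower level
`N'' p^k p` over `L_H`** -/
def t4eWLev1 : tbLevF 𝔓 (N'' * 𝔓.p ^ k * 𝔓.p) H ≃ₐ[↥(tbFix 𝔓 H)]
    tbLevF 𝔓 (N'' * 𝔓.p ^ k * 𝔓.p) H :=
  t4wLev 𝔓 H (N'' * 𝔓.p ^ k * 𝔓.p) N'' (𝔓.p ^ k * 𝔓.p) (t4e_lvl1 𝔓 N'' k)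
    (t4e_coprime1 𝔓 N'' k h)

theorem t4eWLev1_t4eWLev1 (f : tbLevF 𝔓 (N'' * 𝔓.p ^ k * 𝔓.p) H) :
    t4eWLev1 𝔓 H N'' k h (t4eWLev1 𝔓 H N'' k h f) = f :=
  t4wLev_t4wLev 𝔓 H _ _ _ _ _ f

/-- **`w_{p^e} ∘ α = β ∘ w_{p^(e-1)}`** at level `H` -/
theorem t4eWLev_alpha (f : ↥(TaF ↥(tbFix 𝔓 H) (N'' * 𝔓.p ^ k * 𝔓.p))) :
    t4eWLev 𝔓 H N'' k h (heckeAlphaBar ↥(tbFix 𝔓 H) (N'' * 𝔓.p ^ k * 𝔓.p) 𝔓.p f)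
      = heckeBetaBar ↥(tbFix 𝔓 H) (N'' * 𝔓.p ^ k * 𝔓.p) 𝔓.p (t4eWLev1 𝔓 H N'' k h f) :=
  t4e_wLev_alpha 𝔓 H (N'' * 𝔓.p ^ k * 𝔓.p) N'' (𝔓.p ^ k * 𝔓.p) (𝔓.p ^ k * 𝔓.p * 𝔓.p)
    (t4e_lvl1 𝔓 N'' k) (t4e_coprime1 𝔓 N'' k h) (t4e_lvl N'' 𝔓.p k) (t4e_coprime N'' 𝔓.p k h)
    rfl f

/-- **`N_β (w y) = w¹ (N_α y)`** at the level `N'' p^k p p` -/
theorem t4e_normB_wLev (y : ↥(tbLevF 𝔓 (N'' * 𝔓.p ^ k * 𝔓.p * 𝔓.p) H)) :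
    t4nNormB ↥(tbFix 𝔓 H) (N'' * 𝔓.p ^ k * 𝔓.p) 𝔓.p (t4eWLev 𝔓 H N'' k h y)
      = t4eWLev1 𝔓 H N'' k h (t4nNormA ↥(tbFix 𝔓 H) (N'' * 𝔓.p ^ k * 𝔓.p) 𝔓.p y) :=
  t4n_normB_w ↥(tbFix 𝔓 H) (N'' * 𝔓.p ^ k * 𝔓.p) 𝔓.p
    (t4eWLev 𝔓 H N'' k h).toRingEquiv (t4eWLev1 𝔓 H N'' k h).toRingEquiv
    (fun x => t4eWLev_alpha 𝔓 H N'' k h x) y

/-- `N_β (w y) = a • s ^ m` ⟹ `N_α y = a • (w¹ s) ^ m` -/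
theorem t4e_normA_of_normB_wLev (y : ↥(tbLevF 𝔓 (N'' * 𝔓.p ^ k * 𝔓.p * 𝔓.p) H))
    (a : ↥(tbFix 𝔓 H)) (s : ↥(tbLevF 𝔓 (N'' * 𝔓.p ^ k * 𝔓.p) H)) (m : ℕ)
    (has : t4nNormB ↥(tbFix 𝔓 H) (N'' * 𝔓.p ^ k * 𝔓.p) 𝔓.p (t4eWLev 𝔓 H N'' k h y) = a • s ^ m) :
    t4nNormA ↥(tbFix 𝔓 H) (N'' * 𝔓.p ^ k * 𝔓.p) 𝔓.p y
      = a • (t4eWLev1 𝔓 H N'' k h s) ^ m := by
  rw [t4e_normB_wLev 𝔓 H N'' k h] at has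
  have h2 := congrArg (t4eWLev1 𝔓 H N'' k h) has
  rw [t4eWLev1_t4eWLev1] at h2
  rw [h2, Algebra.smul_def, map_mul, AlgEquiv.commutes, map_pow, ← Algebra.smul_def]

end Level

end Fermat.Agent.T4
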