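/-
T4E-N (helper4), steps A + B at level `q^e`, `e ≥ 3`, part 1: **the abstract interface**
(no modular curves).

`F1 ⊂ F` (two embeddings `α`, `β`) function fields over a discretely valued field `L` (uniformiser
`π`, think `π = q`).  The vertical valuations of `F` (level `N'' q^e`) are labelled by `w ≤ e`
(`w = a` = number of Frobenius steps, `b = e - w` Verschiebung steps; `w = e` is the component `∞`,
`w = 0` the component `0`), those of `F1` (level `N'' q^(e-1)`) by `w ≤ e - 1`.  The degeneracy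
maps act on labels by `α : w ↦ min w (e - 1)`, `β : w ↦ w - 1`; the multiplicity of the component
`w` is `t4eMu q e w = φ(q ^ min w (e - w))`.

`T4eA` collects: constants, the two norms `N_α, N_β : Fˣ → F1ˣ`, the valuations, the norm formulas
for valuations in Dedekind form (`v¹(N y) = Σ f · v(y)` over the fibre), weak approximation.
`T4eB D` adds the residue maps on the units, the norm formulas for residues (`res(N y) = (res y)^q`
over a non-split point of the fibre, both for a residue-inseparable step `e = 1, f = q` and for a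
totally ramified step `e = q, f = 1`; `res(N y) = res_e y · (res_(e-1) y)^(q-1)` at the split point,
used only for the constants of the norm relations), CRT for residues and the `q`-group step.
-/
import Mathlib

set_option autoImplicit false
set_option linter.unusedSectionVars false
set_option linter.unusedVariables false
set_option linter.style.haveILetI false

namespace Fermat.Agent.T4E

/-- the multiplicity of the vertical component `w` (`a = w`, `b = e - w`) at level `q ^ e` -/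
def t4eMu (q e w : ℕ) : ℕ := Nat.totient (q ^ min w (e - w))

/-- the residue degree of `v_w` (`w + 2 ≤ e`) over its restriction along `α` -/
def t4eFa (q e w : ℕ) : ℕ := if 2 * w + 1 ≤ e then q else 1

/-- the residue degree of `v_w` (`2 ≤ w ≤ e`) over its restriction along `β` -/
def t4eFb (q e w : ℕ) : ℕ := if e + 1 ≤ 2 * w then q else 1

theorem t4eMu_zero (q e : ℕ) : t4eMu q e 0 = 1 := by
  simp [t4eMu]

theorem t4eMu_self (q e : ℕ) : t4eMu q e e = 1 := by
  simp [t4eMu]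

theorem t4eMu_pred {q : ℕ} (hq : q.Prime) {e : ℕ} (he : 2 ≤ e) : t4eMu q e (e - 1) = q - 1 := by
  have h : min (e - 1) (e - (e - 1)) = 1 := by omega
  rw [t4eMu, h, pow_one, Nat.totient_prime hq]

/-- `α`, residue-inseparable step: same multiplicity -/
theorem t4eMu_alpha_insep (q : ℕ) {e w : ℕ} (h : 2 * w + 1 ≤ e) :
    t4eMu q (e - 1) w = t4eMu q e w := by
  have h1 : min w (e - 1 - w) = w := by omega
  have h2 : min w (e - w) = w := by omega
  rw [t4eMu, t4eMu, h1, h2]

/-- `α`, totally ramified step: the multiplicity is multiplied by `q` -/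
theorem t4eMu_alpha_ram {q : ℕ} (hq : q.Prime) {e w : ℕ} (h : w + 2 ≤ e) (h' : e < 2 * w + 1) :
    t4eMu q e w = q * t4eMu q (e - 1) w := by
  have h1 : min w (e - 1 - w) = e - 1 - w := by omega
  have h2 : min w (e - w) = (e - 1 - w) + 1 := by omega
  have h3 : 0 < e - 1 - w := by omega
  rw [t4eMu, t4eMu, h1, h2, Nat.totient_prime_pow_succ hq, Nat.totient_prime_pow hq h3]
  have h4 : e - 1 - w = (e - 1 - w - 1) + 1 := by omega
  rw [h4, pow_succ]
  simp only [Nat.add_sub_cancel]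
  ring

/-- `β`, residue-inseparable step: same multiplicity -/
theorem t4eMu_beta_insep (q : ℕ) {e w : ℕ} (h : e + 1 ≤ 2 * w) (hw : w ≤ e) :
    t4eMu q (e - 1) (w - 1) = t4eMu q e w := by
  have h1 : min (w - 1) (e - 1 - (w - 1)) = e - w := by omega
  have h2 : min w (e - w) = e - w := by omega
  rw [t4eMu, t4eMu, h1, h2]

/-- `β`, totally ramified step: the multiplicity is multiplied by `q` -/
theorem t4eMu_beta_ram {q : ℕ} (hq : q.Prime) {e w : ℕ} (h : 2 ≤ w) (h' : 2 * w < e + 1) :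
    t4eMu q e w = q * t4eMu q (e - 1) (w - 1) := by
  have h1 : min (w - 1) (e - 1 - (w - 1)) = w - 1 := by omega
  have h2 : min w (e - w) = (w - 1) + 1 := by omega
  have h3 : 0 < w - 1 := by omega
  rw [t4eMu, t4eMu, h1, h2, Nat.totient_prime_pow_succ hq, Nat.totient_prime_pow hq h3]
  have h4 : w - 1 = (w - 1 - 1) + 1 := by omega
  rw [h4, pow_succ]
  simp only [Nat.add_sub_cancel]
  ring

/-- **interface of step A** at level `q ^ e`: constants, norms, the labelled valuations, the norm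
formulas for valuations, weak approximation -/
structure T4eA (L F1 F : Type) [Field L] [Field F1] [Field F] (q e m : ℕ) where
  /-- the valuation of the constant field -/
  vL : Additive Lˣ →+ ℤ
  /-- a uniformiser of the constant field -/
  π : Lˣ
  vL_π : vL (Additive.ofMul π) = 1
  /-- the constants of `F1` -/
  cF1 : Lˣ →* F1ˣ
  /-- the constants of `F` -/
  cF : Lˣ →* Fˣ
  /-- the norm for the `α`-structure -/
  Nα : Fˣ →* F1ˣ
  /-- the norm for the `β`-structure -/
  Nβ : Fˣ →* F1ˣ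
  Nα_c : ∀ c, Nα (cF c) = cF1 c ^ q
  Nβ_c : ∀ c, Nβ (cF c) = cF1 c ^ q
  /-- the vertical valuations of `F`, labelled by `w ≤ e` -/
  v : ℕ → (Additive Fˣ →+ ℤ)
  /-- the vertical valuations of `F1`, labelled by `w ≤ e - 1` -/
  v1 : ℕ → (Additive F1ˣ →+ ℤ)
  v_c : ∀ w, w ≤ e → ∀ c, v w (Additive.ofMul (cF c)) = (t4eMu q e w : ℤ) * vL (Additive.ofMul c)
  v1_c : ∀ w, w + 1 ≤ e → ∀ c,
    v1 w (Additive.ofMul (cF1 c)) = (t4eMu q (e - 1) w : ℤ) * vL (Additive.ofMul c)
  /-- `α`, non-split points of the fibre -/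
  v1_Nα : ∀ w, w + 2 ≤ e → ∀ y,
    v1 w (Additive.ofMul (Nα y)) = (t4eFa q e w : ℤ) * v w (Additive.ofMul y)
  /-- `α`, the split point `(e - 1, 0)` -/
  v1_Nα_split : ∀ y,
    v1 (e - 1) (Additive.ofMul (Nα y)) = v (e - 1) (Additive.ofMul y) + v e (Additive.ofMul y)
  /-- `β`, non-split points of the fibre -/
  v1_Nβ : ∀ w, 2 ≤ w → w ≤ e → ∀ y,
    v1 (w - 1) (Additive.ofMul (Nβ y)) = (t4eFb q e w : ℤ) * v w (Additive.ofMul y)
  /-- `β`, the split point `(0, e - 1)` -/
  v1_Nβ_split : ∀ y,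
    v1 0 (Additive.ofMul (Nβ y)) = v 0 (Additive.ofMul y) + v 1 (Additive.ofMul y)
  approx_v : ∀ n : ℕ → ℤ, ∃ g : Fˣ, ∀ w, w ≤ e → v w (Additive.ofMul g) = n w

namespace T4eA

variable {L F1 F : Type} [Field L] [Field F1] [Field F] {q e m : ℕ} (D : T4eA L F1 F q e m)

/-- the units at all vertical valuations -/
def U : Subgroup Fˣ where
  carrier := {y | ∀ w, w ≤ e → D.v w (Additive.ofMul y) = 0}
  one_mem' := fun w _ => map_zero _
  mul_mem' := fun {a b} ha hb w hw => by
    show D.v w (Additive.ofMul (a * b)) = 0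
    rw [ofMul_mul, map_add, ha w hw, hb w hw, add_zero]
  inv_mem' := fun {a} ha w hw => by
    show D.v w (Additive.ofMul a⁻¹) = 0
    rw [ofMul_inv, map_neg, ha w hw, neg_zero]

theorem mem_U {y : Fˣ} : y ∈ D.U ↔ ∀ w, w ≤ e → D.v w (Additive.ofMul y) = 0 := Iff.rfl

/-- the units at all vertical valuations of the lower level -/
def U1 : Subgroup F1ˣ where
  carrier := {y | ∀ w, w + 1 ≤ e → D.v1 w (Additive.ofMul y) = 0}
  one_mem' := fun w _ => map_zero _
  mul_mem' := fun {a b} ha hb w hw => by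
    show D.v1 w (Additive.ofMul (a * b)) = 0
    rw [ofMul_mul, map_add, ha w hw, hb w hw, add_zero]
  inv_mem' := fun {a} ha w hw => by
    show D.v1 w (Additive.ofMul a⁻¹) = 0
    rw [ofMul_inv, map_neg, ha w hw, neg_zero]

theorem mem_U1 {y : F1ˣ} : y ∈ D.U1 ↔ ∀ w, w + 1 ≤ e → D.v1 w (Additive.ofMul y) = 0 := Iff.rfl

/-- the units of the constant field -/
def UL : Subgroup Lˣ where
  carrier := {c | D.vL (Additive.ofMul c) = 0}
  one_mem' := map_zero _
  mul_mem' := fun {a b} ha hb => by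
    show D.vL (Additive.ofMul (a * b)) = 0
    rw [ofMul_mul, map_add, ha, hb, add_zero]
  inv_mem' := fun {a} ha => by
    show D.vL (Additive.ofMul a⁻¹) = 0
    rw [ofMul_inv, map_neg, ha, neg_zero]

theorem mem_UL {c : Lˣ} : c ∈ D.UL ↔ D.vL (Additive.ofMul c) = 0 := Iff.rfl

theorem cF1_mem_U1 {c : Lˣ} (hc : c ∈ D.UL) : D.cF1 c ∈ D.U1 := fun w hw => by
  rw [D.v1_c w hw, hc, mul_zero]

theorem Nα_mem_U1 (he : 2 ≤ e) {y : Fˣ} (hy : y ∈ D.U) : D.Nα y ∈ D.U1 := fun w hw => by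
  rcases Nat.lt_or_ge (w + 1) e with h | h
  · rw [D.v1_Nα w (by omega), hy w (by omega), mul_zero]
  · have hw' : w = e - 1 := by omega
    subst hw'
    rw [D.v1_Nα_split, hy _ (by omega), hy _ le_rfl, add_zero]

theorem Nβ_mem_U1 (he : 2 ≤ e) {y : Fˣ} (hy : y ∈ D.U) : D.Nβ y ∈ D.U1 := fun w hw => by
  rcases Nat.eq_zero_or_pos w with h | h
  · subst h
    rw [D.v1_Nβ_split, hy _ (by omega), hy _ (by omega), add_zero]
  · have := D.v1_Nβ (w + 1) (by omega) (by omega) y
    rw [Nat.add_sub_cancel] at this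
    rw [this, hy _ (by omega), mul_zero]

end T4eA

/-- **interface of step B** at level `q ^ e`: residue maps on the units, the norm formulas for
residues at the non-split points, CRT for residues, and the `q`-group step -/
structure T4eB {L F1 F : Type} [Field L] [Field F1] [Field F] {q e m : ℕ} (D : T4eA L F1 F q e m)
    (he : 2 ≤ e) (k E1 E : Type) [Field k] [Field E1] [Field E] where
  /-- the residue maps of `F`, labelled by `w ≤ e` -/
  r : ℕ → (↥D.U →* Eˣ)
  /-- the residue maps of `F1`, labelled by `w ≤ e - 1` -/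
  r1 : ℕ → (↥D.U1 →* E1ˣ)
  /-- residue of the constant field -/
  rL : ↥D.UL →* kˣ
  /-- the constants of `E` -/
  κ : kˣ →* Eˣ
  /-- the constants of `E1` -/
  κ1 : kˣ →* E1ˣ
  /-- `k` is closed under `m`-th roots -/
  k_div : ∀ a : kˣ, ∃ b : kˣ, b ^ m = a
  r1_c : ∀ w, w + 1 ≤ e → ∀ c : ↥D.UL, r1 w ⟨D.cF1 c, D.cF1_mem_U1 c.2⟩ = κ1 (rL c)
  /-- the embedding of the residue field of `v¹_w` into that of `v_w` along `α` (`w + 2 ≤ e`) -/
  jα : ℕ → (E1ˣ →* Eˣ)
  /-- the embedding of the residue field of `v¹_(w-1)` into that of `v_w` along `β` (`2 ≤ w`) -/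
  jβ : ℕ → (E1ˣ →* Eˣ)
  jα_κ : ∀ w a, ∃ b, jα w (κ1 a) = κ b
  jβ_κ : ∀ w a, ∃ b, jβ w (κ1 a) = κ b
  red_α : ∀ w, w + 2 ≤ e → ∀ y : ↥D.U, jα w (r1 w ⟨D.Nα y, D.Nα_mem_U1 he y.2⟩) = r w y ^ q
  red_β : ∀ w, 2 ≤ w → w ≤ e → ∀ y : ↥D.U,
    jβ w (r1 (w - 1) ⟨D.Nβ y, D.Nβ_mem_U1 he y.2⟩) = r w y ^ q
  /-- `α`, the split point `(e - 1, 0)`: `V_e` (`e = f = 1`) and `V_(e-1)` (`e = q - 1`, `f = 1`) -/
  red_α_split : ∀ y : ↥D.U,
    jα (e - 1) (r1 (e - 1) ⟨D.Nα y, D.Nα_mem_U1 he y.2⟩) = r e y * r (e - 1) y ^ (q - 1)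
  /-- `β`, the split point `(0, e - 1)`: `V_0` (`e = f = 1`) and `V_1` (`e = q - 1`, `f = 1`) -/
  red_β_split : ∀ y : ↥D.U,
    jβ 1 (r1 0 ⟨D.Nβ y, D.Nβ_mem_U1 he y.2⟩) = r 0 y * r 1 y ^ (q - 1)
  approx_r : ∀ a : ℕ → Eˣ, ∃ g : ↥D.U, ∀ w, w ≤ e → r w g = a w
  /-- the units congruent to `1` modulo `q` -/
  U1q : Subgroup Fˣ
  qgrp : ∀ z : ↥D.U, (∀ w, w ≤ e → r w z = 1) →
    ∃ g : ↥D.U, (z : Fˣ) * ((g : Fˣ) ^ m)⁻¹ ∈ U1q

end Fermat.Agent.T4E
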