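/-
T4E-N (helper4), chain part 4: **the product formula `T4nProdB 𝔓 ⊤ (N'' p^k p)`**
(`(N_β y)(𝔮^p) = ∏_{b < p} y(ζ^b 𝔮)`) at the lower level `N1 = N'' p^k p`, from helper7's
`t4vn_normB_eq_prod` (`Lib/T4/Inst/NormProd.lean`, stated for a general `N'`; here `N' = N'' p^k`).

The only input is the degree `[F : α F1] = p` of the inclusion of the level `N1` in the level `N1 p`
(`hdegA`; geometry, or the index of `Γ₀(N1 p)` in `Γ₀(N1)` for `p ∣ N1`); the degree of the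
`β`-structure is the same by the Atkin–Lehner intertwining `w_{p^e} ∘ α = β ∘ w_{p^(e-1)}`
(`t4eWLev_alpha`).
-/
import Mathlib
import Fermat.Agent.Lib.T4.Inst.NormProd
import Fermat.Agent.Lib.T4.New.ProdBInst
import Fermat.Agent.Lib.T4E.New.ALe

set_option autoImplicit false
set_option linter.unusedSectionVars false
set_option linter.unusedVariables false
set_option linter.style.haveILetI false
set_option synthInstance.maxHeartbeats 400000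

open HahnSeries ModularCurve Fermat.Agent.T1 Fermat.Agent.T2 Fermat.Agent.TW Fermat.Agent.S05Lib

noncomputable section

namespace Fermat.Agent.T4

local notation "Qb" => AlgebraicClosure ℚ

attribute [local instance] t4e_fact t4e_neZero_lvl t4e_neZero_lvl1

section Level

variable (𝔓 : FFPlace) (H : Subgroup 𝔓.I) (N'' k : ℕ) [NeZero N''] (h : ¬ 𝔓.p ∣ N'')

/-- `N'' p^k` is non-zero -/
theorem t4e_neZero_lvl0 : NeZero (N'' * 𝔓.p ^ k) :=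
  ⟨Nat.mul_ne_zero (NeZero.ne N'') (pow_ne_zero k 𝔓.hp.ne_zero)⟩

attribute [local instance] t4e_neZero_lvl0

include h in
/-- the degrees of the `α`- and `β`-structures of `F_{N'' p^k p p}` over `F_{N'' p^k p}` agree -/
theorem t4e_finrank_B :
    @Module.finrank ↥(TaF ↥(tbFix 𝔓 H) (N'' * 𝔓.p ^ k * 𝔓.p))
        ↥(TaF ↥(tbFix 𝔓 H) (N'' * 𝔓.p ^ k * 𝔓.p * 𝔓.p)) _ _
        (@Algebra.toModule _ _ _ _ (t4vnAlgB ↥(tbFix 𝔓 H) (N'' * 𝔓.p ^ k) 𝔓.p))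
      = @Module.finrank ↥(TaF ↥(tbFix 𝔓 H) (N'' * 𝔓.p ^ k * 𝔓.p))
        ↥(TaF ↥(tbFix 𝔓 H) (N'' * 𝔓.p ^ k * 𝔓.p * 𝔓.p)) _ _
        (@Algebra.toModule _ _ _ _ (t2iAlgebra ↥(tbFix 𝔓 H) (N'' * 𝔓.p ^ k * 𝔓.p) 𝔓.p)) := by
  symm
  refine @Algebra.finrank_eq_of_equiv_equiv ↥(TaF ↥(tbFix 𝔓 H) (N'' * 𝔓.p ^ k * 𝔓.p))
    ↥(TaF ↥(tbFix 𝔓 H) (N'' * 𝔓.p ^ k * 𝔓.p * 𝔓.p)) _ _
    (t2iAlgebra ↥(tbFix 𝔓 H) (N'' * 𝔓.p ^ k * 𝔓.p) 𝔓.p)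
    ↥(TaF ↥(tbFix 𝔓 H) (N'' * 𝔓.p ^ k * 𝔓.p))
    ↥(TaF ↥(tbFix 𝔓 H) (N'' * 𝔓.p ^ k * 𝔓.p * 𝔓.p)) _ _
    (t4vnAlgB ↥(tbFix 𝔓 H) (N'' * 𝔓.p ^ k) 𝔓.p)
    (t4eWLev1 𝔓 H N'' k h).toRingEquiv (t4eWLev 𝔓 H N'' k h).toRingEquiv ?_
  exact RingHom.ext fun g => (t4eWLev_alpha 𝔓 H N'' k h g).symm

include h in
/-- **`T4nProdB` at the level `N'' p^k p`** from the degree of the `α`-structure -/
theorem t4e_T4nProdB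
    (hdegA : @Module.finrank ↥(TaF ↥(tbFix 𝔓 (⊤ : Subgroup 𝔓.I)) (N'' * 𝔓.p ^ k * 𝔓.p))
        ↥(TaF ↥(tbFix 𝔓 (⊤ : Subgroup 𝔓.I)) (N'' * 𝔓.p ^ k * 𝔓.p * 𝔓.p)) _ _
        (@Algebra.toModule _ _ _ _
          (t2iAlgebra ↥(tbFix 𝔓 (⊤ : Subgroup 𝔓.I)) (N'' * 𝔓.p ^ k * 𝔓.p) 𝔓.p)) = 𝔓.p) :
    T4nProdB 𝔓 ⊤ (N'' * 𝔓.p ^ k * 𝔓.p) := by
  intro ζ hζ y
  have hp : 𝔓.p.Prime := 𝔓.hp
  have hζq : ζ ^ 𝔓.p = 1 := by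
    apply Units.ext
    rw [Units.val_pow_eq_pow_val]
    exact hζ.pow_eq_one
  have hζ1 : ζ ≠ 1 := by
    intro h1
    have h2 : (ζ : Qb) = 1 := by rw [h1]; rfl
    have := hζ.eq_orderOf
    rw [h2, orderOf_one] at this
    exact hp.one_lt.ne' this
  have hdegB := (t4e_finrank_B 𝔓 ⊤ N'' k h).trans hdegA
  have key := t4vn_normB_eq_prod (L := ↥(tbFix 𝔓 (⊤ : Subgroup 𝔓.I))) (L' := Qb)
    (N' := N'' * 𝔓.p ^ k) ζ hp hζq hζ1 hdegB y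
  have hR : ∀ b ∈ Finset.range 𝔓.p,
      tkrTw (ζ ^ b) (tbPhi 𝔓 ⊤ ((y : ↥(tbLevF 𝔓 (N'' * 𝔓.p ^ k * 𝔓.p * 𝔓.p) ⊤)) :
        LaurentSeries ↥(tbFix 𝔓 (⊤ : Subgroup 𝔓.I))))
      = t4vSig (ζ ^ b) (coeffMap (algebraMap ↥(tbFix 𝔓 (⊤ : Subgroup 𝔓.I)) Qb)
        ((y : ↥(tbLevF 𝔓 (N'' * 𝔓.p ^ k * 𝔓.p * 𝔓.p) ⊤)) :
          LaurentSeries ↥(tbFix 𝔓 (⊤ : Subgroup 𝔓.I)))) :=
    fun b _ => t4vn_tkrTw_eq _ _
  rw [Finset.prod_congr rfl hR, ← key]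
  show qExpand Qb 𝔓.p (coeffMap (algebraMap ↥(tbFix 𝔓 (⊤ : Subgroup 𝔓.I)) Qb) _) = _
  rw [← coeffMap_qExpand]
  rfl

end Level

end Fermat.Agent.T4
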