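/-
T4E-N (helper4), steps A + B at level `q^e`, `e ≥ 3`, part 2: **step A** (the component group
without intersection theory).

If `N_α y` and `N_β y` are `constant × m-th power` (constants of valuation `t_α`, `t_β`), then the
valuations `n_w = v_w(y)` satisfy (norm formulas, `f μ = q μ¹` on the non-split fibres)
`q n_w ≡ t_α μ_w` for `w + 2 ≤ e`, `q n_w ≡ t_β μ_w` for `2 ≤ w`, and the split relation
`n_(e-1) + n_e ≡ t_α`; as `e ≥ 3`, `w = e - 1, e` are `≥ 2`, whence `q t_α ≡ q t_β` and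
`q² n_w ≡ q t_α μ_w = v_w(π ^ (q t_α))` for ALL `w` (modulo `m`).  By weak approximation
`y ^ (q²) = π ^ t · g ^ m · unit`.
-/
import Mathlib
import Fermat.Agent.Lib.T4E.New.ABDefs

set_option autoImplicit false
set_option linter.unusedSectionVars false
set_option linter.unusedVariables false
set_option linter.style.haveILetI false

namespace Fermat.Agent.T4E

variable {L F1 F : Type} [Field L] [Field F1] [Field F] {q e m : ℕ} (D : T4eA L F1 F q e m)

theorem T4eA.vL_zpow (t : ℤ) : D.vL (Additive.ofMul (D.π ^ t)) = t := by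
  rw [ofMul_zpow, map_zsmul, D.vL_π, smul_eq_mul, mul_one]

/-- **step A** at level `q ^ e`, `e ≥ 3` -/
theorem t4e_stepA (hq : q.Prime) (he : 3 ≤ e) (y : Fˣ)
    (hα : ∃ (c : Lˣ) (g : F1ˣ), D.Nα y = D.cF1 c * g ^ m)
    (hβ : ∃ (c : Lˣ) (g : F1ˣ), D.Nβ y = D.cF1 c * g ^ m) :
    ∃ (c : Lˣ) (g : Fˣ), y ^ (q ^ 2) * (D.cF c * g ^ m)⁻¹ ∈ D.U := by
  obtain ⟨c₁, g₁, h₁⟩ := hα
  obtain ⟨c₂, g₂, h₂⟩ := hβ
  set n : ℕ → ℤ := fun w => D.v w (Additive.ofMul y) with hn
  set tα : ℤ := D.vL (Additive.ofMul c₁) with htα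
  set tβ : ℤ := D.vL (Additive.ofMul c₂) with htβ
  set x : ℕ → ℤ := fun w => D.v1 w (Additive.ofMul g₁) with hx
  set z : ℕ → ℤ := fun w => D.v1 w (Additive.ofMul g₂) with hz
  -- the congruences
  have eα : ∀ w, w + 2 ≤ e →
      (t4eFa q e w : ℤ) * n w = (t4eMu q (e - 1) w : ℤ) * tα + m * x w := fun w hw => by
    rw [hn, ← D.v1_Nα w hw, h₁, ofMul_mul, map_add, D.v1_c w (by omega), ofMul_pow, map_nsmul,
      nsmul_eq_mul]
  have eαs : n (e - 1) + n e = tα + m * x (e - 1) := by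
    have h := D.v1_Nα_split y
    rw [h₁, ofMul_mul, map_add, D.v1_c (e - 1) (by omega), ofMul_pow, map_nsmul, nsmul_eq_mul,
      t4eMu_self] at h
    simp only [hn, hx, htα]
    rw [← h]
    push_cast
    ring
  have eβ : ∀ w, 2 ≤ w → w ≤ e →
      (t4eFb q e w : ℤ) * n w = (t4eMu q (e - 1) (w - 1) : ℤ) * tβ + m * z (w - 1) :=
    fun w hw hw' => by
    rw [hn, ← D.v1_Nβ w hw hw', h₂, ofMul_mul, map_add, D.v1_c (w - 1) (by omega), ofMul_pow,
      map_nsmul, nsmul_eq_mul]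
  -- the two top components through `β`
  have hb1 : (q : ℤ) * n (e - 1) = ((q : ℤ) - 1) * tβ + m * z (e - 1 - 1) := by
    have h := eβ (e - 1) (by omega) (by omega)
    have hf : t4eFb q e (e - 1) = q := by
      rw [t4eFb, if_pos (by omega)]
    rw [hf, t4eMu_beta_insep q (by omega) (by omega), t4eMu_pred hq (by omega)] at h
    rw [h]
    have hq1 : 1 ≤ q := hq.one_lt.le
    push_cast [hq1]
    ring
  have hb2 : (q : ℤ) * n e = tβ + m * z (e - 1) := by
    have h := eβ e (by omega) le_rfl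
    have hf : t4eFb q e e = q := by
      rw [t4eFb, if_pos (by omega)]
    rw [hf, t4eMu_beta_insep q (by omega) le_rfl, t4eMu_self] at h
    rw [h]
    push_cast
    ring
  -- `q t_β = q t_α + m d`
  set d : ℤ := (q : ℤ) * x (e - 1) - z (e - 1 - 1) - z (e - 1) with hd
  have htt : (q : ℤ) * tβ = q * tα + m * d := by
    rw [hd]
    linear_combination (q : ℤ) * eαs - hb1 - hb2
  -- the exponents of the correcting element
  set n' : ℕ → ℤ := fun w =>
    if w + 2 ≤ e then (if 2 * w + 1 ≤ e then (q : ℤ) * x w else (q : ℤ) ^ 2 * x w)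
    else (t4eMu q e w : ℤ) * d + q * z (w - 1) with hn'
  obtain ⟨g, hg⟩ := D.approx_v n'
  refine ⟨D.π ^ ((q : ℤ) * tα), g, fun w hw => ?_⟩
  show D.v w (Additive.ofMul (y ^ (q ^ 2) * (D.cF (D.π ^ ((q : ℤ) * tα)) * g ^ m)⁻¹)) = 0
  rw [ofMul_mul, map_add, ofMul_pow, map_nsmul, ofMul_inv, map_neg, ofMul_mul, map_add,
    D.v_c w hw, D.vL_zpow, ofMul_pow, map_nsmul, hg w hw, nsmul_eq_mul, nsmul_eq_mul]
  have hnw : D.v w (Additive.ofMul y) = n w := rfl
  rw [hnw]
  by_cases h1 : w + 2 ≤ e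
  · have hα' := eα w h1
    by_cases h2 : 2 * w + 1 ≤ e
    · have hf : t4eFa q e w = q := by rw [t4eFa, if_pos h2]
      rw [hf, t4eMu_alpha_insep q h2] at hα'
      simp only [hn', if_pos h1, if_pos h2]
      push_cast
      linear_combination (q : ℤ) * hα'
    · have hf : t4eFa q e w = 1 := by rw [t4eFa, if_neg h2]
      rw [hf] at hα'
      have hμ := t4eMu_alpha_ram hq h1 (by omega)
      simp only [hn', if_pos h1, if_neg h2]
      rw [hμ]
      push_cast
      push_cast at hα'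
      linear_combination (q : ℤ) ^ 2 * hα'
  · have hβ' := eβ w (by omega) hw
    have hf : t4eFb q e w = q := by rw [t4eFb, if_pos (by omega)]
    rw [hf, t4eMu_beta_insep q (by omega) hw] at hβ'
    simp only [hn', if_neg h1]
    push_cast
    linear_combination (q : ℤ) * hβ' + (t4eMu q e w : ℤ) * htt

end Fermat.Agent.T4E
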