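/-
T4E-N (helper4), steps A + B at level `q^e`, `e ≥ 3`, part 3: **step B** (the abelian part) and the
combination A + B.

For a unit `y` (at all vertical valuations) such that `N_α y`, `N_β y` are `constant × m-th power`:
`ȳ_w ^ q` is an `m`-th power for `w + 2 ≤ e` (norm formula along `α`) and for `2 ≤ w` (along `β`);
for `e ≥ 3` this covers every `w`, so every `ȳ_w` is an `m`-th power (`gcd (q, m) = 1`); by CRT
`y = g ^ m z` with all residues of `z` equal to `1`, and the `q`-group step gives `z = g' ^ m z'`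
with `z' ≡ 1` modulo `q`.  No torsion is lost in step B (unlike `e = 2`).
-/
import Mathlib
import Fermat.Agent.Lib.T4E.New.StepA

set_option autoImplicit false
set_option linter.unusedSectionVars false
set_option linter.unusedVariables false
set_option linter.style.haveILetI false

namespace Fermat.Agent.T4E

section Gen

/-- in a commutative group: if `x ^ q` is an `m`-th power and `gcd (m, q) = 1`, then `x` is an
`m`-th power -/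
theorem t4e_isMth_of_pow {G : Type*} [CommGroup G] {m q : ℕ} (hqm : Nat.Coprime m q) {x : G}
    (h : ∃ h : G, x ^ q = h ^ m) : ∃ h : G, x = h ^ m := by
  obtain ⟨h, hh⟩ := h
  have hb : (m : ℤ) * Nat.gcdA m q + (q : ℤ) * Nat.gcdB m q = 1 := by
    have := Nat.gcd_eq_gcd_ab m q
    rw [hqm] at this
    exact_mod_cast this.symm
  refine ⟨x ^ (Nat.gcdA m q) * h ^ (Nat.gcdB m q), ?_⟩
  have h1 : x = x ^ ((m : ℤ) * Nat.gcdA m q + (q : ℤ) * Nat.gcdB m q) := by rw [hb, zpow_one]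
  rw [mul_pow, ← zpow_natCast (x ^ Nat.gcdA m q), ← zpow_mul, ← zpow_natCast (h ^ Nat.gcdB m q),
    ← zpow_mul, mul_comm (Nat.gcdB m q) (m : ℤ), zpow_mul h, zpow_natCast h, ← hh,
    ← zpow_natCast x q, ← zpow_mul]
  conv_lhs => rw [h1]
  rw [zpow_add, mul_comm (Nat.gcdA m q) (m : ℤ)]

end Gen

variable {L F1 F : Type} [Field L] [Field F1] [Field F] {q e m : ℕ} (D : T4eA L F1 F q e m)

/-- normalisation of `constant × m-th power` for units of the lower level -/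
theorem T4eA.normalise (he : 1 ≤ e) (hm : m ≠ 0) {x : F1ˣ} (hx : x ∈ D.U1)
    (h : ∃ (c : Lˣ) (g : F1ˣ), x = D.cF1 c * g ^ m) :
    ∃ (c : Lˣ) (g : F1ˣ), c ∈ D.UL ∧ g ∈ D.U1 ∧ x = D.cF1 c * g ^ m := by
  obtain ⟨c, g, rfl⟩ := h
  have hm' : (m : ℤ) ≠ 0 := by exact_mod_cast hm
  have hw : ∀ w, w + 1 ≤ e → (t4eMu q (e - 1) w : ℤ) * D.vL (Additive.ofMul c)
      + m * D.v1 w (Additive.ofMul g) = 0 := fun w hw => by
    have := hx w hw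
    rw [ofMul_mul, map_add, D.v1_c w hw, ofMul_pow, map_nsmul, nsmul_eq_mul] at this
    exact this
  set k := D.v1 0 (Additive.ofMul g) with hk
  have h0 : D.vL (Additive.ofMul c) = -(m * k) := by
    have := hw 0 (by omega)
    rw [t4eMu_zero] at this
    push_cast at this
    linarith
  have hgw : ∀ w, w + 1 ≤ e → D.v1 w (Additive.ofMul g) = (t4eMu q (e - 1) w : ℤ) * k :=
    fun w hw' => by
    have := hw w hw'
    rw [h0] at this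
    have h2 : (m : ℤ) * D.v1 w (Additive.ofMul g) = m * ((t4eMu q (e - 1) w : ℤ) * k) := by
      linarith
    exact mul_left_cancel₀ hm' h2
  refine ⟨c * D.π ^ ((m : ℤ) * k), g * (D.cF1 D.π) ^ (-k), ?_, fun w hw' => ?_, ?_⟩
  · show D.vL (Additive.ofMul (c * D.π ^ ((m : ℤ) * k))) = 0
    rw [ofMul_mul, map_add, D.vL_zpow, h0]
    ring
  · show D.v1 w (Additive.ofMul (g * (D.cF1 D.π) ^ (-k))) = 0
    rw [ofMul_mul, map_add, ofMul_zpow, map_zsmul, D.v1_c w hw', D.vL_π, hgw w hw', smul_eq_mul,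
      mul_one]
    ring
  · rw [map_mul, map_zpow, mul_pow, ← zpow_natCast ((D.cF1 D.π) ^ (-k)) m, ← zpow_mul,
      mul_comm (-k) (m : ℤ), mul_neg, zpow_neg]
    rw [mul_assoc, mul_comm (D.cF1 D.π ^ ((m : ℤ) * k)), mul_assoc, inv_mul_cancel, mul_one]

variable {he2 : 2 ≤ e} {k E1 E : Type} [Field k] [Field E1] [Field E] (B : T4eB D he2 k E1 E)

/-- residues of `constant × m-th power` are `constant × m-th power` -/
theorem T4eB.r1_isMth {w : ℕ} (hw : w + 1 ≤ e) {x : F1ˣ} (hx : x ∈ D.U1) {c : Lˣ} {g : F1ˣ}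
    (hc : c ∈ D.UL) (hg : g ∈ D.U1) (h : x = D.cF1 c * g ^ m) :
    ∃ a : kˣ, B.r1 w ⟨x, hx⟩ = B.κ1 a * (B.r1 w ⟨g, hg⟩) ^ m := by
  refine ⟨B.rL ⟨c, hc⟩, ?_⟩
  have h1 : (⟨x, hx⟩ : ↥D.U1) = ⟨D.cF1 c, D.cF1_mem_U1 hc⟩ * ⟨g, hg⟩ ^ m := Subtype.ext h
  rw [h1, map_mul, map_pow, B.r1_c w hw ⟨c, hc⟩]

/-- constants of `E` are `m`-th powers -/
theorem T4eB.κ_isMth (a : kˣ) : ∃ h : Eˣ, B.κ a = h ^ m := by
  obtain ⟨b, hb⟩ := B.k_div a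
  exact ⟨B.κ b, by rw [← map_pow, hb]⟩

/-- **step B** at level `q ^ e`, `e ≥ 3` -/
theorem t4e_stepB (he : 3 ≤ e) (hm : m ≠ 0) (hqm : Nat.Coprime m q) (y : Fˣ) (hy : y ∈ D.U)
    (hα : ∃ (c : Lˣ) (g : F1ˣ), D.Nα y = D.cF1 c * g ^ m)
    (hβ : ∃ (c : Lˣ) (g : F1ˣ), D.Nβ y = D.cF1 c * g ^ m) :
    ∃ g : Fˣ, y * (g ^ m)⁻¹ ∈ B.U1q := by
  set yU : ↥D.U := ⟨y, hy⟩ with hyU
  obtain ⟨c₁, g₁, hc₁, hg₁, h₁⟩ := D.normalise (by omega) hm (D.Nα_mem_U1 he2 hy) hα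
  obtain ⟨c₂, g₂, hc₂, hg₂, h₂⟩ := D.normalise (by omega) hm (D.Nβ_mem_U1 he2 hy) hβ
  -- every residue of `y` is an `m`-th power
  have hres : ∀ w, w ≤ e → ∃ h : Eˣ, B.r w yU = h ^ m := fun w hw => by
    apply t4e_isMth_of_pow hqm
    by_cases h1 : w + 2 ≤ e
    · rw [← B.red_α w h1 yU]
      obtain ⟨a, ha⟩ := T4eB.r1_isMth D B (w := w) (by omega) (D.Nα_mem_U1 he2 hy) hc₁ hg₁ h₁
      obtain ⟨b, hb⟩ := B.jα_κ w a
      obtain ⟨b', hb'⟩ := T4eB.κ_isMth D B b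
      exact ⟨b' * B.jα w (B.r1 w ⟨g₁, hg₁⟩), by rw [ha, map_mul, map_pow, hb, hb', mul_pow]⟩
    · rw [← B.red_β w (by omega) hw yU]
      obtain ⟨a, ha⟩ := T4eB.r1_isMth D B (w := w - 1) (by omega) (D.Nβ_mem_U1 he2 hy) hc₂ hg₂ h₂
      obtain ⟨b, hb⟩ := B.jβ_κ w a
      obtain ⟨b', hb'⟩ := T4eB.κ_isMth D B b
      exact ⟨b' * B.jβ w (B.r1 (w - 1) ⟨g₂, hg₂⟩),
        by rw [ha, map_mul, map_pow, hb, hb', mul_pow]⟩
  -- CRT
  classical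
  set a : ℕ → Eˣ := fun w => if hw : w ≤ e then (hres w hw).choose else 1 with ha
  have ha' : ∀ w, w ≤ e → B.r w yU = a w ^ m := fun w hw => by
    rw [ha]
    simp only [dif_pos hw]
    exact (hres w hw).choose_spec
  obtain ⟨g, hg⟩ := B.approx_r a
  set z : ↥D.U := yU * (g ^ m)⁻¹ with hz
  have hz1 : ∀ w, w ≤ e → B.r w z = 1 := fun w hw => by
    rw [hz, map_mul, map_inv, map_pow, hg w hw, ha' w hw, mul_inv_cancel]
  obtain ⟨g', hg'⟩ := B.qgrp z hz1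
  refine ⟨(g : Fˣ) * (g' : Fˣ), ?_⟩
  have h3 : ((z : ↥D.U) : Fˣ) = y * (((g : ↥D.U) : Fˣ) ^ m)⁻¹ := rfl
  rw [h3] at hg'
  rw [mul_pow, mul_inv, ← mul_assoc]
  exact hg'

/-- **steps A + B** at level `q ^ e`, `e ≥ 3`: `y ^ (q²) = constant × m-th power × z'` with
`z' ≡ 1` modulo `q` -/
theorem t4e_stepAB (hq : q.Prime) (he : 3 ≤ e) (hm : m ≠ 0) (hqm : Nat.Coprime m q) (y : Fˣ)
    (hα : ∃ (c : Lˣ) (g : F1ˣ), D.Nα y = D.cF1 c * g ^ m)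
    (hβ : ∃ (c : Lˣ) (g : F1ˣ), D.Nβ y = D.cF1 c * g ^ m) :
    ∃ (c : Lˣ) (g : Fˣ), y ^ (q ^ 2) * (D.cF c * g ^ m)⁻¹ ∈ B.U1q := by
  obtain ⟨c₁, g₁, hy₁⟩ := t4e_stepA D hq he y hα hβ
  set y₁ : Fˣ := y ^ (q ^ 2) * (D.cF c₁ * g₁ ^ m)⁻¹ with hy₁def
  obtain ⟨cα, gα, hcα⟩ := hα
  obtain ⟨cβ, gβ, hcβ⟩ := hβ
  have hα₁ : ∃ (c : Lˣ) (g : F1ˣ), D.Nα y₁ = D.cF1 c * g ^ m := by
    refine ⟨cα ^ (q ^ 2) * (c₁ ^ q)⁻¹, gα ^ (q ^ 2) * (D.Nα g₁)⁻¹, ?_⟩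
    rw [hy₁def, map_mul, map_pow, map_inv, map_mul, map_pow, D.Nα_c, hcα, map_mul, map_pow,
      map_inv, map_pow]
    simp only [mul_pow, mul_inv, inv_pow, ← pow_mul, mul_comm (q ^ 2) m]
    simp only [mul_assoc, mul_comm, mul_left_comm]
  have hβ₁ : ∃ (c : Lˣ) (g : F1ˣ), D.Nβ y₁ = D.cF1 c * g ^ m := by
    refine ⟨cβ ^ (q ^ 2) * (c₁ ^ q)⁻¹, gβ ^ (q ^ 2) * (D.Nβ g₁)⁻¹, ?_⟩
    rw [hy₁def, map_mul, map_pow, map_inv, map_mul, map_pow, D.Nβ_c, hcβ, map_mul, map_pow,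
      map_inv, map_pow]
    simp only [mul_pow, mul_inv, inv_pow, ← pow_mul, mul_comm (q ^ 2) m]
    simp only [mul_assoc, mul_comm, mul_left_comm]
  obtain ⟨g₂, hg₂⟩ := t4e_stepB D B he hm hqm y₁ hy₁ hα₁ hβ₁
  refine ⟨c₁, g₁ * g₂, ?_⟩
  have e' : y ^ (q ^ 2) * (D.cF c₁ * (g₁ * g₂) ^ m)⁻¹ = y₁ * (g₂ ^ m)⁻¹ := by
    rw [hy₁def]
    simp only [mul_pow, mul_inv]
    simp only [mul_assoc, mul_comm, mul_left_comm]
  rw [e']
  exact hg₂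

end Fermat.Agent.T4E
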