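/-
T4E-N (helper4), steps A + B at level `q^e`, `e ≥ 3`, part 6: the output of steps A + B in the form
consumed by step C.

`z := y ^ (q²) / (c · g ^ m)` is `≡ 1` modulo `q`, and `N_α z`, `N_β z` are still
`constant × m-th power`.
-/
import Mathlib
import Fermat.Agent.Lib.T4E.New.StepB

set_option autoImplicit false
set_option linter.unusedSectionVars false
set_option linter.unusedVariables false

namespace Fermat.Agent.T4E

variable {L F1 F : Type} [Field L] [Field F1] [Field F] {q e m : ℕ} (D : T4eA L F1 F q e m)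
  {he2 : 2 ≤ e} {k E1 E : Type} [Field k] [Field E1] [Field E] (B : T4eB D he2 k E1 E)

/-- `constant × m-th power` is stable under `y ↦ y ^ n / (c · g ^ m)` (for `N_α`) -/
theorem T4eA.Nα_isConstPow {y : Fˣ} (hα : ∃ (c : Lˣ) (g : F1ˣ), D.Nα y = D.cF1 c * g ^ m)
    (n : ℕ) (c : Lˣ) (g : Fˣ) :
    ∃ (c' : Lˣ) (g' : F1ˣ), D.Nα (y ^ n * (D.cF c * g ^ m)⁻¹) = D.cF1 c' * g' ^ m := by
  obtain ⟨cα, gα, hcα⟩ := hα
  refine ⟨cα ^ n * (c ^ q)⁻¹, gα ^ n * (D.Nα g)⁻¹, ?_⟩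
  rw [map_mul, map_pow, map_inv, map_mul, map_pow, D.Nα_c, hcα, map_mul, map_pow,
    map_inv, map_pow]
  simp only [mul_pow, mul_inv, inv_pow, ← pow_mul, mul_comm n m]
  simp only [mul_assoc, mul_comm, mul_left_comm]

/-- `constant × m-th power` is stable under `y ↦ y ^ n / (c · g ^ m)` (for `N_β`) -/
theorem T4eA.Nβ_isConstPow {y : Fˣ} (hβ : ∃ (c : Lˣ) (g : F1ˣ), D.Nβ y = D.cF1 c * g ^ m)
    (n : ℕ) (c : Lˣ) (g : Fˣ) :
    ∃ (c' : Lˣ) (g' : F1ˣ), D.Nβ (y ^ n * (D.cF c * g ^ m)⁻¹) = D.cF1 c' * g' ^ m := by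
  obtain ⟨cβ, gβ, hcβ⟩ := hβ
  refine ⟨cβ ^ n * (c ^ q)⁻¹, gβ ^ n * (D.Nβ g)⁻¹, ?_⟩
  rw [map_mul, map_pow, map_inv, map_mul, map_pow, D.Nβ_c, hcβ, map_mul, map_pow,
    map_inv, map_pow]
  simp only [mul_pow, mul_inv, inv_pow, ← pow_mul, mul_comm n m]
  simp only [mul_assoc, mul_comm, mul_left_comm]

/-- **steps A + B, full output** (`e ≥ 3`): `z = y ^ (q²) / (c · g ^ m)` is `≡ 1` modulo `q` and its
two norms are again `constant × m-th power` -/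
theorem t4e_stepAB_full (hq : q.Prime) (he : 3 ≤ e) (hm : m ≠ 0) (hqm : Nat.Coprime m q) (y : Fˣ)
    (hα : ∃ (c : Lˣ) (g : F1ˣ), D.Nα y = D.cF1 c * g ^ m)
    (hβ : ∃ (c : Lˣ) (g : F1ˣ), D.Nβ y = D.cF1 c * g ^ m) :
    ∃ (c : Lˣ) (g z : Fˣ), z = y ^ (q ^ 2) * (D.cF c * g ^ m)⁻¹ ∧ z ∈ B.U1q ∧
      (∃ (c' : Lˣ) (g' : F1ˣ), D.Nα z = D.cF1 c' * g' ^ m) ∧
      (∃ (c' : Lˣ) (g' : F1ˣ), D.Nβ z = D.cF1 c' * g' ^ m) := by
  obtain ⟨c, g, h⟩ := t4e_stepAB D B hq he hm hqm y hα hβ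
  exact ⟨c, g, _, rfl, h, D.Nα_isConstPow hα _ c g, D.Nβ_isConstPow hβ _ c g⟩

end Fermat.Agent.T4E
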