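/-
T4E-N (helper4), chain part 5: **the formal part of the top assembly**: `T4eCoreAt 𝔓 N'' k h c` from
an instance `(D, B)` of the interface structures `T4eA`, `T4eB` (steps A + B at level `p^e`,
`e = k + 2 ≥ 3`) with the dictionary `D.Nα = t4nNormA`, `D.Nβ = t4nNormB`, constants `= algebraMap`,
and the **step-C export** (`z ∈ B.U1q` Kummer with `constant × m-th power` norms ⟹
`z ^ cC = constant × m-th power`).  The multiplier is `c = p² · cC`.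

Inside: `N_β (w y) = w¹ (N_α y)` (Atkin–Lehner transport of the norm, `t4e_normA_of_normB_wLev`),
`t4e_stepAB_full`, stability of the two Kummer conditions under `y ↦ y ^ n / (c · g ^ m)`.
-/
import Mathlib
import Fermat.Agent.Lib.T4.New.CoreOf
import Fermat.Agent.Lib.T4E.New.ProdB
import Fermat.Agent.Lib.T4E.New.StepAB

set_option autoImplicit false
set_option linter.unusedSectionVars false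
set_option linter.unusedVariables false
set_option linter.style.haveILetI false
set_option synthInstance.maxHeartbeats 400000
set_option maxHeartbeats 2000000

open HahnSeries ModularCurve Fermat.Agent.T1 Fermat.Agent.T2 Fermat.Agent.TW AlgebraicCurve
  Fermat.Agent.T4E

noncomputable section

namespace Fermat.Agent.T4

local notation "Qb" => AlgebraicClosure ℚ

attribute [local instance] t4e_fact t4e_neZero_lvl t4e_neZero_lvl1 t4e_neZero_lvl0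

/-- **the contract of the geometry at a base level `N0`** (levels `N0 p` and `N0 p p`, `e` the
exponent of `p` in `N0 p p`): for every `m` prime to `p` an instance `(D, B)` of the interface
structures of steps A + B with the dictionary (constants `= algebraMap`, `D.Nα = t4nNormA`,
`D.Nβ = t4nNormB`) and the step-C export with the multiplier `cC` -/
def T4eInst (𝔓 : FFPlace) (N0 : ℕ) [NeZero N0] [NeZero (N0 * 𝔓.p)] [NeZero (N0 * 𝔓.p * 𝔓.p)]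
    (e : ℕ) (he : 2 ≤ e) (cC : ℕ) : Prop :=
  ∀ m : ℕ, Nat.Coprime m 𝔓.p → m ≠ 0 →
    ∃ (κ E1 E : Type) (_ : Field κ) (_ : Field E1) (_ : Field E)
      (D : T4eA ↥(tbFix 𝔓 (⊤ : Subgroup 𝔓.I)) ↥(tbLevF 𝔓 (N0 * 𝔓.p) ⊤)
        ↥(tbLevF 𝔓 (N0 * 𝔓.p * 𝔓.p) ⊤) 𝔓.p e m)
      (B : T4eB D he κ E1 E),
      (∀ c : (↥(tbFix 𝔓 (⊤ : Subgroup 𝔓.I)))ˣ,
        ((D.cF1 c : (↥(tbLevF 𝔓 (N0 * 𝔓.p) ⊤))ˣ) : ↥(tbLevF 𝔓 (N0 * 𝔓.p) ⊤))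
          = algebraMap _ _ (c : ↥(tbFix 𝔓 (⊤ : Subgroup 𝔓.I)))) ∧
      (∀ c : (↥(tbFix 𝔓 (⊤ : Subgroup 𝔓.I)))ˣ,
        ((D.cF c : (↥(tbLevF 𝔓 (N0 * 𝔓.p * 𝔓.p) ⊤))ˣ) : ↥(tbLevF 𝔓 (N0 * 𝔓.p * 𝔓.p) ⊤))
          = algebraMap _ _ (c : ↥(tbFix 𝔓 (⊤ : Subgroup 𝔓.I)))) ∧
      (∀ y : (↥(tbLevF 𝔓 (N0 * 𝔓.p * 𝔓.p) ⊤))ˣ,
        ((D.Nα y : (↥(tbLevF 𝔓 (N0 * 𝔓.p) ⊤))ˣ) : ↥(tbLevF 𝔓 (N0 * 𝔓.p) ⊤))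
          = t4nNormA ↥(tbFix 𝔓 (⊤ : Subgroup 𝔓.I)) (N0 * 𝔓.p) 𝔓.p
              (y : ↥(tbLevF 𝔓 (N0 * 𝔓.p * 𝔓.p) ⊤))) ∧
      (∀ y : (↥(tbLevF 𝔓 (N0 * 𝔓.p * 𝔓.p) ⊤))ˣ,
        ((D.Nβ y : (↥(tbLevF 𝔓 (N0 * 𝔓.p) ⊤))ˣ) : ↥(tbLevF 𝔓 (N0 * 𝔓.p) ⊤))
          = t4nNormB ↥(tbFix 𝔓 (⊤ : Subgroup 𝔓.I)) (N0 * 𝔓.p) 𝔓.p
              (y : ↥(tbLevF 𝔓 (N0 * 𝔓.p * 𝔓.p) ⊤))) ∧
      (∀ z : (↥(tbLevF 𝔓 (N0 * 𝔓.p * 𝔓.p) ⊤))ˣ, z ∈ B.U1q →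
        z ∈ tWsub ↥(tbFix 𝔓 (⊤ : Subgroup 𝔓.I)) (N0 * 𝔓.p * 𝔓.p) m →
        (∀ P : Place Qb ↥(modularFunctionFieldBar (N0 * 𝔓.p * 𝔓.p)),
          (m : ℤ) ∣ P.ord (tbPhiF 𝔓 (N0 * 𝔓.p * 𝔓.p) ⊤
            (z : ↥(tbLevF 𝔓 (N0 * 𝔓.p * 𝔓.p) ⊤)))) →
        (∃ (c : (↥(tbFix 𝔓 (⊤ : Subgroup 𝔓.I)))ˣ)
          (g : (↥(tbLevF 𝔓 (N0 * 𝔓.p) ⊤))ˣ), D.Nα z = D.cF1 c * g ^ m) →
        (∃ (c : (↥(tbFix 𝔓 (⊤ : Subgroup 𝔓.I)))ˣ)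
          (g : (↥(tbLevF 𝔓 (N0 * 𝔓.p) ⊤))ˣ), D.Nβ z = D.cF1 c * g ^ m) →
        ∃ (c : (↥(tbFix 𝔓 (⊤ : Subgroup 𝔓.I)))ˣ)
          (t : (↥(tbLevF 𝔓 (N0 * 𝔓.p * 𝔓.p) ⊤))ˣ), z ^ cC = D.cF c * t ^ m)

/-- the contract only depends on the value of the base level -/
theorem t4e_inst_congr (𝔓 : FFPlace) {N0 N0' : ℕ} [NeZero N0] [NeZero (N0 * 𝔓.p)]
    [NeZero (N0 * 𝔓.p * 𝔓.p)] [NeZero N0'] [NeZero (N0' * 𝔓.p)] [NeZero (N0' * 𝔓.p * 𝔓.p)]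
    (hN : N0 = N0') {e : ℕ} {he : 2 ≤ e} {cC : ℕ} (hi : T4eInst 𝔓 N0 e he cC) :
    T4eInst 𝔓 N0' e he cC := by
  subst hN
  exact hi

variable (𝔓 : FFPlace) (N'' k : ℕ) [NeZero N''] (h : ¬ 𝔓.p ∣ N'')

/-- **the formal part of the top assembly at level `p^e`, `e = k + 2 ≥ 3`** -/
theorem t4e_coreAt_of_inst (hk : 1 ≤ k) (cC : ℕ)
    (hinst : T4eInst 𝔓 (N'' * 𝔓.p ^ k) (k + 2) (Nat.le_add_left 2 k) cC) :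
    T4eCoreAt 𝔓 N'' k h (𝔓.p ^ 2 * cC) := by
  intro m hmq hm0 y hyL hyQ hβ hβw
  obtain ⟨κ, E1, E, _, _, _, D, B, hcF1, hcF, hNα, hNβ, hC⟩ := hinst m hmq hm0
  -- the norm hypotheses in the `D`-form
  have hβ' : ∃ (c : (↥(tbFix 𝔓 (⊤ : Subgroup 𝔓.I)))ˣ)
      (g : (↥(tbLevF 𝔓 (N'' * 𝔓.p ^ k * 𝔓.p) ⊤))ˣ), D.Nβ y = D.cF1 c * g ^ m := by
    obtain ⟨c, s, hc, hs, hcs⟩ := hβ
    exact ⟨Units.mk0 c hc, Units.mk0 s hs,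
      t4n_smul_to_units (D.Nβ y) (D.cF1 (Units.mk0 c hc)) c s hs m (hcF1 _) ((hNβ y).trans hcs)⟩
  have hα' : ∃ (c : (↥(tbFix 𝔓 (⊤ : Subgroup 𝔓.I)))ˣ)
      (g : (↥(tbLevF 𝔓 (N'' * 𝔓.p ^ k * 𝔓.p) ⊤))ˣ), D.Nα y = D.cF1 c * g ^ m := by
    obtain ⟨c, s, hc, hs, hcs⟩ := hβw
    have h1 := t4e_normA_of_normB_wLev 𝔓 ⊤ N'' k h
      (y : ↥(tbLevF 𝔓 (N'' * 𝔓.p ^ k * 𝔓.p * 𝔓.p) ⊤)) c s m hcs
    have hws : t4eWLev1 𝔓 ⊤ N'' k h s ≠ 0 := by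
      rw [Ne, map_eq_zero]
      exact hs
    exact ⟨Units.mk0 c hc, Units.mk0 _ hws,
      t4n_smul_to_units (D.Nα y) (D.cF1 (Units.mk0 c hc)) c _ hws m (hcF1 _) ((hNα y).trans h1)⟩
  -- steps A + B
  obtain ⟨c, g, z, hz, hzU, hzα, hzβ⟩ :=
    t4e_stepAB_full D B 𝔓.hp (by omega) hm0 hmq y hα' hβ'
  -- the Kummer conditions for `z`
  have hzL : z ∈ tWsub ↥(tbFix 𝔓 (⊤ : Subgroup 𝔓.I)) (N'' * 𝔓.p ^ k * 𝔓.p * 𝔓.p) m := by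
    rw [hz]
    refine Subgroup.mul_mem _ (Subgroup.pow_mem _ hyL _) (Subgroup.inv_mem _ ?_)
    exact Subgroup.mul_mem _ (t4n_const_mem_tWsub 𝔓 _ m (hcF c)) (t4n_pow_mem_tWsub 𝔓 _ m g)
  have hzQ : z ∈ t4nWbar 𝔓 (N'' * 𝔓.p ^ k * 𝔓.p * 𝔓.p) m := by
    rw [hz]
    refine Subgroup.mul_mem _ (Subgroup.pow_mem _ ((mem_t4nWbar 𝔓 _ m).mpr hyQ) _)
      (Subgroup.inv_mem _ ?_)
    exact Subgroup.mul_mem _ (t4n_const_mem_Wbar 𝔓 _ m (hcF c)) (t4n_pow_mem_Wbar 𝔓 _ m g)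
  -- step C
  obtain ⟨c', t, hct⟩ := hC z hzU hzL ((mem_t4nWbar 𝔓 _ m).mp hzQ) hzα hzβ
  -- bookkeeping
  have hy := t4n_bookkeeping y z (D.cF c) g (D.cF c') t (𝔓.p ^ 2) cC m hz hct
  rw [← map_pow, ← map_mul] at hy
  exact ⟨((c' * c ^ cC : (↥(tbFix 𝔓 (⊤ : Subgroup 𝔓.I)))ˣ) :
      ↥(tbFix 𝔓 (⊤ : Subgroup 𝔓.I))),
    ((t * g ^ cC : (↥(tbLevF 𝔓 (N'' * 𝔓.p ^ k * 𝔓.p * 𝔓.p) ⊤))ˣ) :
      ↥(tbLevF 𝔓 (N'' * 𝔓.p ^ k * 𝔓.p * 𝔓.p) ⊤)), Units.ne_zero _, Units.ne_zero _,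
    t4n_units_to_smul y _ _ _ _ m (hcF _) hy⟩

end Fermat.Agent.T4
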