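/-
T4E-N (helper4), **step C, export at level `q ^ e`** (generic): over an abstract base
`d : T2Base (tbFix 𝔓 ⊤) (tbLevF 𝔓 N ⊤) k Fb` at ANY level `N` (instance: helper1's `t4ebBase` of the
layer of level `k + 2`), a Kummer function `z ≡ 1 (mod q 𝒪)` for which both charts `X^{±1}`,
`X = j^Q - j`, satisfy helper5's `T4eCChart` (labelled verticals `Vw 0, …, Vw e`, `e ≥ 3`, with the
correcting element `hh`, `hh ^ m ≡ 1`) has `z ^ (qq * qq) = constant × m`-th power.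

Chain: a `T4Setup` for the chart with the Riemann–Roch numbers (hypothesis; = output of
`t4vc_exists_setup`), helper2's `t4vc_exists_twist`, helper5's `t4e_stepC_core` (a common section
reducing to `1`), helper2's `t4vc_exists_root` (`z' = z^(qq·qq) h^m` is an `m`-th power over `ℚ̄`),
`t4nt_descend` (descent to `L = ℚ̄^I`).  T4E analogue of `Lib/T4/New/Export.lean`.
-/
import Fermat.Agent.Lib.T4.New.Export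
import Fermat.Agent.Lib.T4E.Local.Chart

set_option autoImplicit false
set_option linter.unusedSectionVars false
set_option linter.unusedVariables false
set_option linter.style.haveILetI false

open HahnSeries ModularCurve Module AlgebraicCurve IntermediateField Fermat.Agent.Curve
  Fermat.Agent.T1 Fermat.Agent.T2 Fermat.Agent.TW Fermat.Agent.S05Lib

noncomputable section

namespace Fermat.Agent.T4

local notation "Qb" => AlgebraicClosure ℚ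

variable (𝔓 : FFPlace) (N : ℕ) [NeZero N] {k Fb : Type*} [Field k] [CommRing Fb] [Algebra k Fb]
  (d : T2Base ↥(tbFix 𝔓 (⊤ : Subgroup 𝔓.I)) ↥(tbLevF 𝔓 N ⊤) k Fb)

/-- **step C, export, generic form**: both charts satisfy `T4eCChart` ⟹
`z ^ (qq * qq) = constant × m`-th power -/
theorem t4ei_export {q : ↥(tbLevF 𝔓 N ⊤)} (hq0 : q ≠ 0)
    (hqres : ∃ hq : q ∈ d.Ov, d.res ⟨q, hq⟩ = 0)
    (hres1 : ∀ (f : ↥(tbLevF 𝔓 N ⊤)) (hf : f ∈ d.Ov), (∃ o ∈ d.Ov, f - 1 = q * o) →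
      d.res ⟨f, hf⟩ = 1)
    (su : T4Setup d)
    (hX : IsFunctionFieldGen Qb ↥(modularFunctionFieldBar N) (tbPhiF 𝔓 N ⊤ su.x))
    (hsn : (su.n : ℤ) = finrank ↥Qb⟮tbPhiF 𝔓 N ⊤ su.x⟯ ↥(modularFunctionFieldBar N))
    (hsc : su.c = 1 - CurveP.genusR Qb ↥(modularFunctionFieldBar N))
    (hm0 : su.m ≠ 0)
    {z : ↥(tbLevF 𝔓 N ⊤)} (hz0 : z ≠ 0) (hzO : z ∈ d.Ov)
    (hz1 : ∃ o ∈ d.Ov, z - 1 = q * o)
    (hdiv : ∀ v : Place Qb ↥(modularFunctionFieldBar N), (su.m : ℤ) ∣ v.ord (tbPhiF 𝔓 N ⊤ z))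
    (P₁ P₂ : T4Pres ↥(tbLevF 𝔓 N ⊤))
    (hB₁ : ∀ f : ↥(tbLevF 𝔓 N ⊤), f ∈ P₁.B ↔
      f ∈ t2Int (K := ↥(tbFix 𝔓 (⊤ : Subgroup 𝔓.I))) su.x ∧ f ∈ d.Ov)
    (hB₂ : ∀ f : ↥(tbLevF 𝔓 N ⊤), f ∈ P₂.B ↔
      f ∈ t2Int (K := ↥(tbFix 𝔓 (⊤ : Subgroup 𝔓.I))) su.x⁻¹ ∧ f ∈ d.Ov)
    (hOv₁ : ∀ f : ↥(tbLevF 𝔓 N ⊤), f ∈ P₁.ov q ↔ f ∈ d.Ov)
    (hOv₂ : ∀ f : ↥(tbLevF 𝔓 N ⊤), f ∈ P₂.ov q ↔ f ∈ d.Ov)
    {hh : ↥(tbLevF 𝔓 N ⊤)} (hh0 : hh ≠ 0) (hhm : ∃ o ∈ d.Ov, hh ^ su.m - 1 = q * o)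
    {qq e : ℕ} (he : 3 ≤ e) (hqq : 0 < qq) {Vw : ℕ → ValuationSubring ↥(tbLevF 𝔓 N ⊤)}
    (hinj : ∀ i j, i ≤ e → j ≤ e → Vw i = Vw j → i = j)
    {A₁ B₁ : ℕ → (↥P₁.B)ˣ} {A₂ B₂ : ℕ → (↥P₂.B)ˣ}
    (C₁ : T4eCChart P₁ q su.m z qq e Vw A₁ B₁ hh) (C₂ : T4eCChart P₂ q su.m z qq e Vw A₂ B₂ hh) :
    ∃ (c : ↥(tbFix 𝔓 (⊤ : Subgroup 𝔓.I))) (t : ↥(tbLevF 𝔓 N ⊤)), c ≠ 0 ∧ t ≠ 0 ∧
      z ^ (qq * qq) = c • t ^ su.m := by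
  -- the corrected function
  set z' : ↥(tbLevF 𝔓 N ⊤) := z ^ (qq * qq) * hh ^ su.m with hz'
  have hzp0 : z ^ (qq * qq) ≠ 0 := pow_ne_zero _ hz0
  have hhm0 : hh ^ su.m ≠ 0 := pow_ne_zero _ hh0
  have hz'0 : z' ≠ 0 := mul_ne_zero hzp0 hhm0
  have hQmem : q ∈ d.Ov := hqres.choose
  have hhmO : hh ^ su.m ∈ d.Ov := by
    obtain ⟨o, ho, hho⟩ := hhm
    have : hh ^ su.m = 1 + q * o := by rw [← hho]; ring
    rw [this]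
    exact add_mem (one_mem _) (mul_mem hQmem ho)
  have hz'O : z' ∈ d.Ov := mul_mem (pow_mem hzO _) hhmO
  have hz'1 : d.res ⟨z', hz'O⟩ = 1 :=
    t4nt_res_pow_mul d hzO hhmO _ (hres1 z hzO hz1) (hres1 _ hhmO hhm) hz'O
  have hφz0 : tbPhiF 𝔓 N ⊤ z ≠ 0 := fun h0 =>
    hz0 (tbPhiF_injective 𝔓 _ ⊤ (h0.trans (map_zero _).symm))
  have hφh0 : tbPhiF 𝔓 N ⊤ hh ≠ 0 := fun h0 =>
    hh0 (tbPhiF_injective 𝔓 _ ⊤ (h0.trans (map_zero _).symm))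
  have hdiv' : ∀ v : Place Qb ↥(modularFunctionFieldBar N),
      (su.m : ℤ) ∣ v.ord (tbPhiF 𝔓 N ⊤ z') := by
    intro v
    rw [hz', map_mul, map_pow, map_pow, v.ord_mul (pow_ne_zero _ hφz0) (pow_ne_zero _ hφh0),
      ← zpow_natCast, ← zpow_natCast, v.ord_zpow, v.ord_zpow]
    exact dvd_add (Dvd.dvd.mul_left (hdiv v) _) (dvd_mul_right _ _)
  obtain ⟨tw, hty, hL1, hL2⟩ := t4vc_exists_twist 𝔓 N ⊤ su hX hsn hsc hz'0 hz'O hz'1 hdiv'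
  have hmF : ((su.m : ℕ) : ↥(tbLevF 𝔓 N ⊤)) ≠ 0 := by
    haveI : CharZero ↥(tbFix 𝔓 (⊤ : Subgroup 𝔓.I)) := algebraRat.charZero _
    haveI : CharZero ↥(tbLevF 𝔓 N ⊤) :=
      charZero_of_injective_algebraMap
        (algebraMap ↥(tbFix 𝔓 (⊤ : Subgroup 𝔓.I)) ↥(tbLevF 𝔓 N ⊤)).injective
    exact Nat.cast_ne_zero.mpr hm0
  obtain ⟨s, hs1, hs2, hsO, hsres⟩ := t4e_stepC_core tw P₁ P₂ hB₁ hB₂ hOv₁ hOv₂
    hqres hq0 hmF hz0 hz1 hh0 hhm he hqq hinj C₁ C₂ hty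
  have hs0 : s ≠ 0 := t4nt_ne_zero_of_res d hsO hsres
  obtain ⟨g, hg⟩ := t4vc_exists_root 𝔓 N ⊤ hX hz'0 (Nat.pos_of_ne_zero hm0) hdiv'
    hs0 ((hL1 s).mp hs1) ((hL2 s).mp hs2)
  exact t4nt_descend 𝔓 N hm0 hzp0 hh0 hg

end Fermat.Agent.T4
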