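/-
T4E-N (helper4), chain part 2: **reduction of `T4eNewUnrAux t4eWU` to (NEW_e) inside the level
field** (`T4eCoreAt`, `Lib/T4E/New/CoreDefs.lean`).

The level-generic lemmas of `Lib/T4/New/Reduce.lean` (`t4n_normB_eq_of_heckeU`: if `U_q (tbPhiF f)`
is an `m`-th power over `ℚ̄` then `N_β f` is a `constant × m`-th power over `L`;
`t4n_mem_tWsub_of_cfe`: transport of the Kummer condition from `ℚ̄` to `L`) are used with the lower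
level `N1 = N'' p^k p`.

* **`t4e_unrAt_of_core`**, `t4e_unrAux_of_core`: inputs the product formula `T4nProdB 𝔓 ⊤ (N'' p^k p)`,
  `T4nCFE 𝔓 ⊤ (N'' p^k p p)` and `T4eCoreAt 𝔓 N'' k h c` for every place `𝔓` over `q`.
-/
import Mathlib
import Fermat.Agent.Lib.T4.New.Reduce
import Fermat.Agent.Lib.T4E.New.CoreDefs

set_option autoImplicit false
set_option linter.unusedSectionVars false
set_option linter.unusedVariables false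
set_option linter.style.haveILetI false

open Fermat.Agent.T1 Fermat.Agent.T2 Fermat.Agent.TW ModularCurve Fermat.Agent.S24Lib
  AlgebraicCurve

noncomputable section

namespace Fermat.Agent.T4

local notation "Qb" => AlgebraicClosure ℚ
local notation "Kbar" => AlgebraicClosure ℚ

attribute [local instance] t4e_fact t4e_neZero_lvl t4e_neZero_lvl1

section Level

variable (𝔓 : FFPlace)

/-- **(NEW_e) over the inertia field from (NEW_e) inside the level field**, for a place `𝔓` -/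
theorem t4e_new_of_core (N'' k : ℕ) [NeZero N''] (h : ¬ 𝔓.p ∣ N'') (c : ℕ)
    (hprod : T4nProdB 𝔓 ⊤ (N'' * 𝔓.p ^ k * 𝔓.p))
    (hcfe : T4nCFE 𝔓 ⊤ (N'' * 𝔓.p ^ k * 𝔓.p * 𝔓.p))
    (hcore : T4eCoreAt 𝔓 N'' k h c)
    {m : ℕ} (hmq : Nat.Coprime m 𝔓.p) (hm0 : m ≠ 0)
    (y : (↥(modularFunctionFieldBar (N'' * 𝔓.p ^ k * 𝔓.p * 𝔓.p)))ˣ)
    (hy : y ∈ tWsub Kbar (N'' * 𝔓.p ^ k * 𝔓.p * 𝔓.p) m)
    (f : ↥(tbLevF 𝔓 (N'' * 𝔓.p ^ k * 𝔓.p * 𝔓.p) ⊤))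
    (hf : tbPhiF 𝔓 (N'' * 𝔓.p ^ k * 𝔓.p * 𝔓.p) ⊤ f
      = (y : ↥(modularFunctionFieldBar (N'' * 𝔓.p ^ k * 𝔓.p * 𝔓.p))))
    (hU : ∃ t : (↥(modularFunctionFieldBar (N'' * 𝔓.p ^ k * 𝔓.p * 𝔓.p)))ˣ,
      tkrHeckeUUnits (N'' * 𝔓.p ^ k * 𝔓.p * 𝔓.p) 𝔓.p y = t ^ m)
    (hUw : ∃ t : (↥(modularFunctionFieldBar (N'' * 𝔓.p ^ k * 𝔓.p * 𝔓.p)))ˣ,
      tkrHeckeUUnits (N'' * 𝔓.p ^ k * 𝔓.p * 𝔓.p) 𝔓.p (t4eWU N'' 𝔓.p k h y) = t ^ m) :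
    ∃ t : (↥(modularFunctionFieldBar (N'' * 𝔓.p ^ k * 𝔓.p * 𝔓.p)))ˣ, y ^ c = t ^ m := by
  have hf0 : f ≠ 0 := by
    rintro rfl
    rw [map_zero] at hf
    exact y.ne_zero hf.symm
  set fu : (↥(tbLevF 𝔓 (N'' * 𝔓.p ^ k * 𝔓.p * 𝔓.p) ⊤))ˣ := Units.mk0 f hf0 with hfu
  have hfW : fu ∈ tWsub ↥(tbFix 𝔓 ⊤) (N'' * 𝔓.p ^ k * 𝔓.p * 𝔓.p) m :=
    t4n_mem_tWsub_of_cfe 𝔓 ⊤ (N'' * 𝔓.p ^ k * 𝔓.p * 𝔓.p) hcfe m y hy fu hf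
  -- the first norm condition
  have h1 : ∃ (a : ↥(tbFix 𝔓 ⊤)) (s : ↥(tbLevF 𝔓 (N'' * 𝔓.p ^ k * 𝔓.p) ⊤)), a ≠ 0 ∧ s ≠ 0 ∧
      t4nNormB ↥(tbFix 𝔓 ⊤) (N'' * 𝔓.p ^ k * 𝔓.p) 𝔓.p f = a • s ^ m := by
    refine t4n_normB_eq_of_heckeU 𝔓 (N'' * 𝔓.p ^ k * 𝔓.p) hprod hm0 hmq f hf0 ?_
    obtain ⟨t, ht⟩ := hU
    refine ⟨(t : ↥(modularFunctionFieldBar (N'' * 𝔓.p ^ k * 𝔓.p * 𝔓.p))), ?_⟩
    rw [hf, ← tkrHeckeUUnits_coe, ht, Units.val_pow_eq_pow_val]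
  -- the second norm condition
  have hwf := t4e_wU_tbPhiF 𝔓 ⊤ N'' k h y f hf
  have hwf0 : t4eWLev 𝔓 ⊤ N'' k h f ≠ 0 := by
    rw [Ne, map_eq_zero]
    exact hf0
  have h2 : ∃ (a : ↥(tbFix 𝔓 ⊤)) (s : ↥(tbLevF 𝔓 (N'' * 𝔓.p ^ k * 𝔓.p) ⊤)), a ≠ 0 ∧ s ≠ 0 ∧
      t4nNormB ↥(tbFix 𝔓 ⊤) (N'' * 𝔓.p ^ k * 𝔓.p) 𝔓.p (t4eWLev 𝔓 ⊤ N'' k h f) = a • s ^ m := by
    refine t4n_normB_eq_of_heckeU 𝔓 (N'' * 𝔓.p ^ k * 𝔓.p) hprod hm0 hmq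
      (t4eWLev 𝔓 ⊤ N'' k h f) hwf0 ?_
    obtain ⟨t, ht⟩ := hUw
    refine ⟨(t : ↥(modularFunctionFieldBar (N'' * 𝔓.p ^ k * 𝔓.p * 𝔓.p))), ?_⟩
    rw [hwf, ← tkrHeckeUUnits_coe, ht, Units.val_pow_eq_pow_val]
  have hfQ : ∀ P : Place Qb ↥(modularFunctionFieldBar (N'' * 𝔓.p ^ k * 𝔓.p * 𝔓.p)),
      (m : ℤ) ∣ P.ord (tbPhiF 𝔓 (N'' * 𝔓.p ^ k * 𝔓.p * 𝔓.p) ⊤
        (fu : ↥(tbLevF 𝔓 (N'' * 𝔓.p ^ k * 𝔓.p * 𝔓.p) ⊤))) := by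
    intro P
    rw [hfu, Units.val_mk0, hf]
    exact hy P
  obtain ⟨a, t, ha0, ht0, hat⟩ := hcore m hmq hm0 fu hfW hfQ h1 h2
  obtain ⟨d, hd⟩ := IsAlgClosed.exists_pow_nat_eq ((a : ↥(tbFix 𝔓 ⊤)) : Qb)
    (Nat.pos_of_ne_zero hm0)
  have hd0 : d ≠ 0 := by
    rintro rfl
    rw [zero_pow hm0] at hd
    exact ha0 (Subtype.ext hd.symm)
  have hφt0 : tbPhiF 𝔓 (N'' * 𝔓.p ^ k * 𝔓.p * 𝔓.p) ⊤ t ≠ 0 := fun h0 =>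
    ht0 (tbPhiF_injective 𝔓 (N'' * 𝔓.p ^ k * 𝔓.p * 𝔓.p) ⊤ (h0.trans (map_zero _).symm))
  have hkey : (y : ↥(modularFunctionFieldBar (N'' * 𝔓.p ^ k * 𝔓.p * 𝔓.p))) ^ c
      = (d • tbPhiF 𝔓 (N'' * 𝔓.p ^ k * 𝔓.p * 𝔓.p) ⊤ t) ^ m := by
    have hat' : f ^ c = a • t ^ m := hat
    rw [← hf, ← map_pow, hat', tbPhiF_smul, map_pow, smul_pow, hd]
  have hne : d • tbPhiF 𝔓 (N'' * 𝔓.p ^ k * 𝔓.p * 𝔓.p) ⊤ t ≠ 0 := smul_ne_zero hd0 hφt0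
  refine ⟨Units.mk0 _ hne, ?_⟩
  apply Units.ext
  rw [Units.val_pow_eq_pow_val, Units.val_pow_eq_pow_val, Units.val_mk0]
  exact hkey

end Level

/-- **(NEW_e) over the inertia field from (NEW_e) inside the level field** -/
theorem t4e_unrAtC_of_core (N'' q k : ℕ) [NeZero N''] [hq : Fact q.Prime] (h : ¬ q ∣ N'')
    [NeZero (N'' * q ^ k * q * q)] (c : ℕ)
    (hprod : ∀ (A : ValuationSubring Kbar) (hA : A.LiesOverPrime q),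
      T4nProdB (⟨A, q, hq.out, hA⟩ : FFPlace) ⊤ (N'' * q ^ k * q))
    (hcfe : ∀ (A : ValuationSubring Kbar) (hA : A.LiesOverPrime q),
      T4nCFE (⟨A, q, hq.out, hA⟩ : FFPlace) ⊤ (N'' * q ^ k * q * q))
    (hcore : ∀ (A : ValuationSubring Kbar) (hA : A.LiesOverPrime q),
      T4eCoreAt (⟨A, q, hq.out, hA⟩ : FFPlace) N'' k h c) :
    T4eNewUnrAtC t4eWU N'' q k h c := by
  intro A hA m hmq hm0 y hy hf hU hUw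
  obtain ⟨f, hf⟩ := hf
  exact t4e_new_of_core (⟨A, q, hq.out, hA⟩ : FFPlace) N'' k h c (hprod A hA) (hcfe A hA)
    (hcore A hA) hmq hm0 y hy f hf hU hUw

/-- **the target of T4E-N from (NEW_e) inside the level fields**: the multiplier `c N'' q k ≠ 0`
may depend on the level only -/
theorem t4e_unrAux_of_core (c : ℕ → ℕ → ℕ → ℕ) (hc : ∀ N'' q k, q.Prime → c N'' q k ≠ 0)
    (hprod : ∀ (𝔓 : FFPlace) (N'' k : ℕ) [NeZero N''], ¬ 𝔓.p ∣ N'' →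
      T4nProdB 𝔓 ⊤ (N'' * 𝔓.p ^ k * 𝔓.p))
    (hcfe : ∀ (𝔓 : FFPlace) (N : ℕ) [NeZero N], T4nCFE 𝔓 ⊤ N)
    (hcore : ∀ (𝔓 : FFPlace) (N'' k : ℕ) [NeZero N''] (h : ¬ 𝔓.p ∣ N''), 1 ≤ k →
      (4 ∣ N'' ∨ 9 ∣ N'') → T4eCoreAt 𝔓 N'' k h (c N'' 𝔓.p k)) :
    T4eNewUnrAux t4eWU := by
  intro N'' q k _ hq h _ hk h49
  refine ⟨c N'' q k, hc N'' q k hq.out, ?_⟩
  exact t4e_unrAtC_of_core N'' q k h (c N'' q k)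
    (fun A hA => hprod (⟨A, q, hq.out, hA⟩ : FFPlace) N'' k h)
    (fun A hA => hcfe (⟨A, q, hq.out, hA⟩ : FFPlace) (N'' * q ^ k * q * q))
    (fun A hA => hcore (⟨A, q, hq.out, hA⟩ : FFPlace) N'' k h hk h49)

end Fermat.Agent.T4
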