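/-
T4E-N (helper4), chain part 6: **the S36_e chain below the contract of the geometry**.

* `t4e_newAux_of_coreAt` : with the product formula (`t4e_T4nProdB`, from the degree
  `[F_{N1 p} : F_{N1}] = p`, `N1 = N'' p^k p`) and `T4nCFE` (helper1's level-generic `t4ru_T4nCFE`),
  `T4eNewAux t4eWU` — the open input of helper3's `t4e_S36gen` — follows from (NEW_e) inside the
  level fields at the levels without elliptic points;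
* **`t4e_newAux_of_inst`** : the same from the contract `T4eInst` of the geometry stated at the
  RECURSIVE levels `t4eLev N'' p k`, `t4eLev N'' p (k + 1)`, `t4eLev N'' p (k + 2)` of helper9's tower
  (`Lib/T4E/Tower/Defs.lean`) and the degree `[F_{k+2} : F_{k+1}] = p` in the form of `T4eLink.deg`;
  the transport to helper3's frozen literal `N'' * p ^ k * p * p` is `t4e_inst_congr` (`subst`).
-/
import Mathlib
import Fermat.Agent.Lib.T4.Reg.UnrCfeInst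
import Fermat.Agent.Lib.T4E.New.Reduce
import Fermat.Agent.Lib.T4E.New.CoreOf
import Fermat.Agent.Lib.T4E.Tower.Defs
import Fermat.Agent.Lib.T4E.Glue.Top

set_option autoImplicit false
set_option linter.unusedSectionVars false
set_option linter.unusedVariables false

open Fermat.Agent.T1 Fermat.Agent.T2 Fermat.Agent.TW ModularCurve

namespace Fermat.Agent.T4

attribute [local instance] t4e_fact t4e_neZero_lvl t4e_neZero_lvl1 t4e_neZero_lvl0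

/-- **(NEW_e) at the levels without elliptic points from (NEW_e) inside the level fields** -/
theorem t4e_newAux_of_coreAt (c : ℕ → ℕ → ℕ → ℕ) (hc : ∀ N'' q k, q.Prime → c N'' q k ≠ 0)
    (hdegA : ∀ (𝔓 : FFPlace) (N'' k : ℕ) [NeZero N''], ¬ 𝔓.p ∣ N'' →
      @Module.finrank ↥(TaF ↥(tbFix 𝔓 (⊤ : Subgroup 𝔓.I)) (N'' * 𝔓.p ^ k * 𝔓.p))
        ↥(TaF ↥(tbFix 𝔓 (⊤ : Subgroup 𝔓.I)) (N'' * 𝔓.p ^ k * 𝔓.p * 𝔓.p)) _ _
        (@Algebra.toModule _ _ _ _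
          (t2iAlgebra ↥(tbFix 𝔓 (⊤ : Subgroup 𝔓.I)) (N'' * 𝔓.p ^ k * 𝔓.p) 𝔓.p)) = 𝔓.p)
    (hcore : ∀ (𝔓 : FFPlace) (N'' k : ℕ) [NeZero N''] (h : ¬ 𝔓.p ∣ N''), 1 ≤ k →
      (4 ∣ N'' ∨ 9 ∣ N'') → T4eCoreAt 𝔓 N'' k h (c N'' 𝔓.p k)) :
    T4eNewAux t4eWU :=
  t4e_newAux_of_unr t4eWU (t4e_unrAux_of_core c hc
    (fun 𝔓 N'' k _ h => t4e_T4nProdB 𝔓 N'' k h (hdegA 𝔓 N'' k h))
    (fun 𝔓 N _ => t4ru_T4nCFE 𝔓 ⊤ N) hcore)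

/-- the degree `[F_{N0 p p} : F_{N0 p}]` only depends on the value of the base level `N0` -/
theorem t4e_deg_congr (𝔓 : FFPlace) {N0 N0' : ℕ} [NeZero N0] [NeZero (N0 * 𝔓.p)]
    [NeZero N0'] [NeZero (N0' * 𝔓.p)] (hN : N0 = N0')
    (hd : @Module.finrank ↥(TaF ↥(tbFix 𝔓 (⊤ : Subgroup 𝔓.I)) (N0 * 𝔓.p))
        ↥(TaF ↥(tbFix 𝔓 (⊤ : Subgroup 𝔓.I)) (N0 * 𝔓.p * 𝔓.p)) _ _
        (@Algebra.toModule _ _ _ _
          (t2iAlgebra ↥(tbFix 𝔓 (⊤ : Subgroup 𝔓.I)) (N0 * 𝔓.p) 𝔓.p)) = 𝔓.p) :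
    @Module.finrank ↥(TaF ↥(tbFix 𝔓 (⊤ : Subgroup 𝔓.I)) (N0' * 𝔓.p))
        ↥(TaF ↥(tbFix 𝔓 (⊤ : Subgroup 𝔓.I)) (N0' * 𝔓.p * 𝔓.p)) _ _
        (@Algebra.toModule _ _ _ _
          (t2iAlgebra ↥(tbFix 𝔓 (⊤ : Subgroup 𝔓.I)) (N0' * 𝔓.p) 𝔓.p)) = 𝔓.p := by
  subst hN
  exact hd

/-- **`T4eNewAux t4eWU` from the contract of the geometry at the levels of the tower**:
`hdeg` is `T4eLink.deg` between the layers `k + 1` and `k + 2` over `L = tbFix 𝔓 ⊤`; `hinst` is the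
instance `(D, B)` of steps A + B with the dictionary and the step-C export (multiplier `cC ≠ 0`
depending on the level only).  The final multiplier is `p² · cC`. -/
theorem t4e_newAux_of_inst (cC : ℕ → ℕ → ℕ → ℕ) (hcC : ∀ N'' q k, cC N'' q k ≠ 0)
    (hdeg : ∀ (𝔓 : FFPlace) (N'' k : ℕ) [NeZero N''], ¬ 𝔓.p ∣ N'' →
      @Module.finrank ↥(TaF ↥(tbFix 𝔓 (⊤ : Subgroup 𝔓.I)) (t4eLev N'' 𝔓.p (k + 1)))
        ↥(TaF ↥(tbFix 𝔓 (⊤ : Subgroup 𝔓.I)) (t4eLev N'' 𝔓.p (k + 2))) _ _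
        (heckeAlphaBar ↥(tbFix 𝔓 (⊤ : Subgroup 𝔓.I))
          (t4eLev N'' 𝔓.p (k + 1)) 𝔓.p).toRingHom.toAlgebra.toModule = 𝔓.p)
    (hinst : ∀ (𝔓 : FFPlace) (N'' k : ℕ) [NeZero N''] (h : ¬ 𝔓.p ∣ N''), 1 ≤ k →
      (4 ∣ N'' ∨ 9 ∣ N'') →
      @T4eInst 𝔓 (t4eLev N'' 𝔓.p k) (t4eLev_neZero N'' 𝔓.p k) (t4eLev_neZero N'' 𝔓.p (k + 1))
        (t4eLev_neZero N'' 𝔓.p (k + 2)) (k + 2) (Nat.le_add_left 2 k) (cC N'' 𝔓.p k)) :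
    T4eNewAux t4eWU := by
  refine t4e_newAux_of_coreAt (fun N'' q k => q ^ 2 * cC N'' q k) ?_ ?_ ?_
  · intro N'' q k hq
    exact Nat.mul_ne_zero (pow_ne_zero 2 hq.ne_zero) (hcC N'' q k)
  · intro 𝔓 N'' k _ h
    exact @t4e_deg_congr 𝔓 (t4eLev N'' 𝔓.p k) (N'' * 𝔓.p ^ k) (t4eLev_neZero N'' 𝔓.p k)
      (t4eLev_neZero N'' 𝔓.p (k + 1)) _ _ (t4eLev_eq N'' 𝔓.p k) (hdeg 𝔓 N'' k h)
  · intro 𝔓 N'' k _ h hk h49
    exact t4e_coreAt_of_inst 𝔓 N'' k h hk (cC N'' 𝔓.p k)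
      (@t4e_inst_congr 𝔓 (t4eLev N'' 𝔓.p k) (N'' * 𝔓.p ^ k) (t4eLev_neZero N'' 𝔓.p k)
        (t4eLev_neZero N'' 𝔓.p (k + 1)) (t4eLev_neZero N'' 𝔓.p (k + 2)) _ _ _
        (t4eLev_eq N'' 𝔓.p k) _ _ _ (hinst 𝔓 N'' k h hk h49))

end Fermat.Agent.T4
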