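/-
T4E-N (helper4), instance of steps A + B at level `q ^ e`, part 4: **the instance of `T4eB`** from two
consecutive layers: residue maps on units with values in `E = k(X₀(N''))`, constants, the Frobenius
powers `jα w = Φ ^ t4eShiftA i w`, `jβ w = Φ ^ t4eShiftB i w`, the norm formulas for residues
(package `T4eiNorm`), CRT for residues (helper5's `t4e_approx_res`), the `q`-group step
(`t4e_qgrp_of_pow`) with `U1q = t4nU1q up.Ov q`.
-/
import Fermat.Agent.Lib.T4E.New.InstRes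

set_option autoImplicit false
set_option linter.unusedSectionVars false
set_option linter.unusedVariables false
set_option linter.style.haveILetI false

open HahnSeries ModularCurve Fermat.Agent.T1 Fermat.Agent.T2 Fermat.Agent.T4E

noncomputable section

namespace Fermat.Agent.T4

section Inst

variable {L : Type} [Field L] [Algebra ℚ L] {O : ValuationSubring L} {k : Type} [Field k]
  {π : ↥O →+* k} [IsDiscreteValuationRing ↥O] {hπ : Function.Surjective π} [IsAlgClosed k]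
  {N'' q : ℕ} [NeZero N''] [hq : Fact q.Prime] {i : ℕ}
  (lo : T4eLayer O π hπ N'' q i) (up : T4eLayer O π hπ N'' q (i + 1))
  (hl : T4eLink lo up) (hn : T4eiNorm lo up) (hqO : Irreducible ((q : ℕ) : ↥O)) (hi : 1 ≤ i)
  (hdegB : @Module.finrank ↥(TaF L (t4eLev N'' q i)) ↥(TaF L (t4eLev N'' q (i + 1))) _ _
    (heckeBetaBar L (t4eLev N'' q i) q).toRingHom.toAlgebra.toModule = q)
  (hN'' : (N'' : k) ≠ 0) (Fr : T2iFrob k N'' q) (m : ℕ)

/-! ### Units -/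

theorem t4ei_mem_of_mem_U {y : (↥(TaF L (t4eLev N'' q (i + 1))))ˣ}
    (hy : y ∈ (t4eiA lo up hl hn hqO hi hdegB m).U) (w : ℕ) (hw : w ≤ i + 1) :
    ((y : (↥(TaF L (t4eLev N'' q (i + 1))))ˣ) : ↥(TaF L (t4eLev N'' q (i + 1)))) ∈ up.V w ∧
    ((y⁻¹ : (↥(TaF L (t4eLev N'' q (i + 1))))ˣ) : ↥(TaF L (t4eLev N'' q (i + 1)))) ∈ up.V w :=
  (t4eiOrd_eq_zero_iff up hw y).mp (hy w hw)

theorem t4ei_mem_U_of_mem {y : (↥(TaF L (t4eLev N'' q (i + 1))))ˣ}
    (h : ∀ w, w ≤ i + 1 →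
      ((y : (↥(TaF L (t4eLev N'' q (i + 1))))ˣ) : ↥(TaF L (t4eLev N'' q (i + 1)))) ∈ up.V w ∧
      ((y⁻¹ : (↥(TaF L (t4eLev N'' q (i + 1))))ˣ) : ↥(TaF L (t4eLev N'' q (i + 1)))) ∈ up.V w) :
    y ∈ (t4eiA lo up hl hn hqO hi hdegB m).U :=
  fun w hw => (t4eiOrd_eq_zero_iff up hw y).mpr (h w hw)

theorem t4ei_mem_of_mem_U1 {x : (↥(TaF L (t4eLev N'' q i)))ˣ}
    (hx : x ∈ (t4eiA lo up hl hn hqO hi hdegB m).U1) (w : ℕ) (hw : w ≤ i) :
    ((x : (↥(TaF L (t4eLev N'' q i)))ˣ) : ↥(TaF L (t4eLev N'' q i))) ∈ lo.V w ∧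
    ((x⁻¹ : (↥(TaF L (t4eLev N'' q i)))ˣ) : ↥(TaF L (t4eLev N'' q i))) ∈ lo.V w :=
  (t4eiOrd_eq_zero_iff lo hw x).mp (hx w (Nat.succ_le_succ hw))

theorem t4ei_mem_O_of_mem_UL {c : Lˣ} (hc : c ∈ (t4eiA lo up hl hn hqO hi hdegB m).UL) :
    ((c : Lˣ) : L) ∈ O ∧ ((c⁻¹ : Lˣ) : L) ∈ O :=
  (t4eiVL_eq_zero_iff hqO c).mp hc

/-! ### CRT for unit residues -/

include hN'' in
/-- **CRT for unit residues** at the verticals of a layer -/
theorem t4ei_crt_unit {j : ℕ} (Y : T4eLayer O π hπ N'' q j)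
    (a : ℕ → (↥(modularFunctionFieldFullC k N''))ˣ) :
    ∃ g : (↥(TaF L (t4eLev N'' q j)))ˣ, ∀ w, ∀ hw : w ≤ j,
      (Y.V w).valuation ((g : (↥(TaF L (t4eLev N'' q j)))ˣ) : ↥(TaF L (t4eLev N'' q j))) = 1 ∧
      ∃ hg : ((g : (↥(TaF L (t4eLev N'' q j)))ˣ) : ↥(TaF L (t4eLev N'' q j))) ∈ Y.V w,
        t4eiRho Y hN'' hw ⟨_, hg⟩ = (a w : ↥(modularFunctionFieldFullC k N'')) := by
  classical
  -- lifts of the prescribed residues
  have hc : ∀ w, ∃ c : ↥(TaF L (t4eLev N'' q j)), ∀ hw : w ≤ j, ∃ hc : c ∈ Y.V w,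
      t4eiRho Y hN'' hw ⟨c, hc⟩ = (a w : ↥(modularFunctionFieldFullC k N'')) := by
    intro w
    by_cases hw : w ≤ j
    · obtain ⟨x, hx⟩ := t4eiRho_surjective Y hN'' hw (a w : ↥(modularFunctionFieldFullC k N''))
      exact ⟨(x : ↥(TaF L (t4eLev N'' q j))), fun _ => ⟨x.2, hx⟩⟩
    · exact ⟨0, fun h => absurd h hw⟩
  choose c hc using hc
  have hq0 : (((q : ℕ) : ↥(TaF L (t4eLev N'' q j)))) ≠ 0 := by
    intro h0
    have := Y.val_q_lt (w := 0) (Nat.zero_le j)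
    have hu := Y.q_eq 0 (Nat.zero_le j)
    obtain ⟨u, hu, e⟩ := hu
    rw [h0] at e
    have hu0 : u ≠ 0 := by
      rintro rfl
      rw [map_zero] at hu
      exact zero_ne_one hu
    exact mul_ne_zero (pow_ne_zero _ (Y.ϖ_ne_zero (Nat.zero_le j))) hu0 e.symm
  have hmemr : ∀ {w : ℕ}, w ∈ Finset.range (j + 1) → w ≤ j := fun hw =>
    Nat.lt_succ_iff.mp (Finset.mem_range.mp hw)
  obtain ⟨h, -, h2, h3, h4⟩ := t4e_approx_res (Finset.range (j + 1)) Y.V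
    (fun w hw => Y.dvr w (hmemr hw))
    (fun w hw w' hw' h => Y.inj w (hmemr hw) w' (hmemr hw') h) c
    (fun w hw => (hc w (hmemr hw)).choose) hq0
    (fun w hw => Y.val_q_lt (hmemr hw))
  have hval : ∀ w, ∀ hw : w ≤ j, (Y.V w).valuation h = 1 := by
    intro w hw
    have hwr : w ∈ Finset.range (j + 1) := Finset.mem_range.mpr (Nat.lt_succ_iff.mpr hw)
    apply h4 w hwr
    obtain ⟨hcw, e⟩ := hc w hw
    have hne : t4eiRho Y hN'' hw ⟨c w, hcw⟩ ≠ 0 := by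
      rw [e]
      exact (a w).ne_zero
    have hnlt := mt (t4eiRho_eq_zero_iff Y hN'' hw ⟨c w, hcw⟩).mpr hne
    exact le_antisymm ((Y.V w).valuation_le_one_iff _ |>.mpr hcw) (not_lt.mp hnlt)
  have hh0 : h ≠ 0 := by
    rintro rfl
    have := hval 0 (Nat.zero_le j)
    rw [map_zero] at this
    exact zero_ne_one this
  refine ⟨Units.mk0 h hh0, fun w hw => ⟨hval w hw, ?_⟩⟩
  have hwr : w ∈ Finset.range (j + 1) := Finset.mem_range.mpr (Nat.lt_succ_iff.mpr hw)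
  obtain ⟨hcw, e⟩ := hc w hw
  refine ⟨h2 w hwr, ?_⟩
  rw [← e]
  exact t4eiRho_eq_of_val_sub_lt Y hN'' hw (h2 w hwr) hcw (h3 w hwr)

/-! ### The `q`-group step -/

/-- `q` as an element of the semilocal ring -/
theorem t4ei_q_mem_Ov {j : ℕ} (Y : T4eLayer O π hπ N'' q j) :
    (((q : ℕ) : ↥(TaF L (t4eLev N'' q j)))) ∈ Y.Ov :=
  fun w hw => (Y.V w).valuation_le_one_iff _ |>.mp (Y.val_q_lt hw).le

theorem t4ei_natCast_ne_zero (j : ℕ) : (((q : ℕ) : ↥(TaF L (t4eLev N'' q j)))) ≠ 0 := by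
  haveI : CharZero L := algebraRat.charZero L
  haveI : CharZero ↥(TaF L (t4eLev N'' q j)) :=
    charZero_of_injective_algebraMap (algebraMap L ↥(TaF L (t4eLev N'' q j))).injective
  exact Nat.cast_ne_zero.mpr hq.out.ne_zero

/-- all valuations `< 1` ⟹ `x ^ (q ^ j) ∈ q · 𝒪` -/
theorem t4ei_pow_mem {j : ℕ} (Y : T4eLayer O π hπ N'' q j) {x : ↥(TaF L (t4eLev N'' q j))}
    (hx : ∀ w, w ≤ j → (Y.V w).valuation x < 1) :
    ∃ o ∈ Y.Ov, x ^ (q ^ j) = ((q : ℕ) : ↥(TaF L (t4eLev N'' q j))) * o := by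
  have hq0 := t4ei_natCast_ne_zero (L := L) (N'' := N'') (q := q) j
  by_cases hx0 : x = 0
  · refine ⟨0, Subring.zero_mem _, ?_⟩
    rw [hx0, mul_zero, zero_pow (pow_ne_zero _ hq.out.ne_zero)]
  set xu : (↥(TaF L (t4eLev N'' q j)))ˣ := Units.mk0 x hx0 with hxu
  set Q : (↥(TaF L (t4eLev N'' q j)))ˣ := Units.mk0 _ hq0 with hQ
  set ou : (↥(TaF L (t4eLev N'' q j)))ˣ := xu ^ (q ^ j) * Q⁻¹ with hou
  have hmem : ∀ w, w ≤ j → (ou : ↥(TaF L (t4eLev N'' q j))) ∈ Y.V w := by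
    intro w hw
    rw [← t4eiOrd_nonneg_iff Y hw, hou, ofMul_mul, map_add, ofMul_pow, map_nsmul, ofMul_inv,
      map_neg, t4eiOrd_q Y hw (Q := Q) rfl, nsmul_eq_mul]
    have h1 : 1 ≤ t4eiOrd Y w (Additive.ofMul xu) := (t4eiOrd_pos_iff Y hw xu).mpr (hx w hw)
    have h2 : (t4eMult q j w : ℤ) ≤ ((q ^ j : ℕ) : ℤ) := by
      have : t4eMult q j w ≤ q ^ j :=
        le_trans (Nat.totient_le _)
          (Nat.pow_le_pow_right hq.out.pos (le_trans (min_le_left _ _) hw))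
      exact_mod_cast this
    have h3 : (0 : ℤ) ≤ ((q ^ j : ℕ) : ℤ) := by positivity
    nlinarith
  refine ⟨(ou : ↥(TaF L (t4eLev N'' q j))), hmem, ?_⟩
  have : (ou : ↥(TaF L (t4eLev N'' q j))) =
      x ^ (q ^ j) * (((q : ℕ) : ↥(TaF L (t4eLev N'' q j))))⁻¹ := by
    rw [hou, Units.val_mul, Units.val_pow_eq_pow_val, Units.val_inv_eq_inv_val]
    rfl
  rw [this, mul_comm (x ^ (q ^ j)), ← mul_assoc, mul_inv_cancel₀ hq0, one_mul]

/-- **the `q`-group step** for a layer -/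
theorem t4ei_qgrp {j : ℕ} (Y : T4eLayer O π hπ N'' q j) {m' : ℕ} (hqm : Nat.Coprime m' q)
    {z : (↥(TaF L (t4eLev N'' q j)))ˣ}
    (hz : ((z : (↥(TaF L (t4eLev N'' q j)))ˣ) : ↥(TaF L (t4eLev N'' q j))) ∈ Y.Ov)
    (hz' : ((z⁻¹ : (↥(TaF L (t4eLev N'' q j)))ˣ) : ↥(TaF L (t4eLev N'' q j))) ∈ Y.Ov)
    (h1 : ∀ w, w ≤ j → (Y.V w).valuation
      (((z : (↥(TaF L (t4eLev N'' q j)))ˣ) : ↥(TaF L (t4eLev N'' q j))) - 1) < 1) :
    ∃ a : ℤ, z * ((z ^ a) ^ m')⁻¹ ∈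
      t4nU1q Y.Ov (((q : ℕ) : ↥(TaF L (t4eLev N'' q j)))) :=
  t4e_qgrp_of_pow Y.Ov (t4ei_q_mem_Ov Y) hq.out j hqm
    ⟨1, Subring.one_mem _, by rw [mul_one]⟩ hz hz' (t4ei_pow_mem Y h1)

/-! ### The instance -/

/-- **the instance of `T4eB`** from two consecutive layers -/
def t4eiB (hm : m ≠ 0) (hqm : Nat.Coprime m q) :
    T4eB (t4eiA lo up hl hn hqO hi hdegB m) (Nat.succ_le_succ hi) k
      ↥(modularFunctionFieldFullC k N'') ↥(modularFunctionFieldFullC k N'') where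
  r := t4eiR up hN'' (t4eiA lo up hl hn hqO hi hdegB m).U
    (fun y hy w hw => t4ei_mem_of_mem_U lo up hl hn hqO hi hdegB m hy w hw)
  r1 := t4eiR lo hN'' (t4eiA lo up hl hn hqO hi hdegB m).U1
    (fun y hy w hw => t4ei_mem_of_mem_U1 lo up hl hn hqO hi hdegB m hy w hw)
  rL := (Units.map (π : ↥O →* k)).comp (t4eiToUnits O (t4eiA lo up hl hn hqO hi hdegB m).UL
    (fun c hc => t4ei_mem_O_of_mem_UL lo up hl hn hqO hi hdegB m hc))
  κ := Units.map (algebraMap k ↥(modularFunctionFieldFullC k N'') :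
    k →* ↥(modularFunctionFieldFullC k N''))
  κ1 := Units.map (algebraMap k ↥(modularFunctionFieldFullC k N'') :
    k →* ↥(modularFunctionFieldFullC k N''))
  k_div := fun a => by
    obtain ⟨z, hz⟩ := IsAlgClosed.exists_pow_nat_eq (a : k) (Nat.pos_of_ne_zero hm)
    have hz0 : z ≠ 0 := by
      rintro rfl
      rw [zero_pow hm] at hz
      exact a.ne_zero hz.symm
    exact ⟨Units.mk0 z hz0, Units.ext hz⟩
  r1_c := fun w hw c => by
    apply Units.ext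
    rw [coe_t4eiR lo hN'' _ _ (Nat.le_of_succ_le_succ hw)]
    exact t4eiRho_const lo hN'' (Nat.le_of_succ_le_succ hw)
      ⟨((c : Lˣ) : L), (t4ei_mem_O_of_mem_UL lo up hl hn hqO hi hdegB m c.2).1⟩
  jα := fun w => Units.map ((t4eiPhi Fr (t4eShiftA i w) :
    ↥(modularFunctionFieldFullC k N'') →+* ↥(modularFunctionFieldFullC k N'')) :
      ↥(modularFunctionFieldFullC k N'') →* ↥(modularFunctionFieldFullC k N''))
  jβ := fun w => Units.map ((t4eiPhi Fr (t4eShiftB i w) :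
    ↥(modularFunctionFieldFullC k N'') →+* ↥(modularFunctionFieldFullC k N'')) :
      ↥(modularFunctionFieldFullC k N'') →* ↥(modularFunctionFieldFullC k N''))
  jα_κ := fun w a => ⟨a, Units.ext (t4eiPhi_algebraMap Fr _ _)⟩
  jβ_κ := fun w a => ⟨a, Units.ext (t4eiPhi_algebraMap Fr _ _)⟩
  red_α := fun w hw y => by
    have hw1 : w ≤ i := by omega
    have hw2 : w ≤ i + 1 := by omega
    have hy := t4ei_mem_of_mem_U lo up hl hn hqO hi hdegB m y.2 w hw2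
    obtain ⟨h, e⟩ := hn.resA w (by omega) _ hy.1
    apply Units.ext
    rw [Units.val_pow_eq_pow_val, coe_t4eiR up hN'' _ _ hw2]
    show t4eiPhi Fr (t4eShiftA i w) _ = _
    rw [coe_t4eiR lo hN'' _ _ hw1]
    apply Subtype.ext
    rw [coe_t4eiPhi, SubmonoidClass.coe_pow, coe_t4eiRho, coe_t4eiRho]
    exact e
  red_β := fun w hw hw' y => by
    have hw1 : w - 1 ≤ i := by omega
    have hy := t4ei_mem_of_mem_U lo up hl hn hqO hi hdegB m y.2 w hw'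
    obtain ⟨h, e⟩ := hn.resB w hw hw' _ hy.1
    apply Units.ext
    rw [Units.val_pow_eq_pow_val, coe_t4eiR up hN'' _ _ hw']
    show t4eiPhi Fr (t4eShiftB i w) _ = _
    rw [coe_t4eiR lo hN'' _ _ hw1]
    apply Subtype.ext
    rw [coe_t4eiPhi, SubmonoidClass.coe_pow, coe_t4eiRho, coe_t4eiRho]
    exact e
  red_α_split := fun y => by
    have hy1 := t4ei_mem_of_mem_U lo up hl hn hqO hi hdegB m y.2 (i + 1) le_rfl
    have hy2 := t4ei_mem_of_mem_U lo up hl hn hqO hi hdegB m y.2 i (Nat.le_succ i)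
    obtain ⟨h, e⟩ := hn.resA_split _ hy1.1 hy2.1
    have hs : t4eShiftA i i = 0 := by
      unfold t4eShiftA
      rw [if_neg (by omega)]
    rw [Nat.add_sub_cancel]
    apply Units.ext
    rw [Units.val_mul, Units.val_pow_eq_pow_val, coe_t4eiR up hN'' _ _ le_rfl,
      coe_t4eiR up hN'' _ _ (Nat.le_succ i)]
    show t4eiPhi Fr (t4eShiftA i i) _ = _
    rw [coe_t4eiR lo hN'' _ _ le_rfl, hs]
    apply Subtype.ext
    show ((t4eiRho lo hN'' le_rfl _ : ↥(modularFunctionFieldFullC k N'')) : LaurentSeries k) = _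
    rw [MulMemClass.coe_mul, SubmonoidClass.coe_pow, coe_t4eiRho, coe_t4eiRho, coe_t4eiRho]
    exact e
  red_β_split := fun y => by
    have hy1 := t4ei_mem_of_mem_U lo up hl hn hqO hi hdegB m y.2 0 (Nat.zero_le _)
    have hy2 := t4ei_mem_of_mem_U lo up hl hn hqO hi hdegB m y.2 1 (by omega)
    obtain ⟨h, e⟩ := hn.resB_split _ hy1.1 hy2.1
    have hs : t4eShiftB i 1 = 0 := by
      unfold t4eShiftB
      rw [if_neg (by omega)]
    apply Units.ext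
    rw [Units.val_mul, Units.val_pow_eq_pow_val, coe_t4eiR up hN'' _ _ (Nat.zero_le _),
      coe_t4eiR up hN'' _ _ (by omega : 1 ≤ i + 1)]
    show t4eiPhi Fr (t4eShiftB i 1) _ = _
    rw [coe_t4eiR lo hN'' _ _ (Nat.zero_le _), hs]
    apply Subtype.ext
    show ((t4eiRho lo hN'' (Nat.zero_le _) _ : ↥(modularFunctionFieldFullC k N'')) :
      LaurentSeries k) = _
    rw [MulMemClass.coe_mul, SubmonoidClass.coe_pow, coe_t4eiRho, coe_t4eiRho, coe_t4eiRho]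
    exact e
  approx_r := fun a => by
    obtain ⟨g, hg⟩ := t4ei_crt_unit hN'' up a
    have hgU : g ∈ (t4eiA lo up hl hn hqO hi hdegB m).U :=
      fun w hw => (t4eiOrd_eq_zero_iff_val up hw g).mpr (hg w hw).1
    refine ⟨⟨g, hgU⟩, fun w hw => Units.ext ?_⟩
    rw [coe_t4eiR up hN'' _ _ hw]
    obtain ⟨-, hgm, e⟩ := hg w hw
    exact e
  U1q := t4nU1q up.Ov (((q : ℕ) : ↥(TaF L (t4eLev N'' q (i + 1)))))
  qgrp := fun z h1 => by
    have hzO : ((z : (↥(TaF L (t4eLev N'' q (i + 1))))ˣ) : ↥(TaF L (t4eLev N'' q (i + 1)))) ∈ up.Ov :=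
      fun w hw => (t4ei_mem_of_mem_U lo up hl hn hqO hi hdegB m z.2 w hw).1
    have hzO' : (((z : (↥(TaF L (t4eLev N'' q (i + 1))))ˣ)⁻¹ :
        (↥(TaF L (t4eLev N'' q (i + 1))))ˣ) : ↥(TaF L (t4eLev N'' q (i + 1)))) ∈ up.Ov :=
      fun w hw => (t4ei_mem_of_mem_U lo up hl hn hqO hi hdegB m z.2 w hw).2
    obtain ⟨a, ha⟩ := t4ei_qgrp up hqm hzO hzO' (fun w hw => by
      have h2 := congrArg (fun u : (↥(modularFunctionFieldFullC k N''))ˣ =>
        (u : ↥(modularFunctionFieldFullC k N''))) (h1 w hw)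
      simp only [Units.val_one] at h2
      rw [coe_t4eiR up hN'' _ _ hw] at h2
      have h3 : t4eiRho up hN'' hw ⟨1, (up.V w).one_mem⟩ = 1 := map_one _
      exact t4ei_val_sub_lt_of_rho_eq up hN'' hw _ _ (h2.trans h3.symm))
    exact ⟨z ^ a, ha⟩

end Inst

end Fermat.Agent.T4
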