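/-
T4E-N (helper4), steps A + B at level `q^e`, part 4: **the constants of the two norm relations**.

For a unit `z` all of whose residues are `1` (e.g. `z ≡ 1` modulo `q`) with
`N_α z = constant × m-th power`: one can write `N_α z = c · f ^ m` with `c` a unit constant with
residue `1`, `f` a unit with residue `1` on the split side (`V¹_(e-1)`) and with residue a constant
`a w ∈ kˣ`, `(a w) ^ m = 1`, on every other component `V¹_w`, `w + 2 ≤ e`.  Symmetrically for `N_β`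
(split side `V¹_0`, constants `b w` on `V¹_w`, `1 ≤ w ≤ e - 1`).
Needed: the residue fields of the lower level contain no new `m`-th roots of constants (`k`
algebraically closed in `E1`), `jα`, `jβ`, `κ1` injective, `rL` surjective.
-/
import Mathlib
import Fermat.Agent.Lib.T4E.New.StepB

set_option autoImplicit false
set_option linter.unusedSectionVars false
set_option linter.unusedVariables false

namespace Fermat.Agent.T4E

variable {L F1 F : Type} [Field L] [Field F1] [Field F] {q e m : ℕ} (D : T4eA L F1 F q e m)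
  {he2 : 2 ≤ e} {k E1 E : Type} [Field k] [Field E1] [Field E] (B : T4eB D he2 k E1 E)

/-- abstract form: `x = c · g ^ m` a unit of the lower level with `r¹_w x = 1` for all `w ≤ e - 1`;
then `x = c' · g' ^ m` with `rL c' = 1`, `r¹_(w₀) g' = 1` at the reference component `w₀`, and
`r¹_w g' = κ1 (a w)`, `(a w) ^ m = 1`, at all `w ≤ e - 1` -/
theorem T4eB.norm_const_aux (hm : m ≠ 0) (hκ1 : Function.Injective B.κ1)
    (hrL : Function.Surjective B.rL)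
    (hcl : ∀ x : E1ˣ, (∃ a : kˣ, x ^ m = B.κ1 a) → ∃ b : kˣ, x = B.κ1 b)
    (w₀ : ℕ) (hw₀ : w₀ + 1 ≤ e)
    {x : F1ˣ} (hx : x ∈ D.U1) (hx1 : ∀ w, w + 1 ≤ e → B.r1 w ⟨x, hx⟩ = 1)
    (h : ∃ (c : Lˣ) (g : F1ˣ), x = D.cF1 c * g ^ m) :
    ∃ (c : ↥D.UL) (g : ↥D.U1) (a : ℕ → kˣ), x = D.cF1 c * (g : F1ˣ) ^ m ∧ B.rL c = 1 ∧
      B.r1 w₀ g = 1 ∧ a w₀ = 1 ∧ ∀ w, w + 1 ≤ e → B.r1 w g = B.κ1 (a w) ∧ a w ^ m = 1 := by
  obtain ⟨c, g, hc, hg, hxe⟩ := D.normalise (by omega) hm hx h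
  set cU : ↥D.UL := ⟨c, hc⟩
  set gU : ↥D.U1 := ⟨g, hg⟩
  have hxU : (⟨x, hx⟩ : ↥D.U1) = ⟨D.cF1 cU, D.cF1_mem_U1 cU.2⟩ * gU ^ m := Subtype.ext hxe
  -- the residue of `g` at the reference component is a constant
  have h1 : B.κ1 (B.rL cU) * B.r1 w₀ gU ^ m = 1 := by
    rw [← B.r1_c w₀ hw₀, ← map_pow, ← map_mul, ← hxU, hx1 w₀ hw₀]
  obtain ⟨b, hb⟩ := hcl (B.r1 w₀ gU)
    ⟨(B.rL cU)⁻¹, by rw [map_inv, eq_inv_iff_mul_eq_one, mul_comm, h1]⟩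
  obtain ⟨c₁, hc₁⟩ := hrL b
  -- rescale
  set c' : ↥D.UL := cU * c₁ ^ m with hc'
  set g' : ↥D.U1 := gU * (⟨D.cF1 c₁, D.cF1_mem_U1 c₁.2⟩ : ↥D.U1)⁻¹ with hg'
  have hxe' : x = D.cF1 c' * (g' : F1ˣ) ^ m := by
    rw [hxe, hc', hg']
    simp only [Subgroup.coe_mul, Subgroup.coe_pow, Subgroup.coe_inv, map_mul, map_pow, mul_pow,
      inv_pow]
    show D.cF1 c * g ^ m = D.cF1 c * D.cF1 (c₁ : Lˣ) ^ m * (g ^ m * (D.cF1 (c₁ : Lˣ) ^ m)⁻¹)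
    rw [mul_assoc, mul_left_comm (D.cF1 (c₁ : Lˣ) ^ m), mul_inv_cancel, mul_one]
  have hra : B.r1 w₀ g' = 1 := by
    rw [hg', map_mul, map_inv, B.r1_c w₀ hw₀, hc₁, hb, mul_inv_cancel]
  have hrL' : B.rL c' = 1 := by
    apply hκ1
    rw [hc', map_mul, map_pow, hc₁, map_mul, map_pow, ← hb, h1, map_one]
  have hxU' : (⟨x, hx⟩ : ↥D.U1) = ⟨D.cF1 c', D.cF1_mem_U1 c'.2⟩ * g' ^ m := Subtype.ext hxe'
  have h2 : ∀ w, w + 1 ≤ e → B.r1 w g' ^ m = 1 := fun w hw => by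
    have := hx1 w hw
    rw [hxU', map_mul, map_pow, B.r1_c w hw, hrL', map_one, one_mul] at this
    exact this
  have h3 : ∀ w, w + 1 ≤ e → ∃ a : kˣ, B.r1 w g' = B.κ1 a :=
    fun w hw => hcl (B.r1 w g') ⟨1, by rw [h2 w hw, map_one]⟩
  classical
  set a : ℕ → kˣ := fun w => if hw : w + 1 ≤ e then (h3 w hw).choose else 1 with ha
  have ha' : ∀ w, w + 1 ≤ e → B.r1 w g' = B.κ1 (a w) := fun w hw => by
    rw [ha]
    simp only [dif_pos hw]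
    exact (h3 w hw).choose_spec
  refine ⟨c', g', a, hxe', hrL', hra, ?_, fun w hw => ⟨ha' w hw, ?_⟩⟩
  · apply hκ1
    rw [← ha' w₀ hw₀, hra, map_one]
  · apply hκ1
    rw [map_pow, ← ha' w hw, h2 w hw, map_one]

/-- residues `1` are preserved by `N_α` -/
theorem T4eB.r1_Nα_eq_one (hjα : ∀ w, Function.Injective (B.jα w))
    (z : ↥D.U) (hz : ∀ w, w ≤ e → B.r w z = 1) :
    ∀ w, w + 1 ≤ e → B.r1 w ⟨D.Nα z, D.Nα_mem_U1 he2 z.2⟩ = 1 := fun w hw => by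
  apply hjα w
  rcases Nat.lt_or_ge (w + 1) e with h | h
  · rw [B.red_α w (by omega) z, hz w (by omega), one_pow, map_one]
  · have hw' : w = e - 1 := by omega
    subst hw'
    rw [B.red_α_split z, hz e le_rfl, hz (e - 1) (by omega), one_pow, mul_one, map_one]

/-- residues `1` are preserved by `N_β` -/
theorem T4eB.r1_Nβ_eq_one (hjβ : ∀ w, Function.Injective (B.jβ w))
    (z : ↥D.U) (hz : ∀ w, w ≤ e → B.r w z = 1) :
    ∀ w, w + 1 ≤ e → B.r1 w ⟨D.Nβ z, D.Nβ_mem_U1 he2 z.2⟩ = 1 := fun w hw => by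
  rcases Nat.eq_zero_or_pos w with h | h
  · subst h
    apply hjβ 1
    rw [B.red_β_split z, hz 0 (by omega), hz 1 (by omega), one_pow, mul_one, map_one]
  · apply hjβ (w + 1)
    have := B.red_β (w + 1) (by omega) (by omega) z
    rw [Nat.add_sub_cancel] at this
    rw [this, hz (w + 1) (by omega), one_pow, map_one]

/-- **the constants of the `α`-relation**: `N_α z = c · f ^ m`, `c ≡ 1`, `f ≡ 1` on the split side
`V¹_(e-1)`, `f ≡ a w` on `V¹_w`, `(a w) ^ m = 1` -/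
theorem T4eB.norm_const_α (hm : m ≠ 0) (hκ1 : Function.Injective B.κ1)
    (hrL : Function.Surjective B.rL)
    (hcl : ∀ x : E1ˣ, (∃ a : kˣ, x ^ m = B.κ1 a) → ∃ b : kˣ, x = B.κ1 b)
    (hjα : ∀ w, Function.Injective (B.jα w))
    (z : ↥D.U) (hz : ∀ w, w ≤ e → B.r w z = 1)
    (hα : ∃ (c : Lˣ) (g : F1ˣ), D.Nα z = D.cF1 c * g ^ m) :
    ∃ (c : ↥D.UL) (g : ↥D.U1) (a : ℕ → kˣ), D.Nα z = D.cF1 c * (g : F1ˣ) ^ m ∧ B.rL c = 1 ∧
      B.r1 (e - 1) g = 1 ∧ a (e - 1) = 1 ∧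
      ∀ w, w + 1 ≤ e → B.r1 w g = B.κ1 (a w) ∧ a w ^ m = 1 :=
  B.norm_const_aux D hm hκ1 hrL hcl (e - 1) (by omega) (D.Nα_mem_U1 he2 z.2)
    (B.r1_Nα_eq_one D hjα z hz) hα

/-- **the constants of the `β`-relation**: `N_β z = c · f ^ m`, `c ≡ 1`, `f ≡ 1` on the split side
`V¹_0`, `f ≡ b w` on `V¹_w`, `(b w) ^ m = 1` -/
theorem T4eB.norm_const_β (hm : m ≠ 0) (hκ1 : Function.Injective B.κ1)
    (hrL : Function.Surjective B.rL)
    (hcl : ∀ x : E1ˣ, (∃ a : kˣ, x ^ m = B.κ1 a) → ∃ b : kˣ, x = B.κ1 b)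
    (hjβ : ∀ w, Function.Injective (B.jβ w))
    (z : ↥D.U) (hz : ∀ w, w ≤ e → B.r w z = 1)
    (hβ : ∃ (c : Lˣ) (g : F1ˣ), D.Nβ z = D.cF1 c * g ^ m) :
    ∃ (c : ↥D.UL) (g : ↥D.U1) (b : ℕ → kˣ), D.Nβ z = D.cF1 c * (g : F1ˣ) ^ m ∧ B.rL c = 1 ∧
      B.r1 0 g = 1 ∧ b 0 = 1 ∧
      ∀ w, w + 1 ≤ e → B.r1 w g = B.κ1 (b w) ∧ b w ^ m = 1 :=
  B.norm_const_aux D hm hκ1 hrL hcl 0 (by omega) (D.Nβ_mem_U1 he2 z.2)
    (B.r1_Nβ_eq_one D hjβ z hz) hβ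

end Fermat.Agent.T4E
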