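/-
T4E-N (helper4), instance of steps A + B at level `q ^ e`, part 5: **the normalised constants of the
two norm relations in valuation form** (the input of the step-C instance).

For `z ≡ 1 (mod q 𝒪)` (`z ∈ t4nU1q up.Ov q`) with `N_α z`, `N_β z` constants times `m`-th powers:
`N_α z = c · f ^ m`, `c ∈ O^×`, `π c = 1`, `f` a unit at every vertical `V¹_w` of the lower layer,
`f ≡ a w` on `V¹_w` with `a w ∈ O`, `π ((a w) ^ m) = 1`, and `a i = 1` (split side `V¹_i`);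
symmetrically for `β` (`b 0 = 1`, split side `V¹_0`).  These are `T4eiConstA lo m z`,
`T4eiConstB lo m z`; `t4ei_norm_consts` produces them from `T4eB.norm_const_α/β`.
-/
import Fermat.Agent.Lib.T4E.New.InstB
import Fermat.Agent.Lib.T4E.New.NormConst
import Fermat.Agent.Lib.T4.New.InstU

set_option autoImplicit false
set_option linter.unusedSectionVars false
set_option linter.unusedVariables false
set_option linter.style.haveILetI false

open HahnSeries ModularCurve Fermat.Agent.T1 Fermat.Agent.T2 Fermat.Agent.T4E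

noncomputable section

namespace Fermat.Agent.T4

section Contract

variable {L : Type} [Field L] [Algebra ℚ L] {O : ValuationSubring L} {k : Type} [Field k]
  {π : ↥O →+* k} [IsDiscreteValuationRing ↥O] {hπ : Function.Surjective π}
  {N'' q : ℕ} [NeZero N''] [NeZero q] {i : ℕ}

/-- the normalised constants of the `α`-relation for `z` (level `i + 1`): `N_α z = c · f ^ m`,
`c ∈ O^×`, `π c = 1`, `f` a unit at every `V¹_w`, `f ≡ a w` on `V¹_w`, `a w ∈ O`,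
`π ((a w) ^ m) = 1`, `a i = 1` -/
def T4eiConstA (lo : T4eLayer O π hπ N'' q i) (m : ℕ)
    (z : ↥(TaF L (t4eLev N'' q (i + 1)))) : Prop :=
  ∃ (c : L) (f : ↥(TaF L (t4eLev N'' q i))) (a : ℕ → ↥O) (hc : c ∈ O), c⁻¹ ∈ O ∧
    π ⟨c, hc⟩ = 1 ∧ f ≠ 0 ∧
    t4nNormA L (t4eLev N'' q i) q z = algebraMap L ↥(TaF L (t4eLev N'' q i)) c * f ^ m ∧
    (∀ w, w ≤ i → (lo.V w).valuation f = 1) ∧
    (∀ w, w ≤ i → (lo.V w).valuation
      (f - algebraMap L ↥(TaF L (t4eLev N'' q i)) (a w : L)) < 1) ∧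
    (∀ w, w ≤ i → π (a w ^ m) = 1) ∧ a i = 1

/-- the normalised constants of the `β`-relation for `z` (level `i + 1`): `N_β z = c · f ^ m`,
`c ∈ O^×`, `π c = 1`, `f` a unit at every `V¹_w`, `f ≡ b w` on `V¹_w`, `b w ∈ O`,
`π ((b w) ^ m) = 1`, `b 0 = 1` -/
def T4eiConstB (lo : T4eLayer O π hπ N'' q i) (m : ℕ)
    (z : ↥(TaF L (t4eLev N'' q (i + 1)))) : Prop :=
  ∃ (c : L) (f : ↥(TaF L (t4eLev N'' q i))) (b : ℕ → ↥O) (hc : c ∈ O), c⁻¹ ∈ O ∧
    π ⟨c, hc⟩ = 1 ∧ f ≠ 0 ∧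
    t4nNormB L (t4eLev N'' q i) q z = algebraMap L ↥(TaF L (t4eLev N'' q i)) c * f ^ m ∧
    (∀ w, w ≤ i → (lo.V w).valuation f = 1) ∧
    (∀ w, w ≤ i → (lo.V w).valuation
      (f - algebraMap L ↥(TaF L (t4eLev N'' q i)) (b w : L)) < 1) ∧
    (∀ w, w ≤ i → π (b w ^ m) = 1) ∧ b 0 = 1

end Contract

section Inst

variable {L : Type} [Field L] [Algebra ℚ L] {O : ValuationSubring L} {k : Type} [Field k]
  {π : ↥O →+* k} [IsDiscreteValuationRing ↥O] {hπ : Function.Surjective π} [IsAlgClosed k]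
  {N'' q : ℕ} [NeZero N''] [hq : Fact q.Prime] [CharP k q] {i : ℕ}
  (lo : T4eLayer O π hπ N'' q i) (up : T4eLayer O π hπ N'' q (i + 1))
  (hl : T4eLink lo up) (hn : T4eiNorm lo up) (hqO : Irreducible ((q : ℕ) : ↥O)) (hi : 1 ≤ i)
  (hdegB : @Module.finrank ↥(TaF L (t4eLev N'' q i)) ↥(TaF L (t4eLev N'' q (i + 1))) _ _
    (heckeBetaBar L (t4eLev N'' q i) q).toRingHom.toAlgebra.toModule = q)
  (hN'' : (N'' : k) ≠ 0) (Fr : T2iFrob k N'' q) (m : ℕ)

/-! ### The hypotheses of `T4eB.norm_const_α/β` -/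

/-- `rL` is surjective -/
theorem t4ei_hrL (hm : m ≠ 0) (hqm : Nat.Coprime m q) :
    Function.Surjective (t4eiB lo up hl hn hqO hi hdegB hN'' Fr m hm hqm).rL := by
  intro a
  obtain ⟨c, hc⟩ := hπ (a : k)
  have hca : π c ≠ 0 := by rw [hc]; exact a.ne_zero
  have hc0 : (c : L) ≠ 0 := by
    intro h0
    apply hca
    have : c = 0 := Subtype.ext h0
    rw [this, map_zero]
  have hinv := t4ni_inv_mem_of_pi_ne O π hπ hqO hca
  have hmemUL : Units.mk0 (c : L) hc0 ∈ (t4eiA lo up hl hn hqO hi hdegB m).UL :=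
    (t4eiVL_eq_zero_iff hqO (Units.mk0 (c : L) hc0)).mpr
      ⟨c.2, by rw [Units.val_inv_eq_inv_val]; exact hinv⟩
  refine ⟨⟨Units.mk0 (c : L) hc0, hmemUL⟩, Units.ext ?_⟩
  exact hc

/-! ### Elements `≡ 1 (mod q 𝒪)` -/

/-- an element of `U1q` lies in `D.U` with all residues `1` -/
theorem t4ei_U1q_mem_U (hm : m ≠ 0) (hqm : Nat.Coprime m q)
    {z : (↥(TaF L (t4eLev N'' q (i + 1))))ˣ}
    (hz : z ∈ t4nU1q up.Ov (((q : ℕ) : ↥(TaF L (t4eLev N'' q (i + 1)))))) :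
    ∃ hzU : z ∈ (t4eiA lo up hl hn hqO hi hdegB m).U,
      ∀ w, w ≤ i + 1 → (t4eiB lo up hl hn hqO hi hdegB hN'' Fr m hm hqm).r w ⟨z, hzU⟩ = 1 := by
  obtain ⟨hzO, hzO', o, ho, hzo⟩ := mem_t4nU1q.mp hz
  have hzU : z ∈ (t4eiA lo up hl hn hqO hi hdegB m).U :=
    t4ei_mem_U_of_mem lo up hl hn hqO hi hdegB m (fun w hw => ⟨hzO w hw, hzO' w hw⟩)
  refine ⟨hzU, fun w hw => Units.ext ?_⟩
  show ((t4eiR up hN'' _ _ w ⟨z, hzU⟩ : (↥(modularFunctionFieldFullC k N''))ˣ) :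
    ↥(modularFunctionFieldFullC k N'')) = 1
  rw [coe_t4eiR up hN'' _ _ hw]
  have h1 : t4eiRho up hN'' hw ⟨1, (up.V w).one_mem⟩ = 1 := map_one _
  rw [← h1]
  refine t4eiRho_eq_of_val_sub_lt up hN'' hw _ _ ?_
  rw [hzo, map_mul]
  calc (up.V w).valuation (((q : ℕ) : ↥(TaF L (t4eLev N'' q (i + 1))))) * (up.V w).valuation o
      ≤ (up.V w).valuation (((q : ℕ) : ↥(TaF L (t4eLev N'' q (i + 1))))) * 1 := by
        gcongr
        exact ((up.V w).valuation_le_one_iff _).mpr (ho w hw)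
    _ < 1 := by
        rw [mul_one]
        exact up.val_q_lt hw

/-! ### The normalised constants -/

include hπ in
/-- conversion of the output of `T4eB.norm_const_aux` into valuation form -/
theorem t4ei_consts_conv (hm : m ≠ 0) (hqm : Nat.Coprime m q) {x : ↥(TaF L (t4eLev N'' q i))}
    (w₀ : ℕ) (c : ↥(t4eiA lo up hl hn hqO hi hdegB m).UL)
    (g : ↥(t4eiA lo up hl hn hqO hi hdegB m).U1) (a : ℕ → kˣ)
    (hx : x = (((t4eiA lo up hl hn hqO hi hdegB m).cF1 (c : Lˣ) *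
      (g : (↥(TaF L (t4eLev N'' q i)))ˣ) ^ m : (↥(TaF L (t4eLev N'' q i)))ˣ) :
        ↥(TaF L (t4eLev N'' q i))))
    (hc : (t4eiB lo up hl hn hqO hi hdegB hN'' Fr m hm hqm).rL c = 1) (ha0 : a w₀ = 1)
    (ha : ∀ w, w + 1 ≤ i + 1 →
      (t4eiB lo up hl hn hqO hi hdegB hN'' Fr m hm hqm).r1 w g =
        (t4eiB lo up hl hn hqO hi hdegB hN'' Fr m hm hqm).κ1 (a w) ∧ a w ^ m = 1) :
    ∃ (c' : L) (f : ↥(TaF L (t4eLev N'' q i))) (a' : ℕ → ↥O) (hc' : c' ∈ O), c'⁻¹ ∈ O ∧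
      π ⟨c', hc'⟩ = 1 ∧ f ≠ 0 ∧
      x = algebraMap L ↥(TaF L (t4eLev N'' q i)) c' * f ^ m ∧
      (∀ w, w ≤ i → (lo.V w).valuation f = 1) ∧
      (∀ w, w ≤ i → (lo.V w).valuation
        (f - algebraMap L ↥(TaF L (t4eLev N'' q i)) (a' w : L)) < 1) ∧
      (∀ w, w ≤ i → π (a' w ^ m) = 1) ∧ a' w₀ = 1 := by
  classical
  have hlift : ∀ w, ∃ a' : ↥O, π a' = (a w : k) := fun w => hπ (a w : k)
  choose a₁ ha₁ using hlift
  set a' : ℕ → ↥O := fun w => if w = w₀ then 1 else a₁ w with ha'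
  have ha'π : ∀ w, π (a' w) = (a w : k) := by
    intro w
    by_cases hw : w = w₀
    · rw [ha']
      simp only [if_pos hw]
      rw [map_one, hw, ha0, Units.val_one]
    · rw [ha']
      simp only [if_neg hw]
      exact ha₁ w
  have hcO := t4ei_mem_O_of_mem_UL lo up hl hn hqO hi hdegB m c.2
  refine ⟨(((c : Lˣ)) : L), ((g : (↥(TaF L (t4eLev N'' q i)))ˣ) : ↥(TaF L (t4eLev N'' q i))), a',
    hcO.1, ?_, ?_, (g : (↥(TaF L (t4eLev N'' q i)))ˣ).ne_zero, ?_, ?_, ?_, ?_, ?_⟩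
  · rw [← Units.val_inv_eq_inv_val]
    exact hcO.2
  · exact congrArg (fun u : kˣ => (u : k)) hc
  · rw [hx]
    rfl
  · intro w hw
    exact (t4eiOrd_eq_zero_iff_val lo hw _).mp (g.2 w (Nat.succ_le_succ hw))
  · intro w hw
    have hgm := t4ei_mem_of_mem_U1 lo up hl hn hqO hi hdegB m g.2 w hw
    refine t4ei_val_sub_lt_of_rho_eq lo hN'' hw hgm.1 (lo.const_mem w hw (a' w)) ?_
    rw [t4eiRho_const lo hN'' hw (a' w), ha'π w]
    have h1 := congrArg (fun u : (↥(modularFunctionFieldFullC k N''))ˣ =>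
      (u : ↥(modularFunctionFieldFullC k N''))) (ha w (Nat.succ_le_succ hw)).1
    exact (coe_t4eiR lo hN'' _ _ hw g).symm.trans h1
  · intro w hw
    rw [map_pow, ha'π w, ← Units.val_pow_eq_pow_val, (ha w (Nat.succ_le_succ hw)).2,
      Units.val_one]
  · show (if w₀ = w₀ then (1 : ↥O) else a₁ w₀) = 1
    rw [if_pos rfl]

include hπ hN'' Fr in
/-- **the normalised constants of the two norm relations, in valuation form** -/
theorem t4ei_norm_consts (hm : m ≠ 0) (hqm : Nat.Coprime m q)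
    {z : (↥(TaF L (t4eLev N'' q (i + 1))))ˣ}
    (hz : z ∈ t4nU1q up.Ov (((q : ℕ) : ↥(TaF L (t4eLev N'' q (i + 1))))))
    (hα : ∃ (c : Lˣ) (g : (↥(TaF L (t4eLev N'' q i)))ˣ),
      (t4eiA lo up hl hn hqO hi hdegB m).Nα z =
        (t4eiA lo up hl hn hqO hi hdegB m).cF1 c * g ^ m)
    (hβ : ∃ (c : Lˣ) (g : (↥(TaF L (t4eLev N'' q i)))ˣ),
      (t4eiA lo up hl hn hqO hi hdegB m).Nβ z =
        (t4eiA lo up hl hn hqO hi hdegB m).cF1 c * g ^ m) :
    T4eiConstA lo m (z : ↥(TaF L (t4eLev N'' q (i + 1)))) ∧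
      T4eiConstB lo m (z : ↥(TaF L (t4eLev N'' q (i + 1)))) := by
  obtain ⟨hzU, h1⟩ := t4ei_U1q_mem_U lo up hl hn hqO hi hdegB hN'' Fr m hm hqm hz
  have hκ1 : Function.Injective (t4eiB lo up hl hn hqO hi hdegB hN'' Fr m hm hqm).κ1 :=
    Units.map_injective (algebraMap k ↥(modularFunctionFieldFullC k N'')).injective
  have hjα : ∀ w, Function.Injective ((t4eiB lo up hl hn hqO hi hdegB hN'' Fr m hm hqm).jα w) :=
    fun w => Units.map_injective (t4eiPhi Fr (t4eShiftA i w)).injective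
  have hjβ : ∀ w, Function.Injective ((t4eiB lo up hl hn hqO hi hdegB hN'' Fr m hm hqm).jβ w) :=
    fun w => Units.map_injective (t4eiPhi Fr (t4eShiftB i w)).injective
  constructor
  · obtain ⟨c, g, a, e, hc, -, ha0, ha⟩ :=
      (t4eiB lo up hl hn hqO hi hdegB hN'' Fr m hm hqm).norm_const_α _ hm hκ1
        (t4ei_hrL lo up hl hn hqO hi hdegB hN'' Fr m hm hqm) (t4ni_hcl m hm) hjα ⟨z, hzU⟩ h1 hα
    rw [Nat.add_sub_cancel] at ha0
    exact t4ei_consts_conv lo up hl hn hqO hi hdegB hN'' Fr m hm hqm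
      (x := t4nNormA L (t4eLev N'' q i) q (z : ↥(TaF L (t4eLev N'' q (i + 1))))) i c g a
      (congrArg (fun u : (↥(TaF L (t4eLev N'' q i)))ˣ => (u : ↥(TaF L (t4eLev N'' q i)))) e)
      hc ha0 ha
  · obtain ⟨c, g, b, e, hc, -, hb0, hb⟩ :=
      (t4eiB lo up hl hn hqO hi hdegB hN'' Fr m hm hqm).norm_const_β _ hm hκ1
        (t4ei_hrL lo up hl hn hqO hi hdegB hN'' Fr m hm hqm) (t4ni_hcl m hm) hjβ ⟨z, hzU⟩ h1 hβ
    exact t4ei_consts_conv lo up hl hn hqO hi hdegB hN'' Fr m hm hqm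
      (x := t4nNormB L (t4eLev N'' q i) q (z : ↥(TaF L (t4eLev N'' q (i + 1))))) 0 c g b
      (congrArg (fun u : (↥(TaF L (t4eLev N'' q i)))ˣ => (u : ↥(TaF L (t4eLev N'' q i)))) e)
      hc hb0 hb

end Inst

end Fermat.Agent.T4
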