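/-
T4E-N (helper4), **top assembly of the instance**: at the inertia level `L = tbFix 𝔓 ⊤`, from two
consecutive layers `lo` (level `k + 1`), `up` (level `k + 2`) of the tower, their link and the norm
package, the instance `(D, B) = (t4eiA, t4eiB)` of steps A + B; the contract **`T4eiStepCFix`** of
the step-C instance (helper5's P8: a Kummer function `z ≡ 1 (mod p 𝒪)` with normalised norm
constants `T4eiConstA`, `T4eiConstB` has `z ^ (p * p) = constant × m`-th power); and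
`T4eiStepCFix ⟹ T4eInst 𝔓 (t4eLev N'' p k) (k + 2) _ (p * p)`, the contract of the geometry consumed
by `t4e_newAux_of_inst`.
-/
import Fermat.Agent.Lib.T4E.New.InstC
import Fermat.Agent.Lib.T4E.New.CoreOf
import Fermat.Agent.Lib.T4E.AL.Fix
import Fermat.Agent.Lib.T4.Inst.CycVal

set_option autoImplicit false
set_option linter.unusedSectionVars false
set_option linter.unusedVariables false
set_option linter.style.haveILetI false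
set_option synthInstance.maxHeartbeats 400000
set_option maxHeartbeats 2000000

open HahnSeries ModularCurve Module AlgebraicCurve Fermat.Agent.T1 Fermat.Agent.T2 Fermat.Agent.TW
  Fermat.Agent.T4E

noncomputable section

namespace Fermat.Agent.T4

local notation "Qb" => AlgebraicClosure ℚ

attribute [local instance] t2i_dvr t2i_isAlgClosed t2i_charP t2i_fact

variable (𝔓 : FFPlace) (N'' : ℕ) [NeZero N''] (h : ¬ 𝔓.p ∣ N'')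

include h in
/-- the degrees of the `α`- and `β`-structures of `F_{i+1}` over `F_i` agree (Atkin–Lehner) -/
theorem t4ea_finrank_B (H : Subgroup 𝔓.I) (i : ℕ) :
    @Module.finrank ↥(TaF ↥(tbFix 𝔓 H) (t4eLev N'' 𝔓.p i))
        ↥(TaF ↥(tbFix 𝔓 H) (t4eLev N'' 𝔓.p (i + 1))) _ _
        (heckeBetaBar ↥(tbFix 𝔓 H) (t4eLev N'' 𝔓.p i) 𝔓.p).toRingHom.toAlgebra.toModule
      = @Module.finrank ↥(TaF ↥(tbFix 𝔓 H) (t4eLev N'' 𝔓.p i))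
        ↥(TaF ↥(tbFix 𝔓 H) (t4eLev N'' 𝔓.p (i + 1))) _ _
        (heckeAlphaBar ↥(tbFix 𝔓 H) (t4eLev N'' 𝔓.p i) 𝔓.p).toRingHom.toAlgebra.toModule := by
  symm
  refine @Algebra.finrank_eq_of_equiv_equiv ↥(TaF ↥(tbFix 𝔓 H) (t4eLev N'' 𝔓.p i))
    ↥(TaF ↥(tbFix 𝔓 H) (t4eLev N'' 𝔓.p (i + 1))) _ _
    (heckeAlphaBar ↥(tbFix 𝔓 H) (t4eLev N'' 𝔓.p i) 𝔓.p).toRingHom.toAlgebra
    ↥(TaF ↥(tbFix 𝔓 H) (t4eLev N'' 𝔓.p i))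
    ↥(TaF ↥(tbFix 𝔓 H) (t4eLev N'' 𝔓.p (i + 1))) _ _
    (heckeBetaBar ↥(tbFix 𝔓 H) (t4eLev N'' 𝔓.p i) 𝔓.p).toRingHom.toAlgebra
    (t4eaW 𝔓 H N'' h i).toRingEquiv (t4eaW 𝔓 H N'' h (i + 1)).toRingEquiv ?_
  exact RingHom.ext fun g => (t4eaW_alpha 𝔓 H N'' h i g).symm

variable (k : ℕ)
  (lo : T4eLayer (tbFixO 𝔓 ⊤) (tbFixRes 𝔓 ⊤) (tbFixRes_surjective 𝔓 ⊤) N'' 𝔓.p (k + 1))
  (up : T4eLayer (tbFixO 𝔓 ⊤) (tbFixRes 𝔓 ⊤) (tbFixRes_surjective 𝔓 ⊤) N'' 𝔓.p (k + 1 + 1))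

/-- **the contract of the step-C instance at the inertia level** (P8): a Kummer function
`z ≡ 1 (mod p 𝒪)` at level `k + 2` (over `L` and over `ℚ̄`) with normalised norm constants has
`z ^ (p * p) = constant × m`-th power -/
def T4eiStepCFix (m : ℕ) : Prop :=
  ∀ z : ↥(tbLevF 𝔓 (t4eLev N'' 𝔓.p (k + 1 + 1)) ⊤), z ≠ 0 → z ∈ up.Ov → z⁻¹ ∈ up.Ov →
    (∃ o ∈ up.Ov, z - 1 = ((𝔓.p : ℕ) : ↥(tbLevF 𝔓 (t4eLev N'' 𝔓.p (k + 1 + 1)) ⊤)) * o) →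
    (∀ P : Place ↥(tbFix 𝔓 (⊤ : Subgroup 𝔓.I)) ↥(tbLevF 𝔓 (t4eLev N'' 𝔓.p (k + 1 + 1)) ⊤),
      (m : ℤ) ∣ P.ord z) →
    (∀ P : Place Qb ↥(modularFunctionFieldBar (t4eLev N'' 𝔓.p (k + 1 + 1))),
      (m : ℤ) ∣ P.ord (tbPhiF 𝔓 (t4eLev N'' 𝔓.p (k + 1 + 1)) ⊤ z)) →
    T4eiConstA lo m z → T4eiConstB lo m z →
    ∃ (c : ↥(tbFix 𝔓 (⊤ : Subgroup 𝔓.I))) (t : ↥(tbLevF 𝔓 (t4eLev N'' 𝔓.p (k + 1 + 1)) ⊤)),
      c ≠ 0 ∧ t ≠ 0 ∧ z ^ (𝔓.p * 𝔓.p) = c • t ^ m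

variable (hl : T4eLink lo up) (hn : T4eiNorm lo up)

include h hl in
/-- the `β`-degree between the two layers -/
theorem t4ei_hdegB_fix :
    @Module.finrank ↥(TaF ↥(tbFix 𝔓 (⊤ : Subgroup 𝔓.I)) (t4eLev N'' 𝔓.p (k + 1)))
      ↥(TaF ↥(tbFix 𝔓 (⊤ : Subgroup 𝔓.I)) (t4eLev N'' 𝔓.p (k + 1 + 1))) _ _
      (heckeBetaBar ↥(tbFix 𝔓 (⊤ : Subgroup 𝔓.I))
        (t4eLev N'' 𝔓.p (k + 1)) 𝔓.p).toRingHom.toAlgebra.toModule = 𝔓.p :=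
  (t4ea_finrank_B 𝔓 N'' h ⊤ (k + 1)).trans (hl.deg (Nat.le_add_left 1 k))

/-- the instance of `T4eA` at the inertia level -/
def t4eiAFix (m : ℕ) : T4eA ↥(tbFix 𝔓 (⊤ : Subgroup 𝔓.I))
    ↥(TaF ↥(tbFix 𝔓 (⊤ : Subgroup 𝔓.I)) (t4eLev N'' 𝔓.p (k + 1)))
    ↥(TaF ↥(tbFix 𝔓 (⊤ : Subgroup 𝔓.I)) (t4eLev N'' 𝔓.p (k + 1 + 1))) 𝔓.p (k + 1 + 1) m :=
  t4eiA lo up hl hn (t4cy_irreducible_p 𝔓) (Nat.le_add_left 1 k)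
    (t4ei_hdegB_fix 𝔓 N'' h k lo up hl) m

/-- the instance of `T4eB` at the inertia level -/
def t4eiBFix (m : ℕ) (hm : m ≠ 0) (hqm : Nat.Coprime m 𝔓.p) :
    T4eB (t4eiAFix 𝔓 N'' h k lo up hl hn m) (Nat.succ_le_succ (Nat.le_add_left 1 k))
      (IsLocalRing.ResidueField ↥𝔓.P) ↥(tbBarF 𝔓 N'') ↥(tbBarF 𝔓 N'') :=
  t4eiB lo up hl hn (t4cy_irreducible_p 𝔓) (Nat.le_add_left 1 k)
    (t4ei_hdegB_fix 𝔓 N'' h k lo up hl) (t2i_natCast_ne_zero 𝔓 h) (t2iFrobFix 𝔓 N'') m hm hqm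

/-- **step C for the instance**: the export clause of `T4eInst` from the contract -/
theorem t4ei_stepC_fix (m : ℕ) (hm : m ≠ 0) (hqm : Nat.Coprime m 𝔓.p)
    (hC : T4eiStepCFix 𝔓 N'' k lo up m)
    (z : (↥(tbLevF 𝔓 (t4eLev N'' 𝔓.p (k + 1 + 1)) ⊤))ˣ)
    (hzU : z ∈ (t4eiBFix 𝔓 N'' h k lo up hl hn m hm hqm).U1q)
    (hzK : z ∈ tWsub ↥(tbFix 𝔓 (⊤ : Subgroup 𝔓.I)) (t4eLev N'' 𝔓.p (k + 1 + 1)) m)
    (hzQ : ∀ P : Place Qb ↥(modularFunctionFieldBar (t4eLev N'' 𝔓.p (k + 1 + 1))),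
      (m : ℤ) ∣ P.ord (tbPhiF 𝔓 (t4eLev N'' 𝔓.p (k + 1 + 1)) ⊤
        (z : ↥(tbLevF 𝔓 (t4eLev N'' 𝔓.p (k + 1 + 1)) ⊤))))
    (hα : ∃ (c : (↥(tbFix 𝔓 (⊤ : Subgroup 𝔓.I)))ˣ)
      (g : (↥(TaF ↥(tbFix 𝔓 (⊤ : Subgroup 𝔓.I)) (t4eLev N'' 𝔓.p (k + 1))))ˣ),
      (t4eiAFix 𝔓 N'' h k lo up hl hn m).Nα z = (t4eiAFix 𝔓 N'' h k lo up hl hn m).cF1 c * g ^ m)
    (hβ : ∃ (c : (↥(tbFix 𝔓 (⊤ : Subgroup 𝔓.I)))ˣ)
      (g : (↥(TaF ↥(tbFix 𝔓 (⊤ : Subgroup 𝔓.I)) (t4eLev N'' 𝔓.p (k + 1))))ˣ),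
      (t4eiAFix 𝔓 N'' h k lo up hl hn m).Nβ z = (t4eiAFix 𝔓 N'' h k lo up hl hn m).cF1 c * g ^ m) :
    ∃ (c : (↥(tbFix 𝔓 (⊤ : Subgroup 𝔓.I)))ˣ)
      (t : (↥(tbLevF 𝔓 (t4eLev N'' 𝔓.p (k + 1 + 1)) ⊤))ˣ),
      z ^ (𝔓.p * 𝔓.p) = (t4eiAFix 𝔓 N'' h k lo up hl hn m).cF c * t ^ m := by
  obtain ⟨hzO, hzO', hz1⟩ := mem_t4nU1q.mp hzU
  obtain ⟨hA, hB⟩ := t4ei_norm_consts lo up hl hn (t4cy_irreducible_p 𝔓) (Nat.le_add_left 1 k)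
    (t4ei_hdegB_fix 𝔓 N'' h k lo up hl) (t2i_natCast_ne_zero 𝔓 h) (t2iFrobFix 𝔓 N'') m hm hqm
    hzU hα hβ
  obtain ⟨c, t, hc0, ht0, hct⟩ := hC (z : ↥(tbLevF 𝔓 (t4eLev N'' 𝔓.p (k + 1 + 1)) ⊤)) z.ne_zero
    hzO (by rw [← Units.val_inv_eq_inv_val]; exact hzO') hz1 (mem_tWsub.mp hzK) hzQ hA hB
  refine ⟨Units.mk0 c hc0, Units.mk0 t ht0, Units.ext ?_⟩
  rw [Units.val_pow_eq_pow_val, hct, Algebra.smul_def, Units.val_mul, Units.val_pow_eq_pow_val]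
  rfl

include h hl hn in
/-- **the contract of the geometry from the layers, the link, the norm package and the step-C
contract** -/
theorem t4ei_inst_fix
    (hC : ∀ m : ℕ, Nat.Coprime m 𝔓.p → m ≠ 0 → T4eiStepCFix 𝔓 N'' k lo up m) :
    @T4eInst 𝔓 (t4eLev N'' 𝔓.p k) (t4eLev_neZero N'' 𝔓.p k) (t4eLev_neZero N'' 𝔓.p (k + 1))
      (t4eLev_neZero N'' 𝔓.p (k + 2)) (k + 2) (Nat.le_add_left 2 k) (𝔓.p * 𝔓.p) := by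
  intro m hqm hm
  exact ⟨IsLocalRing.ResidueField ↥𝔓.P, ↥(tbBarF 𝔓 N''), ↥(tbBarF 𝔓 N''), inferInstance,
    inferInstance, inferInstance, t4eiAFix 𝔓 N'' h k lo up hl hn m,
    t4eiBFix 𝔓 N'' h k lo up hl hn m hm hqm,
    fun c => rfl, fun c => rfl, fun y => rfl, fun y => rfl,
    t4ei_stepC_fix 𝔓 N'' h k lo up hl hn m hm hqm (hC m hqm hm)⟩

end Fermat.Agent.T4
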