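/-
T4E-N (helper4), **the contract of the geometry in layer language**: `T4eNewAux t4eWU` (the open
input of helper3's `t4e_S36gen`, hence of S45) from, for every place `𝔓`, level `N''` without
elliptic points, `𝔓.p ∤ N''`, and `k ≥ 1`:

* two consecutive layers `lo` (level `k + 1`), `up` (level `k + 2`) of helper9's tower over the
  inertia level `(tbFix 𝔓 ⊤, tbFixO 𝔓 ⊤, tbFixRes 𝔓 ⊤)` (P4),
* their link `T4eLink lo up` (P4) and the norm package `T4eiNorm lo up` (P5),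
* the step-C contract `T4eiStepCFix 𝔓 N'' k lo up m` for every `m` prime to `𝔓.p` (P8).

Everything else (steps A + B, the normalised constants, Atkin–Lehner, descent, product formula, CFE,
degrees) is proved.  The multiplier is `p² · (p · p)`.
-/
import Fermat.Agent.Lib.T4E.New.InstFix
import Fermat.Agent.Lib.T4E.Top.Final

set_option autoImplicit false
set_option linter.unusedSectionVars false
set_option linter.unusedVariables false
set_option linter.style.haveILetI false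
set_option synthInstance.maxHeartbeats 400000

open Fermat.Agent.T1 Fermat.Agent.T2 Fermat.Agent.TW ModularCurve

namespace Fermat.Agent.T4

/-- the multiplier of step C: `q * q` (`1` for the junk value `q = 0`) -/
def t4eiCC (N'' q k : ℕ) : ℕ := if q = 0 then 1 else q * q

theorem t4eiCC_ne_zero (N'' q k : ℕ) : t4eiCC N'' q k ≠ 0 := by
  unfold t4eiCC
  split_ifs with hq
  · exact one_ne_zero
  · exact Nat.mul_ne_zero hq hq

theorem t4eiCC_prime (𝔓 : FFPlace) (N'' k : ℕ) : t4eiCC N'' 𝔓.p k = 𝔓.p * 𝔓.p := by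
  unfold t4eiCC
  rw [if_neg 𝔓.hp.ne_zero]

attribute [local instance] t4e_fact t2i_dvr t2i_isAlgClosed t2i_charP

/-- **THE CONTRACT OF THE GEOMETRY OF T4E IN LAYER LANGUAGE** -/
theorem t4e_newAux_of_layers
    (hgeo : ∀ (𝔓 : FFPlace) (N'' k : ℕ) [NeZero N''] (h : ¬ 𝔓.p ∣ N''), 1 ≤ k →
      (4 ∣ N'' ∨ 9 ∣ N'') →
      ∃ (lo : T4eLayer (tbFixO 𝔓 ⊤) (tbFixRes 𝔓 ⊤) (tbFixRes_surjective 𝔓 ⊤) N'' 𝔓.p (k + 1))
        (up : T4eLayer (tbFixO 𝔓 ⊤) (tbFixRes 𝔓 ⊤) (tbFixRes_surjective 𝔓 ⊤) N'' 𝔓.p (k + 1 + 1)),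
        T4eLink lo up ∧ T4eiNorm lo up ∧
          ∀ m : ℕ, Nat.Coprime m 𝔓.p → m ≠ 0 → T4eiStepCFix 𝔓 N'' k lo up m) :
    T4eNewAux t4eWU := by
  refine t4e_newAux_of_inst' t4eiCC t4eiCC_ne_zero ?_
  intro 𝔓 N'' k _ h hk h49
  obtain ⟨lo, up, hl, hn, hC⟩ := hgeo 𝔓 N'' k h hk h49
  rw [t4eiCC_prime]
  exact t4ei_inst_fix 𝔓 N'' h k lo up hl hn hC

end Fermat.Agent.T4
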