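/-
T4E-N (helper4), instance of steps A + B at level `q ^ e`, part 1: **the norm package between two
consecutive layers** (the contract with P5-NORM, helper7's `Lib/T4E/Norm/Tower.lean`).

`lo : T4eLayer … i`, `up : T4eLayer … (i + 1)` (`e = i + 1`).  `t4eiNA`, `t4eiNB` are the two norms
`F_{i+1} → F_i` (`t4nNormA`, `t4nNormB`) as monoid homomorphisms; `T4eiNorm lo up` collects the
eight norm formulas **in layer language** (order functions `t4eiOrd`, residue maps `Y.ρ w`), in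
exactly the shapes of the fields of `T4eA` / `T4eB`:

* orders: `ord¹_w (N_α y) = f_α(w) · ord_w y` (`w + 1 ≤ i`), `ord¹_i (N_α y) = ord_i y + ord_{i+1} y`;
  `ord¹_{w-1} (N_β y) = f_β(w) · ord_w y` (`2 ≤ w ≤ i + 1`), `ord¹_0 (N_β y) = ord_0 y + ord_1 y`;
* residues: `Φ^s (ρ¹_w (N_α y)) = (ρ_w y) ^ q` (`s = t4eShiftA i w`) at the non-split points,
  `ρ¹_i (N_α y) = ρ_{i+1} y · (ρ_i y) ^ (q - 1)` at the split point; mirror for `β`.
-/
import Fermat.Agent.Lib.T4E.New.InstOrd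
import Fermat.Agent.Lib.T4E.New.ABDefs
import Fermat.Agent.Lib.T4.New.CoreDefs

set_option autoImplicit false
set_option linter.unusedSectionVars false
set_option linter.unusedVariables false
set_option linter.style.haveILetI false

open HahnSeries ModularCurve Fermat.Agent.T1 Fermat.Agent.T2 Fermat.Agent.T4E

noncomputable section

namespace Fermat.Agent.T4

/-- `N_α : F_{N1 q} → F_{N1}` as a monoid homomorphism -/
def t4eiNA (L : Type) [Field L] [Algebra ℚ L] (N1 q : ℕ) [NeZero N1] [NeZero q] :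
    ↥(TaF L (N1 * q)) →* ↥(TaF L N1) where
  toFun := t4nNormA L N1 q
  map_one' := t4nNormA_one L N1 q
  map_mul' := t4nNormA_mul L N1 q

/-- `N_β : F_{N1 q} → F_{N1}` as a monoid homomorphism -/
def t4eiNB (L : Type) [Field L] [Algebra ℚ L] (N1 q : ℕ) [NeZero N1] [NeZero q] :
    ↥(TaF L (N1 * q)) →* ↥(TaF L N1) where
  toFun := t4nNormB L N1 q
  map_one' := t4nNormB_one L N1 q
  map_mul' := t4nNormB_mul L N1 q

theorem t4eiNA_apply (L : Type) [Field L] [Algebra ℚ L] (N1 q : ℕ) [NeZero N1] [NeZero q]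
    (y : ↥(TaF L (N1 * q))) : t4eiNA L N1 q y = t4nNormA L N1 q y := rfl

theorem t4eiNB_apply (L : Type) [Field L] [Algebra ℚ L] (N1 q : ℕ) [NeZero N1] [NeZero q]
    (y : ↥(TaF L (N1 * q))) : t4eiNB L N1 q y = t4nNormB L N1 q y := rfl

theorem t4eMu_eq_t4eMult (q e w : ℕ) : t4eMu q e w = t4eMult q e w := rfl

section Layer

variable {L : Type} [Field L] [Algebra ℚ L] {O : ValuationSubring L} {k : Type*} [Field k]
  {π : ↥O →+* k} [IsDiscreteValuationRing ↥O] {hπ : Function.Surjective π}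
  {N'' q : ℕ} [NeZero N''] [NeZero q] {i : ℕ}

/-- **the norm package between two consecutive layers** (contract with P5-NORM) -/
structure T4eiNorm (lo : T4eLayer O π hπ N'' q i) (up : T4eLayer O π hπ N'' q (i + 1)) :
    Prop where
  /-- `α`, non-split points: `ord¹_w (N_α y) = f_α(w) · ord_w y` -/
  ordA : ∀ w, w + 1 ≤ i → ∀ y : (↥(TaF L (t4eLev N'' q (i + 1))))ˣ,
    t4eiOrd lo w (Additive.ofMul (Units.map (t4eiNA L (t4eLev N'' q i) q) y))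
      = (t4eFa q (i + 1) w : ℤ) * t4eiOrd up w (Additive.ofMul y)
  /-- `α`, the split point `(i, 0)` -/
  ordA_split : ∀ y : (↥(TaF L (t4eLev N'' q (i + 1))))ˣ,
    t4eiOrd lo i (Additive.ofMul (Units.map (t4eiNA L (t4eLev N'' q i) q) y))
      = t4eiOrd up i (Additive.ofMul y) + t4eiOrd up (i + 1) (Additive.ofMul y)
  /-- `β`, non-split points: `ord¹_{w-1} (N_β y) = f_β(w) · ord_w y` -/
  ordB : ∀ w, 2 ≤ w → w ≤ i + 1 → ∀ y : (↥(TaF L (t4eLev N'' q (i + 1))))ˣ,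
    t4eiOrd lo (w - 1) (Additive.ofMul (Units.map (t4eiNB L (t4eLev N'' q i) q) y))
      = (t4eFb q (i + 1) w : ℤ) * t4eiOrd up w (Additive.ofMul y)
  /-- `β`, the split point `(0, i)` -/
  ordB_split : ∀ y : (↥(TaF L (t4eLev N'' q (i + 1))))ˣ,
    t4eiOrd lo 0 (Additive.ofMul (Units.map (t4eiNB L (t4eLev N'' q i) q) y))
      = t4eiOrd up 0 (Additive.ofMul y) + t4eiOrd up 1 (Additive.ofMul y)
  /-- `α`, non-split points: `Φ^s (ρ¹_w (N_α y)) = (ρ_w y) ^ q` -/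
  resA : ∀ w, w + 1 ≤ i → ∀ (y : ↥(TaF L (t4eLev N'' q (i + 1)))) (hy : y ∈ up.V w),
    ∃ h : t4nNormA L (t4eLev N'' q i) q y ∈ lo.V w,
      qExpand k (q ^ t4eShiftA i w) (lo.ρ w ⟨_, h⟩) = up.ρ w ⟨y, hy⟩ ^ q
  /-- `α`, the split point: `ρ¹_i (N_α y) = ρ_{i+1} y · (ρ_i y) ^ (q - 1)` -/
  resA_split : ∀ (y : ↥(TaF L (t4eLev N'' q (i + 1)))) (hy : y ∈ up.V (i + 1)) (hy' : y ∈ up.V i),
    ∃ h : t4nNormA L (t4eLev N'' q i) q y ∈ lo.V i,
      lo.ρ i ⟨_, h⟩ = up.ρ (i + 1) ⟨y, hy⟩ * up.ρ i ⟨y, hy'⟩ ^ (q - 1)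
  /-- `β`, non-split points: `Φ^s (ρ¹_{w-1} (N_β y)) = (ρ_w y) ^ q` -/
  resB : ∀ w, 2 ≤ w → w ≤ i + 1 → ∀ (y : ↥(TaF L (t4eLev N'' q (i + 1)))) (hy : y ∈ up.V w),
    ∃ h : t4nNormB L (t4eLev N'' q i) q y ∈ lo.V (w - 1),
      qExpand k (q ^ t4eShiftB i w) (lo.ρ (w - 1) ⟨_, h⟩) = up.ρ w ⟨y, hy⟩ ^ q
  /-- `β`, the split point: `ρ¹_0 (N_β y) = ρ_0 y · (ρ_1 y) ^ (q - 1)` -/
  resB_split : ∀ (y : ↥(TaF L (t4eLev N'' q (i + 1)))) (hy : y ∈ up.V 0) (hy' : y ∈ up.V 1),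
    ∃ h : t4nNormB L (t4eLev N'' q i) q y ∈ lo.V 0,
      lo.ρ 0 ⟨_, h⟩ = up.ρ 0 ⟨y, hy⟩ * up.ρ 1 ⟨y, hy'⟩ ^ (q - 1)

end Layer

end Fermat.Agent.T4
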