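/-
T4E-N (helper4): **the `β`-half of the norm package `T4eiNorm lo up` from its `α`-half and the
Atkin–Lehner symmetry of the two layers.**

`T4eiNormA lo up` collects the four `α`-fields of `T4eiNorm` (orders and residues of `N_α`).  If
`Wlo`, `Wup` are Atkin–Lehner data of the two levels with `T4eSym lo Wlo`, `T4eSym up Wup` and
`w_{i+1} ∘ α = β ∘ w_i`, then `N_β (w_{i+1} y) = w_i (N_α y)` (`t4n_normB_w`), the involutions
exchange the components `w ↔ i - w` resp. `w ↔ i + 1 - w` compatibly with orders and residues,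
and the four `β`-fields follow (`t4eis_norm`).
-/
import Fermat.Agent.Lib.T4E.New.InstNorm

set_option autoImplicit false
set_option linter.unusedSectionVars false
set_option linter.unusedVariables false
set_option linter.style.haveILetI false

open HahnSeries ModularCurve Fermat.Agent.T1 Fermat.Agent.T2 Fermat.Agent.T4E

noncomputable section

namespace Fermat.Agent.T4

/-- **uniqueness of the order function** of an elementary discrete valuation ring: an additive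
function on `Fˣ` which is non-negative exactly on `V` and takes the value `1` is the order -/
theorem t4eis_ord_unique {F : Type*} [Field F] {V : Subring F} {ϖ : F} (h : T4niUnif V ϖ)
    (g : Additive Fˣ →+ ℤ) (hg : ∀ f : Fˣ, (f : F) ∈ V ↔ 0 ≤ g (Additive.ofMul f))
    (h1 : ∃ f : Fˣ, g (Additive.ofMul f) = 1) (f : Fˣ) :
    g (Additive.ofMul f) = h.ord (Additive.ofMul f) := by
  have hϖ : 1 ≤ g (Additive.ofMul h.unif) := by
    have h0 : 0 ≤ g (Additive.ofMul h.unif) := (hg h.unif).mp h.mem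
    have h2 : ¬ 0 ≤ g (Additive.ofMul h.unif⁻¹) := fun hh =>
      h.inv_notMem (by
        have := (hg h.unif⁻¹).mpr hh
        rwa [Units.val_inv_eq_inv_val] at this)
    rw [ofMul_inv, map_neg] at h2
    omega
  have hu : ∀ u : Fˣ, (u : F) ∈ V → ((u : F))⁻¹ ∈ V → g (Additive.ofMul u) = 0 := by
    intro u hu hu'
    have h0 := (hg u).mp hu
    have h2 := (hg u⁻¹).mp (by rwa [Units.val_inv_eq_inv_val])
    rw [ofMul_inv, map_neg] at h2
    omega
  have key : ∀ f : Fˣ, g (Additive.ofMul f)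
      = h.ord (Additive.ofMul f) * g (Additive.ofMul h.unif) := by
    intro f
    obtain ⟨u, hu1, hu2, e⟩ := h.ord_spec f
    have hu0 : u ≠ 0 := by
      rintro rfl
      rw [mul_zero] at e
      exact f.ne_zero e
    have hf : f = h.unif ^ h.ord (Additive.ofMul f) * Units.mk0 u hu0 := by
      apply Units.ext
      rw [Units.val_mul, Units.val_zpow_eq_zpow_val, Units.val_mk0]
      exact e
    conv_lhs => rw [hf]
    rw [ofMul_mul, map_add, ofMul_zpow, map_zsmul, hu (Units.mk0 u hu0) hu1 hu2, add_zero,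
      smul_eq_mul]
  obtain ⟨f1, hf1⟩ := h1
  have h3 : g (Additive.ofMul h.unif) = 1 := by
    have h4 := key f1
    rw [hf1] at h4
    exact Int.eq_one_of_mul_eq_one_left (by omega) h4.symm
  rw [key f, h3, mul_one]

section Layer

variable {L : Type} [Field L] [Algebra ℚ L] {O : ValuationSubring L} {k : Type*} [Field k]
  {π : ↥O →+* k} [IsDiscreteValuationRing ↥O] {hπ : Function.Surjective π}
  {N'' q : ℕ} [NeZero N''] [NeZero q] {i : ℕ}

/-- **the `α`-half of the norm package** (the four `α`-fields of `T4eiNorm`) -/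
structure T4eiNormA (lo : T4eLayer O π hπ N'' q i) (up : T4eLayer O π hπ N'' q (i + 1)) :
    Prop where
  /-- `α`, non-split points: `ord¹_w (N_α y) = f_α(w) · ord_w y` -/
  ordA : ∀ w, w + 1 ≤ i → ∀ y : (↥(TaF L (t4eLev N'' q (i + 1))))ˣ,
    t4eiOrd lo w (Additive.ofMul (Units.map (t4eiNA L (t4eLev N'' q i) q) y))
      = (t4eFa q (i + 1) w : ℤ) * t4eiOrd up w (Additive.ofMul y)
  /-- `α`, the split point `(i, 0)` -/
  ordA_split : ∀ y : (↥(TaF L (t4eLev N'' q (i + 1))))ˣ,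
    t4eiOrd lo i (Additive.ofMul (Units.map (t4eiNA L (t4eLev N'' q i) q) y))
      = t4eiOrd up i (Additive.ofMul y) + t4eiOrd up (i + 1) (Additive.ofMul y)
  /-- `α`, non-split points: `Φ^s (ρ¹_w (N_α y)) = (ρ_w y) ^ q` -/
  resA : ∀ w, w + 1 ≤ i → ∀ (y : ↥(TaF L (t4eLev N'' q (i + 1)))) (hy : y ∈ up.V w),
    ∃ h : t4nNormA L (t4eLev N'' q i) q y ∈ lo.V w,
      qExpand k (q ^ t4eShiftA i w) (lo.ρ w ⟨_, h⟩) = up.ρ w ⟨y, hy⟩ ^ q
  /-- `α`, the split point: `ρ¹_i (N_α y) = ρ_{i+1} y · (ρ_i y) ^ (q - 1)` -/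
  resA_split : ∀ (y : ↥(TaF L (t4eLev N'' q (i + 1)))) (hy : y ∈ up.V (i + 1)) (hy' : y ∈ up.V i),
    ∃ h : t4nNormA L (t4eLev N'' q i) q y ∈ lo.V i,
      lo.ρ i ⟨_, h⟩ = up.ρ (i + 1) ⟨y, hy⟩ * up.ρ i ⟨y, hy'⟩ ^ (q - 1)

theorem T4eiNorm.toA {lo : T4eLayer O π hπ N'' q i} {up : T4eLayer O π hπ N'' q (i + 1)}
    (h : T4eiNorm lo up) : T4eiNormA lo up :=
  ⟨h.ordA, h.ordA_split, h.resA, h.resA_split⟩

/-! ### Transport along the involution of a symmetric layer -/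

section Sym

variable {Y : T4eLayer O π hπ N'' q i} {W : T4eAL L N'' q i} (hs : T4eSym Y W)

include hs

/-- membership: `W x ∈ V w ↔ x ∈ V w'` for `w + w' = i` -/
theorem t4eis_mem_iff {w w' : ℕ} (hww : w + w' = i) (x : ↥(TaF L (t4eLev N'' q i))) :
    W.w x ∈ Y.V w ↔ x ∈ Y.V w' := by
  obtain rfl : w' = i - w := by omega
  rw [← hs.comap_w w (by omega)]
  rfl

/-- residues: `ρ_w (W x) = ρ_{w'} x` for `w + w' = i` -/
theorem t4eis_rho {w w' : ℕ} (hww : w + w' = i) (x : ↥(TaF L (t4eLev N'' q i)))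
    (hx : x ∈ Y.V w') (hx' : W.w x ∈ Y.V w) : Y.ρ w ⟨_, hx'⟩ = Y.ρ w' ⟨x, hx⟩ := by
  obtain rfl : w' = i - w := by omega
  exact hs.ρ_w w (by omega) x hx hx'

/-- orders: `ord_w (W y) = ord_{w'} y` for `w + w' = i` -/
theorem t4eis_ord {w w' : ℕ} (hww : w + w' = i) (y : (↥(TaF L (t4eLev N'' q i)))ˣ) :
    t4eiOrd Y w (Additive.ofMul (Units.map (W.w : ↥(TaF L (t4eLev N'' q i)) →* _) y))
      = t4eiOrd Y w' (Additive.ofMul y) := by
  have hw : w ≤ i := by omega
  have hw' : w' ≤ i := by omega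
  set g : Additive (↥(TaF L (t4eLev N'' q i)))ˣ →+ ℤ :=
    (t4eiOrd Y w).comp (MonoidHom.toAdditive
      (Units.map (W.w : ↥(TaF L (t4eLev N'' q i)) →* ↥(TaF L (t4eLev N'' q i))))) with hg
  have hgy : ∀ y : (↥(TaF L (t4eLev N'' q i)))ˣ, g (Additive.ofMul y)
      = t4eiOrd Y w (Additive.ofMul (Units.map (W.w : ↥(TaF L (t4eLev N'' q i)) →* _) y)) :=
    fun y => rfl
  rw [← hgy, t4eiOrd_eq Y hw']
  apply t4eis_ord_unique (t4ei_unif Y hw') g
  · intro f
    rw [hgy, t4eiOrd_nonneg_iff Y hw]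
    exact (t4eis_mem_iff hs hww (f : ↥(TaF L (t4eLev N'' q i)))).symm
  · have h0 : W.w (Y.ϖ w) ≠ 0 := by
      rw [ne_eq, map_eq_zero_iff _ W.w.injective]
      exact Y.ϖ_ne_zero hw
    refine ⟨Units.mk0 (W.w (Y.ϖ w)) h0, ?_⟩
    rw [hgy]
    have e : Units.map (W.w : ↥(TaF L (t4eLev N'' q i)) →* ↥(TaF L (t4eLev N'' q i)))
        (Units.mk0 (W.w (Y.ϖ w)) h0) = (t4ei_unif Y hw).unif := by
      apply Units.ext
      show W.w (W.w (Y.ϖ w)) = Y.ϖ w
      exact W.w_w _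
    rw [e, t4eiOrd_eq Y hw]
    exact (t4ei_unif Y hw).ord_unif

end Sym

/-! ### The `β`-half -/

section Main

variable {lo : T4eLayer O π hπ N'' q i} {up : T4eLayer O π hπ N'' q (i + 1)}
  (hA : T4eiNormA lo up) {Wlo : T4eAL L N'' q i} {Wup : T4eAL L N'' q (i + 1)}
  (hslo : T4eSym lo Wlo) (hsup : T4eSym up Wup)
  (hW : ∀ x : ↥(TaF L (t4eLev N'' q i)),
    Wup.w (heckeAlphaBar L (t4eLev N'' q i) q x) = heckeBetaBar L (t4eLev N'' q i) q (Wlo.w x))

include hW in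
/-- `N_β (w y) = w¹ (N_α y)` -/
theorem t4eis_normB_w (y : ↥(TaF L (t4eLev N'' q (i + 1)))) :
    t4nNormB L (t4eLev N'' q i) q (Wup.w y) = Wlo.w (t4nNormA L (t4eLev N'' q i) q y) :=
  t4n_normB_w L (t4eLev N'' q i) q Wup.w.toRingEquiv Wlo.w.toRingEquiv hW y

include hW in
/-- `N_β y = w¹ (N_α (w y))` -/
theorem t4eis_normB (y : ↥(TaF L (t4eLev N'' q (i + 1)))) :
    t4nNormB L (t4eLev N'' q i) q y = Wlo.w (t4nNormA L (t4eLev N'' q i) q (Wup.w y)) := by
  rw [← t4eis_normB_w hW, Wup.w_w]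

include hW in
theorem t4eis_unitsB (y : (↥(TaF L (t4eLev N'' q (i + 1))))ˣ) :
    Units.map (t4eiNB L (t4eLev N'' q i) q) y
      = Units.map (Wlo.w : ↥(TaF L (t4eLev N'' q i)) →* ↥(TaF L (t4eLev N'' q i)))
          (Units.map (t4eiNA L (t4eLev N'' q i) q)
            (Units.map (Wup.w : ↥(TaF L (t4eLev N'' q (i + 1))) →* ↥(TaF L (t4eLev N'' q (i + 1))))
              y)) := by
  apply Units.ext
  exact t4eis_normB hW (y : ↥(TaF L (t4eLev N'' q (i + 1))))

theorem t4eis_units_ww (Wup : T4eAL L N'' q (i + 1)) (y : (↥(TaF L (t4eLev N'' q (i + 1))))ˣ) :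
    Units.map (Wup.w : ↥(TaF L (t4eLev N'' q (i + 1))) →* ↥(TaF L (t4eLev N'' q (i + 1))))
      (Units.map (Wup.w : ↥(TaF L (t4eLev N'' q (i + 1))) →* ↥(TaF L (t4eLev N'' q (i + 1)))) y)
      = y := by
  apply Units.ext
  exact Wup.w_w _

theorem t4eis_fa_fb (q i w : ℕ) (hw : w ≤ i + 1) :
    t4eFa q (i + 1) (i + 1 - w) = t4eFb q (i + 1) w := by
  unfold t4eFa t4eFb
  by_cases h : i + 1 + 1 ≤ 2 * w
  · rw [if_pos h, if_pos (by omega)]
  · rw [if_neg h, if_neg (by omega)]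

theorem t4eis_shift (i w : ℕ) (hw : w ≤ i + 1) :
    t4eShiftA i (i + 1 - w) = t4eShiftB i w := by
  unfold t4eShiftA t4eShiftB
  by_cases h : i + 1 - w < w
  · rw [if_pos h, if_pos (by omega)]
  · rw [if_neg h, if_neg (by omega)]

include hA hslo hsup hW in
/-- **the full norm package from its `α`-half and the Atkin–Lehner symmetry** -/
theorem t4eis_norm : T4eiNorm lo up where
  ordA := hA.ordA
  ordA_split := hA.ordA_split
  resA := hA.resA
  resA_split := hA.resA_split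
  ordB := by
    intro w hw2 hwi y
    rw [t4eis_unitsB hW y, t4eis_ord hslo (w := w - 1) (w' := i + 1 - w) (by omega),
      hA.ordA (i + 1 - w) (by omega), t4eis_fa_fb q i w hwi,
      ← t4eis_ord hsup (w := w) (w' := i + 1 - w) (by omega), t4eis_units_ww]
  ordB_split := by
    intro y
    rw [t4eis_unitsB hW y, t4eis_ord hslo (w := 0) (w' := i) (by omega), hA.ordA_split,
      ← t4eis_ord hsup (w := 1) (w' := i) (by omega),
      ← t4eis_ord hsup (w := 0) (w' := i + 1) (by omega), t4eis_units_ww, add_comm]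
  resB := by
    intro w hw2 hwi y hy
    have hy' : Wup.w y ∈ up.V (i + 1 - w) := by
      rw [← t4eis_mem_iff hsup (w := w) (w' := i + 1 - w) (by omega), Wup.w_w]
      exact hy
    obtain ⟨h1, e1⟩ := hA.resA (i + 1 - w) (by omega) (Wup.w y) hy'
    have h2 : Wlo.w (t4nNormA L (t4eLev N'' q i) q (Wup.w y)) ∈ lo.V (w - 1) :=
      (t4eis_mem_iff hslo (w := w - 1) (w' := i + 1 - w) (by omega) _).mpr h1
    have h3 : t4nNormB L (t4eLev N'' q i) q y ∈ lo.V (w - 1) := by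
      rw [t4eis_normB hW y]
      exact h2
    refine ⟨h3, ?_⟩
    have e2 : lo.ρ (w - 1) ⟨_, h3⟩ = lo.ρ (i + 1 - w) ⟨_, h1⟩ := by
      rw [← t4eis_rho hslo (w := w - 1) (w' := i + 1 - w) (by omega) _ h1 h2]
      congr 1
      exact Subtype.ext (t4eis_normB hW y)
    have hyy : Wup.w (Wup.w y) ∈ up.V w := by
      rw [Wup.w_w]
      exact hy
    have e3 : up.ρ w ⟨y, hy⟩ = up.ρ (i + 1 - w) ⟨Wup.w y, hy'⟩ := by
      rw [← t4eis_rho hsup (w := w) (w' := i + 1 - w) (by omega) _ hy' hyy]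
      congr 1
      exact Subtype.ext (Wup.w_w y).symm
    rw [e2, e3, ← t4eis_shift i w hwi]
    exact e1
  resB_split := by
    intro y hy hy'
    have hy1 : Wup.w y ∈ up.V (i + 1) := by
      rw [← t4eis_mem_iff hsup (w := 0) (w' := i + 1) (by omega), Wup.w_w]
      exact hy
    have hy2 : Wup.w y ∈ up.V i := by
      rw [← t4eis_mem_iff hsup (w := 1) (w' := i) (by omega), Wup.w_w]
      exact hy'
    obtain ⟨h1, e1⟩ := hA.resA_split (Wup.w y) hy1 hy2
    have h2 : Wlo.w (t4nNormA L (t4eLev N'' q i) q (Wup.w y)) ∈ lo.V 0 :=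
      (t4eis_mem_iff hslo (w := 0) (w' := i) (by omega) _).mpr h1
    have h3 : t4nNormB L (t4eLev N'' q i) q y ∈ lo.V 0 := by
      rw [t4eis_normB hW y]
      exact h2
    refine ⟨h3, ?_⟩
    have e2 : lo.ρ 0 ⟨_, h3⟩ = lo.ρ i ⟨_, h1⟩ := by
      rw [← t4eis_rho hslo (w := 0) (w' := i) (by omega) _ h1 h2]
      congr 1
      exact Subtype.ext (t4eis_normB hW y)
    have hyy : Wup.w (Wup.w y) ∈ up.V 0 := by
      rw [Wup.w_w]
      exact hy
    have hyy' : Wup.w (Wup.w y) ∈ up.V 1 := by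
      rw [Wup.w_w]
      exact hy'
    have e3 : up.ρ 0 ⟨y, hy⟩ = up.ρ (i + 1) ⟨Wup.w y, hy1⟩ := by
      rw [← t4eis_rho hsup (w := 0) (w' := i + 1) (by omega) _ hy1 hyy]
      congr 1
      exact Subtype.ext (Wup.w_w y).symm
    have e4 : up.ρ 1 ⟨y, hy'⟩ = up.ρ i ⟨Wup.w y, hy2⟩ := by
      rw [← t4eis_rho hsup (w := 1) (w' := i) (by omega) _ hy2 hyy']
      congr 1
      exact Subtype.ext (Wup.w_w y).symm
    rw [e2, e3, e4]
    exact e1

end Main

end Layer

end Fermat.Agent.T4
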