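/-
T4E-N (helper4): **the geometric hypothesis `hgeo` of `t4e_newAux_of_layers` from the tower at the
inertia level** (lead's `Tower/FixData.lean`: `t4efLayer`, `t4ef_link`).  What remains after this file
are exactly two statements about two consecutive layers `lo = t4efLayer … (k+1)`,
`up = t4efLayer … (k+1+1)`:

* `T4eiNorm lo up` (helper7's P5: orders and residues of the two norms of the layer), and
* `T4eiStepCFix 𝔓 N'' k lo up m` for `m` prime to `p` (helper5's P8: the step-C export).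
-/
import Fermat.Agent.Lib.T4E.New.InstFinal
import Fermat.Agent.Lib.T4E.Tower.FixData
import Fermat.Agent.Lib.T4E.New.NormSym

set_option autoImplicit false
set_option linter.unusedSectionVars false
set_option linter.unusedVariables false
set_option linter.style.haveILetI false
set_option synthInstance.maxHeartbeats 400000

namespace Fermat.Agent.T4

open Fermat.Agent.S24Lib Fermat.Agent.T1 Fermat.Agent.T1.KMod Fermat.Agent.T2
open ModularCurve HahnSeries Fermat.Agent.TW Fermat.Agent.S05Lib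

local notation "Qb" => AlgebraicClosure ℚ

noncomputable section

section Fix

attribute [local instance] t2i_dvr t2i_isAlgClosed t2i_charP t2i_fact

/-- the lower layer of the `k`-th step -/
abbrev t4egLo (𝔓 : FFPlace) (N'' : ℕ) [NeZero N''] (h : ¬ 𝔓.p ∣ N'') (k : ℕ) :=
  t4efLayer 𝔓 N'' h (k + 1) (by omega)

/-- the upper layer of the `k`-th step -/
abbrev t4egUp (𝔓 : FFPlace) (N'' : ℕ) [NeZero N''] (h : ¬ 𝔓.p ∣ N'') (k : ℕ) :=
  t4efLayer 𝔓 N'' h (k + 1 + 1) (by omega)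

/-- **`T4eNewAux t4eWU` from the two remaining statements about the layers of lead's tower at the
inertia level.** -/
theorem t4e_newAux_of_fixData
    (hnorm : ∀ (𝔓 : FFPlace) (N'' k : ℕ) [NeZero N''] (h : ¬ 𝔓.p ∣ N''), 1 ≤ k →
      T4eiNorm (t4egLo 𝔓 N'' h k) (t4egUp 𝔓 N'' h k))
    (hstep : ∀ (𝔓 : FFPlace) (N'' k : ℕ) [NeZero N''] (h : ¬ 𝔓.p ∣ N''), 1 ≤ k →
      (4 ∣ N'' ∨ 9 ∣ N'') → ∀ m : ℕ, m.Coprime 𝔓.p → m ≠ 0 →
        T4eiStepCFix 𝔓 N'' k (t4egLo 𝔓 N'' h k) (t4egUp 𝔓 N'' h k) m) :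
    T4eNewAux t4eWU :=
  t4e_newAux_of_layers fun 𝔓 N'' k _ h hk h49 =>
    ⟨t4egLo 𝔓 N'' h k, t4egUp 𝔓 N'' h k, t4ef_link 𝔓 N'' h (k + 1) (by omega),
      hnorm 𝔓 N'' k h hk, hstep 𝔓 N'' k h hk h49⟩

/-- **the full norm package of two consecutive layers of the tower at the inertia level from its
`α`-half** (Atkin–Lehner symmetry `t4ef_sym`, intertwining `t4eaW_alpha`) -/
theorem t4eg_norm_of_normA (𝔓 : FFPlace) (N'' : ℕ) [NeZero N''] (h : ¬ 𝔓.p ∣ N'') (i : ℕ)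
    (hi : 1 ≤ i)
    (hA : T4eiNormA (t4efLayer 𝔓 N'' h i hi) (t4efLayer 𝔓 N'' h (i + 1) (by omega))) :
    T4eiNorm (t4efLayer 𝔓 N'' h i hi) (t4efLayer 𝔓 N'' h (i + 1) (by omega)) :=
  t4eis_norm hA (t4ef_sym 𝔓 N'' h i hi) (t4ef_sym 𝔓 N'' h (i + 1) (by omega))
    (fun x => t4eaW_alpha 𝔓 (⊤ : Subgroup 𝔓.I) N'' h i x)

/-- **`T4eNewAux t4eWU` from the `α`-half of the norm package and the step-C contract.** -/
theorem t4e_newAux_of_fixDataA
    (hnormA : ∀ (𝔓 : FFPlace) (N'' k : ℕ) [NeZero N''] (h : ¬ 𝔓.p ∣ N''), 1 ≤ k →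
      T4eiNormA (t4egLo 𝔓 N'' h k) (t4egUp 𝔓 N'' h k))
    (hstep : ∀ (𝔓 : FFPlace) (N'' k : ℕ) [NeZero N''] (h : ¬ 𝔓.p ∣ N''), 1 ≤ k →
      (4 ∣ N'' ∨ 9 ∣ N'') → ∀ m : ℕ, m.Coprime 𝔓.p → m ≠ 0 →
        T4eiStepCFix 𝔓 N'' k (t4egLo 𝔓 N'' h k) (t4egUp 𝔓 N'' h k) m) :
    T4eNewAux t4eWU :=
  t4e_newAux_of_fixData
    (fun 𝔓 N'' k _ h hk => t4eg_norm_of_normA 𝔓 N'' h (k + 1) (by omega) (hnormA 𝔓 N'' k h hk))
    hstep

end Fix

end

end Fermat.Agent.T4
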