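/-
T4E-N (helper4), **step C at the inertia level, the shell**: the contract `T4eiStepCFix` (P8) from
the two charts.  For ANY two presentations `P₁`, `P₂` of `F_{k+2}` with the dictionaries

  `P₁.B = IntCl(L[X]) ∩ 𝒪`,  `P₂.B = IntCl(L[X⁻¹]) ∩ 𝒪`,  `P₁.ov p = P₂.ov p = 𝒪`

(`X = t4ecX L N'' p (k+2) Q`, `𝒪 = up.Ov`), if every Kummer function `z` satisfying the hypotheses of
the contract admits a correcting element `hh` (`hh ≠ 0`, `hh ^ m ≡ 1 (mod p 𝒪)`) and constants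
`A₁ B₁ A₂ B₂` such that both charts satisfy helper5's `T4eCChart` (labelled verticals `up.V w`,
`w ≤ k + 2`, `qq = p`), then `T4eiStepCFix 𝔓 N'' k lo up m` holds.

This is `t4ei_export` over helper3's base `t4ecrBaseFix 𝔓 N'' h up` with the setup
`t4ecr_exists_setup_fix` (Riemann–Roch numbers), `t4ecr_gen_bar`, `t4ecr_res_q`, `t4ecr_res_eq_one'`.
-/
import Fermat.Agent.Lib.T4E.New.ExportE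
import Fermat.Agent.Lib.T4E.New.InstFix
import Fermat.Agent.Lib.T4E.Chart.RR

set_option autoImplicit false
set_option linter.unusedSectionVars false
set_option linter.unusedVariables false
set_option linter.style.haveILetI false
set_option synthInstance.maxHeartbeats 400000

open HahnSeries ModularCurve Module AlgebraicCurve IntermediateField Fermat.Agent.Curve
  Fermat.Agent.T1 Fermat.Agent.T2 Fermat.Agent.TW Fermat.Agent.S05Lib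

noncomputable section

namespace Fermat.Agent.T4

local notation "Qb" => AlgebraicClosure ℚ

attribute [local instance] t2i_dvr t2i_isAlgClosed t2i_charP t2i_fact

variable (𝔓 : FFPlace) (N'' : ℕ) [NeZero N''] (h : ¬ 𝔓.p ∣ N'') (k : ℕ)
  (lo : T4eLayer (tbFixO 𝔓 ⊤) (tbFixRes 𝔓 ⊤) (tbFixRes_surjective 𝔓 ⊤) N'' 𝔓.p (k + 1))
  (up : T4eLayer (tbFixO 𝔓 ⊤) (tbFixRes 𝔓 ⊤) (tbFixRes_surjective 𝔓 ⊤) N'' 𝔓.p (k + 1 + 1))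
  {Q : ℕ} (hQ : 2 ≤ Q)

include h hQ in
/-- **the step-C contract at the inertia level from the two charts** -/
theorem t4eix_stepC_of_charts (hk : 1 ≤ k) (m : ℕ) (hm : Nat.Coprime m 𝔓.p) (hm0 : m ≠ 0)
    (P₁ P₂ : T4Pres ↥(tbLevF 𝔓 (t4eLev N'' 𝔓.p (k + 1 + 1)) ⊤))
    (hB₁ : ∀ f : ↥(tbLevF 𝔓 (t4eLev N'' 𝔓.p (k + 1 + 1)) ⊤), f ∈ P₁.B ↔
      f ∈ t2Int (K := ↥(tbFix 𝔓 (⊤ : Subgroup 𝔓.I)))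
        (t4ecX ↥(tbFix 𝔓 (⊤ : Subgroup 𝔓.I)) N'' 𝔓.p (k + 1 + 1) Q) ∧ f ∈ up.Ov)
    (hB₂ : ∀ f : ↥(tbLevF 𝔓 (t4eLev N'' 𝔓.p (k + 1 + 1)) ⊤), f ∈ P₂.B ↔
      f ∈ t2Int (K := ↥(tbFix 𝔓 (⊤ : Subgroup 𝔓.I)))
        (t4ecX ↥(tbFix 𝔓 (⊤ : Subgroup 𝔓.I)) N'' 𝔓.p (k + 1 + 1) Q)⁻¹ ∧ f ∈ up.Ov)
    (hOv₁ : ∀ f : ↥(tbLevF 𝔓 (t4eLev N'' 𝔓.p (k + 1 + 1)) ⊤),
      f ∈ P₁.ov ((𝔓.p : ℕ) : ↥(tbLevF 𝔓 (t4eLev N'' 𝔓.p (k + 1 + 1)) ⊤)) ↔ f ∈ up.Ov)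
    (hOv₂ : ∀ f : ↥(tbLevF 𝔓 (t4eLev N'' 𝔓.p (k + 1 + 1)) ⊤),
      f ∈ P₂.ov ((𝔓.p : ℕ) : ↥(tbLevF 𝔓 (t4eLev N'' 𝔓.p (k + 1 + 1)) ⊤)) ↔ f ∈ up.Ov)
    (hcharts : ∀ z : ↥(tbLevF 𝔓 (t4eLev N'' 𝔓.p (k + 1 + 1)) ⊤), z ≠ 0 → z ∈ up.Ov →
      z⁻¹ ∈ up.Ov →
      (∃ o ∈ up.Ov, z - 1 = ((𝔓.p : ℕ) : ↥(tbLevF 𝔓 (t4eLev N'' 𝔓.p (k + 1 + 1)) ⊤)) * o) →
      (∀ P : Place ↥(tbFix 𝔓 (⊤ : Subgroup 𝔓.I)) ↥(tbLevF 𝔓 (t4eLev N'' 𝔓.p (k + 1 + 1)) ⊤),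
        (m : ℤ) ∣ P.ord z) →
      (∀ P : Place Qb ↥(modularFunctionFieldBar (t4eLev N'' 𝔓.p (k + 1 + 1))),
        (m : ℤ) ∣ P.ord (tbPhiF 𝔓 (t4eLev N'' 𝔓.p (k + 1 + 1)) ⊤ z)) →
      T4eiConstA lo m z → T4eiConstB lo m z →
      ∃ (hh : ↥(tbLevF 𝔓 (t4eLev N'' 𝔓.p (k + 1 + 1)) ⊤))
        (A₁ B₁ : ℕ → (↥P₁.B)ˣ) (A₂ B₂ : ℕ → (↥P₂.B)ˣ), hh ≠ 0 ∧
        (∃ o ∈ up.Ov,
          hh ^ m - 1 = ((𝔓.p : ℕ) : ↥(tbLevF 𝔓 (t4eLev N'' 𝔓.p (k + 1 + 1)) ⊤)) * o) ∧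
        T4eCChart P₁ ((𝔓.p : ℕ) : ↥(tbLevF 𝔓 (t4eLev N'' 𝔓.p (k + 1 + 1)) ⊤)) m z 𝔓.p (k + 1 + 1)
          up.V A₁ B₁ hh ∧
        T4eCChart P₂ ((𝔓.p : ℕ) : ↥(tbLevF 𝔓 (t4eLev N'' 𝔓.p (k + 1 + 1)) ⊤)) m z 𝔓.p (k + 1 + 1)
          up.V A₂ B₂ hh) :
    T4eiStepCFix 𝔓 N'' k lo up m := by
  intro z hz0 hzO hzinv hz1 hK hKb hCA hCB
  obtain ⟨hh, A₁, B₁, A₂, B₂, hh0, hhm, C₁, C₂⟩ := hcharts z hz0 hzO hzinv hz1 hK hKb hCA hCB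
  obtain ⟨su, hsm, hsx, -, hsn, hsc, -⟩ := t4ecr_exists_setup_fix 𝔓 N'' h up hQ m hm
  subst hsm
  have hq0 : ((𝔓.p : ℕ) : ↥(tbLevF 𝔓 (t4eLev N'' 𝔓.p (k + 1 + 1)) ⊤)) ≠ 0 :=
    t4ei_natCast_ne_zero (L := ↥(tbFix 𝔓 (⊤ : Subgroup 𝔓.I))) (N'' := N'') (q := 𝔓.p) (k + 1 + 1)
  have hqres : ∃ hq : ((𝔓.p : ℕ) : ↥(tbLevF 𝔓 (t4eLev N'' 𝔓.p (k + 1 + 1)) ⊤)) ∈
      (t4ecrBaseFix 𝔓 N'' h up).Ov, (t4ecrBaseFix 𝔓 N'' h up).res ⟨_, hq⟩ = 0 := by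
    have h1 := t4ecr_res_q up (t4cy_irreducible_p 𝔓) (t2i_natCast_ne_zero 𝔓 h)
    rw [map_natCast] at h1
    exact h1
  have hX : IsFunctionFieldGen Qb ↥(modularFunctionFieldBar (t4eLev N'' 𝔓.p (k + 1 + 1)))
      (tbPhiF 𝔓 (t4eLev N'' 𝔓.p (k + 1 + 1)) ⊤ su.x) := by
    rw [hsx]
    exact t4ecr_gen_bar 𝔓 N'' hQ
  have hB₁' : ∀ f : ↥(tbLevF 𝔓 (t4eLev N'' 𝔓.p (k + 1 + 1)) ⊤), f ∈ P₁.B ↔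
      f ∈ t2Int (K := ↥(tbFix 𝔓 (⊤ : Subgroup 𝔓.I))) su.x ∧ f ∈ (t4ecrBaseFix 𝔓 N'' h up).Ov := by
    intro f
    rw [hsx]
    exact hB₁ f
  have hB₂' : ∀ f : ↥(tbLevF 𝔓 (t4eLev N'' 𝔓.p (k + 1 + 1)) ⊤), f ∈ P₂.B ↔
      f ∈ t2Int (K := ↥(tbFix 𝔓 (⊤ : Subgroup 𝔓.I))) su.x⁻¹ ∧
        f ∈ (t4ecrBaseFix 𝔓 N'' h up).Ov := by
    intro f
    rw [hsx]
    exact hB₂ f
  exact t4ei_export 𝔓 (t4eLev N'' 𝔓.p (k + 1 + 1)) (t4ecrBaseFix 𝔓 N'' h up) hq0 hqres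
    (fun f hf h1 => t4ecr_res_eq_one' up (t4cy_irreducible_p 𝔓) (t2i_natCast_ne_zero 𝔓 h) hf h1)
    su hX hsn hsc hm0 hz0 hzO hz1 hKb P₁ P₂ hB₁' hB₂' hOv₁ hOv₂ hh0 hhm
    (show 3 ≤ k + 1 + 1 by omega) 𝔓.hp.pos
    (fun i j hi hj hij => up.inj i hi j hj hij) C₁ C₂

end Fermat.Agent.T4
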