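/-
T4E-N (helper4), **step C at the inertia level with the concrete charts**: chart 1 is helper6's tower
`t4erfPm 𝔓 N'' h hQ` (`Reg/PmFix.lean`), chart 2 is `t4eixP2 𝔓 N'' h hQ i hi` (helper2's `t4ecPres`
for `y = X_i⁻¹`, defined here with its dictionaries `t4eixP2_vals`, `t4eixP2_mem_B`, `t4eixP2_mem_ov`,
`t4eixP2_vert`); `t4eixP1_mem_ov`, `t4eixP1_vert` are the missing dictionaries of chart 1.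

`t4eix_stepC_fix`: the contract `T4eiStepCFix 𝔓 N'' k (t4egLo 𝔓 N'' h k) (t4egUp 𝔓 N'' h k) m` (the
hypothesis `hstep` of `t4e_newAux_of_fixDataA`) from: for every admissible Kummer function `z`, a
correcting element `hh` and constants such that both concrete charts satisfy `T4eCChart`.
-/
import Fermat.Agent.Lib.T4E.New.StepCShell
import Fermat.Agent.Lib.T4E.New.Geo
import Fermat.Agent.Lib.T4E.Reg.PmFix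

set_option autoImplicit false
set_option linter.unusedSectionVars false
set_option linter.unusedVariables false
set_option linter.style.haveILetI false
set_option synthInstance.maxHeartbeats 400000

open HahnSeries ModularCurve Module AlgebraicCurve IntermediateField Fermat.Agent.Curve
  Fermat.Agent.T1 Fermat.Agent.T2 Fermat.Agent.TW Fermat.Agent.S05Lib

noncomputable section

namespace Fermat.Agent.T4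

local notation "Qb" => AlgebraicClosure ℚ

attribute [local instance] t2i_dvr t2i_isAlgClosed t2i_charP t2i_fact

variable (𝔓 : FFPlace) (N'' : ℕ) [NeZero N''] (h : ¬ 𝔓.p ∣ N'') {Q : ℕ} (hQ : 2 ≤ Q)

/-- **the chart-2 presentation** (`y = X_i⁻¹`) of the layer of level `i ≥ 1` at the inertia level -/
def t4eixP2 (i : ℕ) (hi : 1 ≤ i) :
    T4Pres ↥(TaF ↥(tbFix 𝔓 (⊤ : Subgroup 𝔓.I)) (t4eLev N'' 𝔓.p i)) :=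
  t4ecPres (t4cy_irreducible_p 𝔓) (t4ecrHyp_X_inv_fix 𝔓 N'' (t4efLayer 𝔓 N'' h i hi) hQ)
    (t4ecc_crt (t4efLayer 𝔓 N'' h i hi))

theorem t4eixP2_vals (i : ℕ) (hi : 1 ≤ i) : (t4eixP2 𝔓 N'' h hQ i hi).vals =
    t4vpHor ↥(tbFix 𝔓 (⊤ : Subgroup 𝔓.I))
      (t4ecX ↥(tbFix 𝔓 (⊤ : Subgroup 𝔓.I)) N'' 𝔓.p i Q)⁻¹ ∪ (t4efLayer 𝔓 N'' h i hi).ver := rfl

theorem t4eixP2_mem_B (i : ℕ) (hi : 1 ≤ i)
    (f : ↥(TaF ↥(tbFix 𝔓 (⊤ : Subgroup 𝔓.I)) (t4eLev N'' 𝔓.p i))) :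
    f ∈ (t4eixP2 𝔓 N'' h hQ i hi).B ↔
      f ∈ t2Int (K := ↥(tbFix 𝔓 (⊤ : Subgroup 𝔓.I)))
        (t4ecX ↥(tbFix 𝔓 (⊤ : Subgroup 𝔓.I)) N'' 𝔓.p i Q)⁻¹ ∧
      f ∈ (t4efLayer 𝔓 N'' h i hi).Ov :=
  mem_t4ecPres_B (t4cy_irreducible_p 𝔓) _ _ f

theorem t4eixP2_vert (i : ℕ) (hi : 1 ≤ i) :
    (t4eixP2 𝔓 N'' h hQ i hi).vert
      ((𝔓.p : ℕ) : ↥(TaF ↥(tbFix 𝔓 (⊤ : Subgroup 𝔓.I)) (t4eLev N'' 𝔓.p i)))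
      = (t4efLayer 𝔓 N'' h i hi).ver := by
  have h1 := t4ecPres_vert (t4cy_irreducible_p 𝔓)
    (t4ecrHyp_X_inv_fix 𝔓 N'' (t4efLayer 𝔓 N'' h i hi) hQ) (t4ecc_crt (t4efLayer 𝔓 N'' h i hi))
  rw [map_natCast] at h1
  exact h1

theorem t4eixP2_mem_ov (i : ℕ) (hi : 1 ≤ i)
    (f : ↥(TaF ↥(tbFix 𝔓 (⊤ : Subgroup 𝔓.I)) (t4eLev N'' 𝔓.p i))) :
    f ∈ (t4eixP2 𝔓 N'' h hQ i hi).ov
      ((𝔓.p : ℕ) : ↥(TaF ↥(tbFix 𝔓 (⊤ : Subgroup 𝔓.I)) (t4eLev N'' 𝔓.p i))) ↔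
      f ∈ (t4efLayer 𝔓 N'' h i hi).Ov := by
  have h1 := mem_t4ecPres_ov (t4cy_irreducible_p 𝔓)
    (t4ecrHyp_X_inv_fix 𝔓 N'' (t4efLayer 𝔓 N'' h i hi) hQ) (t4ecc_crt (t4efLayer 𝔓 N'' h i hi)) f
  rw [map_natCast] at h1
  exact h1

/-- `ov p = 𝒪` on chart 1 (levels `≥ 2`, where `t4erfPm` is a `t4ecPres`) -/
theorem t4eixP1_mem_ov (j : ℕ)
    (f : ↥(TaF ↥(tbFix 𝔓 (⊤ : Subgroup 𝔓.I)) (t4eLev N'' 𝔓.p (j + 2)))) :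
    f ∈ (t4erfPm 𝔓 N'' h hQ (j + 2)).ov
      ((𝔓.p : ℕ) : ↥(TaF ↥(tbFix 𝔓 (⊤ : Subgroup 𝔓.I)) (t4eLev N'' 𝔓.p (j + 2)))) ↔
      f ∈ (t4efLayer 𝔓 N'' h (j + 2) (by omega)).Ov := by
  have h1 := mem_t4ecPres_ov (t4cy_irreducible_p 𝔓)
    (t4ecrHyp_X_fix 𝔓 N'' (t4efLayer 𝔓 N'' h (j + 2) (by omega)) hQ)
    (t4ecc_crt (t4efLayer 𝔓 N'' h (j + 2) (by omega))) f
  rw [map_natCast] at h1
  exact h1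

theorem t4eixP1_vert (j : ℕ) :
    (t4erfPm 𝔓 N'' h hQ (j + 2)).vert
      ((𝔓.p : ℕ) : ↥(TaF ↥(tbFix 𝔓 (⊤ : Subgroup 𝔓.I)) (t4eLev N'' 𝔓.p (j + 2))))
      = (t4efLayer 𝔓 N'' h (j + 2) (by omega)).ver := by
  have h1 := t4ecPres_vert (t4cy_irreducible_p 𝔓)
    (t4ecrHyp_X_fix 𝔓 N'' (t4efLayer 𝔓 N'' h (j + 2) (by omega)) hQ)
    (t4ecc_crt (t4efLayer 𝔓 N'' h (j + 2) (by omega)))
  rw [map_natCast] at h1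
  exact h1

include hQ in
/-- **the step-C contract for the layers of the tower at the inertia level, from `T4eCChart` on the
two concrete charts** -/
theorem t4eix_stepC_fix (k : ℕ) (hk : 1 ≤ k) (m : ℕ) (hm : Nat.Coprime m 𝔓.p) (hm0 : m ≠ 0)
    (hcharts : ∀ z : ↥(tbLevF 𝔓 (t4eLev N'' 𝔓.p (k + 1 + 1)) ⊤), z ≠ 0 →
      z ∈ (t4egUp 𝔓 N'' h k).Ov → z⁻¹ ∈ (t4egUp 𝔓 N'' h k).Ov →
      (∃ o ∈ (t4egUp 𝔓 N'' h k).Ov,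
        z - 1 = ((𝔓.p : ℕ) : ↥(tbLevF 𝔓 (t4eLev N'' 𝔓.p (k + 1 + 1)) ⊤)) * o) →
      (∀ P : Place ↥(tbFix 𝔓 (⊤ : Subgroup 𝔓.I)) ↥(tbLevF 𝔓 (t4eLev N'' 𝔓.p (k + 1 + 1)) ⊤),
        (m : ℤ) ∣ P.ord z) →
      (∀ P : Place Qb ↥(modularFunctionFieldBar (t4eLev N'' 𝔓.p (k + 1 + 1))),
        (m : ℤ) ∣ P.ord (tbPhiF 𝔓 (t4eLev N'' 𝔓.p (k + 1 + 1)) ⊤ z)) →
      T4eiConstA (t4egLo 𝔓 N'' h k) m z → T4eiConstB (t4egLo 𝔓 N'' h k) m z →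
      ∃ (hh : ↥(tbLevF 𝔓 (t4eLev N'' 𝔓.p (k + 1 + 1)) ⊤))
        (A₁ B₁ : ℕ → (↥(t4erfPm 𝔓 N'' h hQ (k + 1 + 1)).B)ˣ)
        (A₂ B₂ : ℕ → (↥(t4eixP2 𝔓 N'' h hQ (k + 1 + 1) (by omega)).B)ˣ), hh ≠ 0 ∧
        (∃ o ∈ (t4egUp 𝔓 N'' h k).Ov,
          hh ^ m - 1 = ((𝔓.p : ℕ) : ↥(tbLevF 𝔓 (t4eLev N'' 𝔓.p (k + 1 + 1)) ⊤)) * o) ∧
        T4eCChart (t4erfPm 𝔓 N'' h hQ (k + 1 + 1))
          ((𝔓.p : ℕ) : ↥(tbLevF 𝔓 (t4eLev N'' 𝔓.p (k + 1 + 1)) ⊤)) m z 𝔓.p (k + 1 + 1)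
          (t4egUp 𝔓 N'' h k).V A₁ B₁ hh ∧
        T4eCChart (t4eixP2 𝔓 N'' h hQ (k + 1 + 1) (by omega))
          ((𝔓.p : ℕ) : ↥(tbLevF 𝔓 (t4eLev N'' 𝔓.p (k + 1 + 1)) ⊤)) m z 𝔓.p (k + 1 + 1)
          (t4egUp 𝔓 N'' h k).V A₂ B₂ hh) :
    T4eiStepCFix 𝔓 N'' k (t4egLo 𝔓 N'' h k) (t4egUp 𝔓 N'' h k) m :=
  t4eix_stepC_of_charts 𝔓 N'' h k (t4egLo 𝔓 N'' h k) (t4egUp 𝔓 N'' h k) hQ hk m hm hm0
    (t4erfPm 𝔓 N'' h hQ (k + 1 + 1)) (t4eixP2 𝔓 N'' h hQ (k + 1 + 1) (by omega))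
    (fun f => t4erfPm_mem_B 𝔓 N'' h hQ (k + 1 + 1) (by omega) f)
    (fun f => t4eixP2_mem_B 𝔓 N'' h hQ (k + 1 + 1) (by omega) f)
    (fun f => t4eixP1_mem_ov 𝔓 N'' h hQ k f)
    (fun f => t4eixP2_mem_ov 𝔓 N'' h hQ (k + 1 + 1) (by omega) f)
    hcharts

end Fermat.Agent.T4
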