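/-
T4E-N (helper4): **`T4eNewAux t4eWU` (hence S45) from step C alone.**  The norm package (P5) is
closed by helper7's `t4e_normA` (`Norm/NormA.lean`) for any linked layers, so the only open input of
`t4e_newAux_of_fixDataA` is the step-C contract `T4eiStepCFix` (P8):

* `t4e_newAux_of_stepC (hstep) : T4eNewAux t4eWU`;
* `t4e_newAux_of_charts (hcharts) : T4eNewAux t4eWU` — with `T4eiStepCFix` unfolded through
  `t4eix_stepC_fix` into the statement "for every admissible Kummer function `z` there are a correcting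
  element `hh` and constants such that both concrete charts `t4erfPm … (k+2)`, `t4eixP2 … (k+2)`
  (`Q = p * p`) satisfy `T4eCChart`".
-/
import Fermat.Agent.Lib.T4E.New.StepCFixP
import Fermat.Agent.Lib.T4E.Norm.NormA

set_option autoImplicit false
set_option linter.unusedSectionVars false
set_option linter.unusedVariables false
set_option linter.style.haveILetI false
set_option synthInstance.maxHeartbeats 400000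

open HahnSeries ModularCurve Module AlgebraicCurve IntermediateField Fermat.Agent.Curve
  Fermat.Agent.T1 Fermat.Agent.T2 Fermat.Agent.TW Fermat.Agent.S05Lib

noncomputable section

namespace Fermat.Agent.T4

local notation "Qb" => AlgebraicClosure ℚ

attribute [local instance] t2i_dvr t2i_isAlgClosed t2i_charP t2i_fact

/-- the `α`-half of the norm package for the layers of the tower at the inertia level -/
theorem t4eg_normA (𝔓 : FFPlace) (N'' k : ℕ) [NeZero N''] (h : ¬ 𝔓.p ∣ N'') :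
    T4eiNormA (t4egLo 𝔓 N'' h k) (t4egUp 𝔓 N'' h k) :=
  t4e_normA (t2i_natCast_ne_zero 𝔓 h) (t4ef_link 𝔓 N'' h (k + 1) (by omega)) (by omega)

/-- **`T4eNewAux t4eWU` from the step-C contract alone** -/
theorem t4e_newAux_of_stepC
    (hstep : ∀ (𝔓 : FFPlace) (N'' k : ℕ) [NeZero N''] (h : ¬ 𝔓.p ∣ N''), 1 ≤ k →
      (4 ∣ N'' ∨ 9 ∣ N'') → ∀ m : ℕ, m.Coprime 𝔓.p → m ≠ 0 →
        T4eiStepCFix 𝔓 N'' k (t4egLo 𝔓 N'' h k) (t4egUp 𝔓 N'' h k) m) :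
    T4eNewAux t4eWU :=
  t4e_newAux_of_fixDataA (fun 𝔓 N'' k _ h _ => t4eg_normA 𝔓 N'' k h) hstep

theorem t4eg_two_le_pp (𝔓 : FFPlace) : 2 ≤ 𝔓.p * 𝔓.p :=
  le_trans 𝔓.hp.two_le (Nat.le_mul_of_pos_right _ 𝔓.hp.pos)

/-- **`T4eNewAux t4eWU` from `T4eCChart` on the two concrete charts** (`Q = p * p`) -/
theorem t4e_newAux_of_charts
    (hcharts : ∀ (𝔓 : FFPlace) (N'' k : ℕ) [NeZero N''] (h : ¬ 𝔓.p ∣ N''), 1 ≤ k →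
      (4 ∣ N'' ∨ 9 ∣ N'') → ∀ m : ℕ, m.Coprime 𝔓.p → m ≠ 0 →
      ∀ z : ↥(tbLevF 𝔓 (t4eLev N'' 𝔓.p (k + 1 + 1)) ⊤), z ≠ 0 →
      z ∈ (t4egUp 𝔓 N'' h k).Ov → z⁻¹ ∈ (t4egUp 𝔓 N'' h k).Ov →
      (∃ o ∈ (t4egUp 𝔓 N'' h k).Ov,
        z - 1 = ((𝔓.p : ℕ) : ↥(tbLevF 𝔓 (t4eLev N'' 𝔓.p (k + 1 + 1)) ⊤)) * o) →
      (∀ P : Place ↥(tbFix 𝔓 (⊤ : Subgroup 𝔓.I)) ↥(tbLevF 𝔓 (t4eLev N'' 𝔓.p (k + 1 + 1)) ⊤),
        (m : ℤ) ∣ P.ord z) →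
      (∀ P : Place Qb ↥(modularFunctionFieldBar (t4eLev N'' 𝔓.p (k + 1 + 1))),
        (m : ℤ) ∣ P.ord (tbPhiF 𝔓 (t4eLev N'' 𝔓.p (k + 1 + 1)) ⊤ z)) →
      T4eiConstA (t4egLo 𝔓 N'' h k) m z → T4eiConstB (t4egLo 𝔓 N'' h k) m z →
      ∃ (hh : ↥(tbLevF 𝔓 (t4eLev N'' 𝔓.p (k + 1 + 1)) ⊤))
        (A₁ B₁ : ℕ → (↥(t4erfPm 𝔓 N'' h (t4eg_two_le_pp 𝔓) (k + 1 + 1)).B)ˣ)
        (A₂ B₂ : ℕ → (↥(t4eixP2 𝔓 N'' h (t4eg_two_le_pp 𝔓) (k + 1 + 1) (by omega)).B)ˣ),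
        hh ≠ 0 ∧
        (∃ o ∈ (t4egUp 𝔓 N'' h k).Ov,
          hh ^ m - 1 = ((𝔓.p : ℕ) : ↥(tbLevF 𝔓 (t4eLev N'' 𝔓.p (k + 1 + 1)) ⊤)) * o) ∧
        T4eCChart (t4erfPm 𝔓 N'' h (t4eg_two_le_pp 𝔓) (k + 1 + 1))
          ((𝔓.p : ℕ) : ↥(tbLevF 𝔓 (t4eLev N'' 𝔓.p (k + 1 + 1)) ⊤)) m z 𝔓.p (k + 1 + 1)
          (t4egUp 𝔓 N'' h k).V A₁ B₁ hh ∧
        T4eCChart (t4eixP2 𝔓 N'' h (t4eg_two_le_pp 𝔓) (k + 1 + 1) (by omega))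
          ((𝔓.p : ℕ) : ↥(tbLevF 𝔓 (t4eLev N'' 𝔓.p (k + 1 + 1)) ⊤)) m z 𝔓.p (k + 1 + 1)
          (t4egUp 𝔓 N'' h k).V A₂ B₂ hh) :
    T4eNewAux t4eWU :=
  t4e_newAux_of_stepC fun 𝔓 N'' k _ h hk h49 m hm hm0 =>
    t4eix_stepC_fix 𝔓 N'' h (t4eg_two_le_pp 𝔓) k hk m hm hm0
      (hcharts 𝔓 N'' k h hk h49 m hm hm0)

end Fermat.Agent.T4
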