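/-
T4E-N (helper4), instance of steps A + B at level `q ^ e`, part 2: **the instance of `T4eA`** from two
consecutive layers `lo` (level `i`), `up` (level `i + 1 = e`), their link, the norm package
`T4eiNorm lo up` and the `β`-degree: constants, norms `N_α = t4nNormA`, `N_β = t4nNormB`, the
labelled order functions, values on constants, the norm formulas, weak approximation (helper5's
`t4e_approx_val`).
-/
import Fermat.Agent.Lib.T4E.New.InstNorm
import Fermat.Agent.Lib.T4E.Local.Approx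

set_option autoImplicit false
set_option linter.unusedSectionVars false
set_option linter.unusedVariables false
set_option linter.style.haveILetI false

open HahnSeries ModularCurve Fermat.Agent.T1 Fermat.Agent.T2 Fermat.Agent.T4E

noncomputable section

namespace Fermat.Agent.T4

section Inst

variable {L : Type} [Field L] [Algebra ℚ L] {O : ValuationSubring L} {k : Type*} [Field k]
  {π : ↥O →+* k} [IsDiscreteValuationRing ↥O] {hπ : Function.Surjective π}
  {N'' q : ℕ} [NeZero N''] [hq : Fact q.Prime] {i : ℕ}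
  (lo : T4eLayer O π hπ N'' q i) (up : T4eLayer O π hπ N'' q (i + 1))
  (hl : T4eLink lo up) (hn : T4eiNorm lo up) (hqO : Irreducible ((q : ℕ) : ↥O)) (hi : 1 ≤ i)
  (hdegB : @Module.finrank ↥(TaF L (t4eLev N'' q i)) ↥(TaF L (t4eLev N'' q (i + 1))) _ _
    (heckeBetaBar L (t4eLev N'' q i) q).toRingHom.toAlgebra.toModule = q)

attribute [local instance] t2iAlgebra t2i_isScalarTower

/-! ### Norms of constants -/

include hl hi in
theorem t4ei_normA_const (c : L) :
    t4nNormA L (t4eLev N'' q i) q (algebraMap L ↥(TaF L (t4eLev N'' q (i + 1))) c) =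
      algebraMap L ↥(TaF L (t4eLev N'' q i)) c ^ q := by
  have h1 : algebraMap L ↥(TaF L (t4eLev N'' q (i + 1))) c =
      algebraMap ↥(TaF L (t4eLev N'' q i)) ↥(TaF L (t4eLev N'' q i * q))
        (algebraMap L ↥(TaF L (t4eLev N'' q i)) c) :=
    IsScalarTower.algebraMap_apply L ↥(TaF L (t4eLev N'' q i)) ↥(TaF L (t4eLev N'' q i * q)) c
  rw [h1, t4nNormA_def, Algebra.norm_algebraMap]
  congr 1
  exact hl.deg hi

include hdegB in
theorem t4ei_normB_const (c : L) :
    t4nNormB L (t4eLev N'' q i) q (algebraMap L ↥(TaF L (t4eLev N'' q (i + 1))) c) =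
      algebraMap L ↥(TaF L (t4eLev N'' q i)) c ^ q := by
  have h1 : algebraMap L ↥(TaF L (t4eLev N'' q (i + 1))) c =
      @algebraMap ↥(TaF L (t4eLev N'' q i)) ↥(TaF L (t4eLev N'' q i * q)) _ _
        (heckeBetaBar L (t4eLev N'' q i) q).toRingHom.toAlgebra
        (algebraMap L ↥(TaF L (t4eLev N'' q i)) c) :=
    ((heckeBetaBar L (t4eLev N'' q i) q).commutes c).symm
  rw [h1, t4nNormB_def,
    @Algebra.norm_algebraMap _ _ _ _ (heckeBetaBar L (t4eLev N'' q i) q).toRingHom.toAlgebra]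
  congr 1

/-! ### Weak approximation -/

/-- **weak approximation** at the verticals of a layer -/
theorem t4ei_approx_v {j : ℕ} (Y : T4eLayer O π hπ N'' q j) (n : ℕ → ℤ) :
    ∃ g : (↥(TaF L (t4eLev N'' q j)))ˣ, ∀ w, w ≤ j → t4eiOrd Y w (Additive.ofMul g) = n w := by
  obtain ⟨g, hg0, hg⟩ := t4e_approx_val (Finset.range (j + 1)) Y.V
    (fun w hw => Y.dvr w (Nat.lt_succ_iff.mp (Finset.mem_range.mp hw)))
    (fun w hw w' hw' h => Y.inj w (Nat.lt_succ_iff.mp (Finset.mem_range.mp hw)) w'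
      (Nat.lt_succ_iff.mp (Finset.mem_range.mp hw')) h)
    (fun w => if hw : w ≤ j then Y.ϖ w ^ n w else 1)
    (fun w => by
      split_ifs with hw
      · exact zpow_ne_zero _ (Y.ϖ_ne_zero hw)
      · exact one_ne_zero)
  refine ⟨Units.mk0 g hg0, fun w hw => ?_⟩
  have h1 := hg w (Finset.mem_range.mpr (Nat.lt_succ_iff.mpr hw))
  rw [dif_pos hw] at h1
  have h0 := zpow_ne_zero (n w) (Y.ϖ_ne_zero hw)
  refine t4eiOrd_of_eq Y hw (u := g * (Y.ϖ w ^ n w)⁻¹) ?_ ?_
  · rw [map_mul, map_inv₀, h1, mul_inv_cancel₀]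
    exact (Valuation.ne_zero_iff _).mpr h0
  · rw [Units.val_mk0, mul_comm g, ← mul_assoc, mul_inv_cancel₀ h0, one_mul]

/-! ### The instance -/

theorem t4ei_q_ne_zero (L : Type) [Field L] [Algebra ℚ L] {q : ℕ} (hq : q.Prime) :
    ((q : ℕ) : L) ≠ 0 := by
  haveI : CharZero L := algebraRat.charZero L
  exact Nat.cast_ne_zero.mpr hq.ne_zero

/-- **the instance of `T4eA`** from two consecutive layers, `e = i + 1` -/
def t4eiA (m : ℕ) :
    T4eA L ↥(TaF L (t4eLev N'' q i)) ↥(TaF L (t4eLev N'' q (i + 1))) q (i + 1) m where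
  vL := t4eiVL hqO
  π := Units.mk0 ((q : ℕ) : L) (t4ei_q_ne_zero L hq.out)
  vL_π := t4eiVL_q hqO _
  cF1 := t4eiC L (t4eLev N'' q i)
  cF := t4eiC L (t4eLev N'' q (i + 1))
  Nα := Units.map (t4eiNA L (t4eLev N'' q i) q)
  Nβ := Units.map (t4eiNB L (t4eLev N'' q i) q)
  Nα_c := fun c => Units.ext (t4ei_normA_const lo up hl hi (c : L))
  Nβ_c := fun c => Units.ext (t4ei_normB_const hdegB (c : L))
  v := t4eiOrd up
  v1 := t4eiOrd lo
  v_c := fun w hw c => t4eiOrd_const up hqO hw c
  v1_c := fun w hw c => by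
    rw [Nat.add_sub_cancel]
    exact t4eiOrd_const lo hqO (by omega) c
  v1_Nα := fun w hw y => hn.ordA w (by omega) y
  v1_Nα_split := fun y => by
    rw [Nat.add_sub_cancel]
    exact hn.ordA_split y
  v1_Nβ := fun w hw hw' y => hn.ordB w hw hw' y
  v1_Nβ_split := fun y => hn.ordB_split y
  approx_v := t4ei_approx_v up

end Inst

end Fermat.Agent.T4
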