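/-
T4E-N (helper4), instance of steps A + B at level `q ^ e`, part 0: **the ℤ-valued order functions of
a vertical layer** (`T4eLayer`, helper9's `Tower/Defs.lean`).

For a layer `Y : T4eLayer O π hπ N'' q i` and a label `w ≤ i`: `(Y.V w, Y.ϖ w)` is a uniformised
valuation ring (`t4ei_unif`), `t4eiOrd Y w : Additive Fˣ →+ ℤ` its order function (`0` for junk labels
`w > i`), dictionary with `(Y.V w).valuation`, values on the constants
(`t4eiOrd_const : ord_w c = t4eMult q i w · v_L c`).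
-/
import Fermat.Agent.Lib.T4E.Tower.Defs
import Fermat.Agent.Lib.T4.New.InstVal

set_option autoImplicit false
set_option linter.unusedSectionVars false
set_option linter.unusedVariables false
set_option linter.style.haveILetI false

open HahnSeries ModularCurve Fermat.Agent.T1 Fermat.Agent.T2

noncomputable section

namespace Fermat.Agent.T4

/-! ### Valuation subrings: units -/

theorem t4ei_val_eq_one_iff {F : Type*} [Field F] (V : ValuationSubring F) {x : F} (hx : x ≠ 0) :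
    V.valuation x = 1 ↔ x ∈ V ∧ x⁻¹ ∈ V := by
  have hv : V.valuation x ≠ 0 := (Valuation.ne_zero_iff _).mpr hx
  constructor
  · intro h
    refine ⟨(V.valuation_le_one_iff x).mp h.le, (V.valuation_le_one_iff x⁻¹).mp ?_⟩
    rw [map_inv₀, h, inv_one]
  · rintro ⟨h1, h2⟩
    have a1 := (V.valuation_le_one_iff x).mpr h1
    have a2 := (V.valuation_le_one_iff x⁻¹).mpr h2
    rw [map_inv₀] at a2
    exact le_antisymm a1 ((inv_le_one₀ (zero_lt_iff.mpr hv)).mp a2)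

theorem t4ei_val_lt_one_iff {F : Type*} [Field F] (V : ValuationSubring F) {x : F} (hx : x ≠ 0) :
    V.valuation x < 1 ↔ x ∈ V ∧ x⁻¹ ∉ V := by
  have hv : V.valuation x ≠ 0 := (Valuation.ne_zero_iff _).mpr hx
  constructor
  · intro h
    refine ⟨(V.valuation_le_one_iff x).mp h.le, fun h2 => ?_⟩
    have a2 := (V.valuation_le_one_iff x⁻¹).mpr h2
    rw [map_inv₀] at a2
    exact absurd h (not_lt.mpr ((inv_le_one₀ (zero_lt_iff.mpr hv)).mp a2))
  · rintro ⟨h1, h2⟩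
    refine lt_of_le_of_ne ((V.valuation_le_one_iff x).mpr h1) fun h => h2 ?_
    exact ((t4ei_val_eq_one_iff V hx).mp h).2

section Layer

variable {L : Type} [Field L] [Algebra ℚ L] {O : ValuationSubring L} {k : Type*} [Field k]
  {π : ↥O →+* k} [IsDiscreteValuationRing ↥O] {hπ : Function.Surjective π}
  {N'' q : ℕ} [NeZero N''] [NeZero q] {i : ℕ} (Y : T4eLayer O π hπ N'' q i)

/-- the uniformiser of a component is not zero -/
theorem T4eLayer.ϖ_ne_zero {w : ℕ} (hw : w ≤ i) : Y.ϖ w ≠ 0 := by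
  intro h0
  obtain ⟨n, u, hu, e⟩ := Y.ϖ_unif w hw 1 one_ne_zero
  rw [h0] at e
  rcases eq_or_ne n 0 with rfl | hn
  · -- then `ϖ = 0` is not smaller than `1`?  use `q_eq` instead
    obtain ⟨n', u', hu', e'⟩ := Y.ϖ_unif w hw 1 one_ne_zero
    have hlt := Y.ϖ_lt w hw
    -- `1 = 0 ^ n' * u'` forces `n' = 0`; no contradiction here, so use another element
    clear e' hu' u' n'
    -- every nonzero `f` is `0 ^ n * u` with `u` a unit: take `f` with `v f < 1`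
    haveI := Y.dvr w hw
    obtain ⟨a, ha⟩ := IsDiscreteValuationRing.exists_irreducible ↥(Y.V w)
    have ha0 : ((a : ↥(Y.V w)) : ↥(TaF L (t4eLev N'' q i))) ≠ 0 :=
      fun h => ha.ne_zero (Subtype.ext h)
    obtain ⟨n₁, u₁, hu₁, e₁⟩ := Y.ϖ_unif w hw _ ha0
    rw [h0] at e₁
    rcases eq_or_ne n₁ 0 with rfl | hn₁
    · rw [zpow_zero, one_mul] at e₁
      have h1 : (Y.V w).valuation ((a : ↥(Y.V w)) : ↥(TaF L (t4eLev N'' q i))) = 1 := by
        rw [e₁]; exact hu₁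
      exact ha.not_isUnit (((Y.V w).valuation_eq_one_iff a).mpr h1)
    · rw [zero_zpow _ hn₁, zero_mul] at e₁
      exact ha0 e₁
  · rw [zero_zpow _ hn, zero_mul] at e
    exact one_ne_zero e

/-- `(Y.V w, Y.ϖ w)` is a uniformised valuation ring -/
theorem t4ei_unif {w : ℕ} (hw : w ≤ i) : T4niUnif (Y.V w).toSubring (Y.ϖ w) := by
  have h0 := Y.ϖ_ne_zero hw
  have hlt := (t4ei_val_lt_one_iff (Y.V w) h0).mp (Y.ϖ_lt w hw)
  refine ⟨hlt.1, hlt.2, fun f hf => ?_⟩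
  obtain ⟨n, u, hu, e⟩ := Y.ϖ_unif w hw f hf
  have hu0 : u ≠ 0 := by
    rintro rfl
    rw [mul_zero] at e
    exact hf e
  obtain ⟨h1, h2⟩ := (t4ei_val_eq_one_iff (Y.V w) hu0).mp hu
  exact ⟨n, u, h1, h2, e⟩

/-- **the order function of the component `w`** (`0` for junk labels) -/
def t4eiOrd (w : ℕ) : Additive (↥(TaF L (t4eLev N'' q i)))ˣ →+ ℤ :=
  if hw : w ≤ i then (t4ei_unif Y hw).ord else 0

theorem t4eiOrd_eq {w : ℕ} (hw : w ≤ i) : t4eiOrd Y w = (t4ei_unif Y hw).ord := dif_pos hw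

theorem t4eiOrd_eq_zero_iff {w : ℕ} (hw : w ≤ i) (y : (↥(TaF L (t4eLev N'' q i)))ˣ) :
    t4eiOrd Y w (Additive.ofMul y) = 0 ↔
      (y : ↥(TaF L (t4eLev N'' q i))) ∈ Y.V w ∧
        ((y⁻¹ : (↥(TaF L (t4eLev N'' q i)))ˣ) : ↥(TaF L (t4eLev N'' q i))) ∈ Y.V w := by
  rw [t4eiOrd_eq Y hw]
  exact ((t4ei_unif Y hw).unit_iff_ord_eq_zero y).symm

theorem t4eiOrd_eq_zero_iff_val {w : ℕ} (hw : w ≤ i) (y : (↥(TaF L (t4eLev N'' q i)))ˣ) :
    t4eiOrd Y w (Additive.ofMul y) = 0 ↔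
      (Y.V w).valuation (y : ↥(TaF L (t4eLev N'' q i))) = 1 := by
  rw [t4eiOrd_eq_zero_iff Y hw, t4ei_val_eq_one_iff (Y.V w) y.ne_zero, Units.val_inv_eq_inv_val]

theorem t4eiOrd_nonneg_iff {w : ℕ} (hw : w ≤ i) (y : (↥(TaF L (t4eLev N'' q i)))ˣ) :
    0 ≤ t4eiOrd Y w (Additive.ofMul y) ↔ (y : ↥(TaF L (t4eLev N'' q i))) ∈ Y.V w := by
  rw [t4eiOrd_eq Y hw]
  exact ((t4ei_unif Y hw).mem_iff_ord_nonneg y).symm

theorem t4eiOrd_pos_iff {w : ℕ} (hw : w ≤ i) (y : (↥(TaF L (t4eLev N'' q i)))ˣ) :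
    1 ≤ t4eiOrd Y w (Additive.ofMul y) ↔
      (Y.V w).valuation (y : ↥(TaF L (t4eLev N'' q i))) < 1 := by
  rw [t4ei_val_lt_one_iff (Y.V w) y.ne_zero, ← Units.val_inv_eq_inv_val,
    ← t4eiOrd_nonneg_iff Y hw, ← t4eiOrd_nonneg_iff Y hw, ofMul_inv, map_neg]
  omega

/-- decomposition `y = ϖ ^ ord y · unit` -/
theorem t4eiOrd_spec {w : ℕ} (hw : w ≤ i) (y : (↥(TaF L (t4eLev N'' q i)))ˣ) :
    ∃ u : ↥(TaF L (t4eLev N'' q i)), (Y.V w).valuation u = 1 ∧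
      (y : ↥(TaF L (t4eLev N'' q i))) = Y.ϖ w ^ t4eiOrd Y w (Additive.ofMul y) * u := by
  rw [t4eiOrd_eq Y hw]
  obtain ⟨u, hu, hu', e⟩ := (t4ei_unif Y hw).ord_spec y
  have hu0 : u ≠ 0 := by
    rintro rfl
    rw [mul_zero] at e
    exact y.ne_zero e
  exact ⟨u, (t4ei_val_eq_one_iff (Y.V w) hu0).mpr ⟨hu, hu'⟩, e⟩

/-- computing the order from a decomposition -/
theorem t4eiOrd_of_eq {w : ℕ} (hw : w ≤ i) {y : (↥(TaF L (t4eLev N'' q i)))ˣ} {n : ℤ}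
    {u : ↥(TaF L (t4eLev N'' q i))} (hu : (Y.V w).valuation u = 1)
    (e : (y : ↥(TaF L (t4eLev N'' q i))) = Y.ϖ w ^ n * u) :
    t4eiOrd Y w (Additive.ofMul y) = n := by
  rw [t4eiOrd_eq Y hw]
  have hu0 : u ≠ 0 := by
    rintro rfl
    rw [map_zero] at hu
    exact zero_ne_one hu
  obtain ⟨h1, h2⟩ := (t4ei_val_eq_one_iff (Y.V w) hu0).mp hu
  exact (t4ei_unif Y hw).ord_eq h1 h2 e

/-! ### Constants -/

/-- the constants of `F_i` as a homomorphism of unit groups -/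
def t4eiC (L : Type) [Field L] [Algebra ℚ L] (N : ℕ) [NeZero N] : Lˣ →* (↥(TaF L N))ˣ :=
  Units.map (algebraMap L ↥(TaF L N) : L →* ↥(TaF L N))

theorem coe_t4eiC (N : ℕ) [NeZero N] (c : Lˣ) :
    ((t4eiC L N c : (↥(TaF L N))ˣ) : ↥(TaF L N)) = algebraMap L ↥(TaF L N) (c : L) := rfl

variable (hqO : Irreducible ((q : ℕ) : ↥O))

/-- the valuation of the constant field, uniformiser `q` -/
def t4eiVL : Additive Lˣ →+ ℤ := (t4ni_unif_base O hqO).ord

theorem t4eiVL_q (hq0 : ((q : ℕ) : L) ≠ 0) :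
    t4eiVL hqO (Additive.ofMul (Units.mk0 ((q : ℕ) : L) hq0)) = 1 := by
  have h := (t4ni_unif_base O hqO).ord_unif
  have e : (t4ni_unif_base O hqO).unif = Units.mk0 ((q : ℕ) : L) hq0 := by
    apply Units.ext
    show (((q : ℕ) : ↥O) : L) = ((q : ℕ) : L)
    push_cast
    rfl
  rw [e] at h
  exact h

theorem t4eiVL_eq_zero_iff (c : Lˣ) :
    t4eiVL hqO (Additive.ofMul c) = 0 ↔ (c : L) ∈ O ∧ ((c⁻¹ : Lˣ) : L) ∈ O :=
  ((t4ni_unif_base O hqO).unit_iff_ord_eq_zero c).symm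

/-- **values on the constants**: `ord_w c = t4eMult q i w · v_L c` -/
theorem t4eiOrd_const {w : ℕ} (hw : w ≤ i) (c : Lˣ) :
    t4eiOrd Y w (Additive.ofMul (t4eiC L (t4eLev N'' q i) c))
      = (t4eMult q i w : ℤ) * t4eiVL hqO (Additive.ofMul c) := by
  rw [t4eiOrd_eq Y hw]
  obtain ⟨u, hu, e⟩ := Y.q_eq w hw
  have hu0 : u ≠ 0 := by
    rintro rfl
    rw [map_zero] at hu
    exact zero_ne_one hu
  obtain ⟨h1, h2⟩ := (t4ei_val_eq_one_iff (Y.V w) hu0).mp hu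
  refine T4niUnif.ord_map (t4ni_unif_base O hqO) (t4ei_unif Y hw)
    (algebraMap L ↥(TaF L (t4eLev N'' q i))) (fun a ha => Y.const_mem w hw ⟨a, ha⟩)
    (e := (t4eMult q i w : ℤ)) (u := u) h1 h2 ?_ c
  rw [zpow_natCast, ← e]
  show algebraMap L ↥(TaF L (t4eLev N'' q i)) ((((q : ℕ) : ↥O)) : L) = _
  have hc : ((((q : ℕ) : ↥O)) : L) = ((q : ℕ) : L) := by
    push_cast
    rfl
  rw [hc, map_natCast]

end Layer

end Fermat.Agent.T4
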