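/-
T4E-N (helper4), instance of steps A + B at level `q ^ e`, part 3: **the residue maps of a layer with
values in `E = k(X₀(N''))`** (`modularFunctionFieldFullC k N''`): `t4eiRho Y hN'' hw : V_w →+* E`
(surjective, kernel = non-units, constants), the Frobenius powers `t4eiPhi Fr s = Φ ^ s` on `E`,
the residue maps on groups of units `t4eiR`, the valuation and the order of `q`.
-/
import Fermat.Agent.Lib.T4E.New.InstA
import Fermat.Agent.Lib.T4E.New.QGrp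
import Fermat.Agent.Lib.T2.Inst.KronH

set_option autoImplicit false
set_option linter.unusedSectionVars false
set_option linter.unusedVariables false
set_option linter.style.haveILetI false

open HahnSeries ModularCurve Fermat.Agent.T1 Fermat.Agent.T2 Fermat.Agent.T4E

noncomputable section

namespace Fermat.Agent.T4

/-- units of a valuation subring from a subgroup of `Fˣ` -/
def t4eiToUnits {F : Type*} [Field F] (V : ValuationSubring F) (S : Subgroup Fˣ)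
    (hS : ∀ y ∈ S, ((y : Fˣ) : F) ∈ V ∧ ((y⁻¹ : Fˣ) : F) ∈ V) : ↥S →* (↥V)ˣ where
  toFun y := ⟨⟨((y : Fˣ) : F), (hS y y.2).1⟩, ⟨(((y : Fˣ)⁻¹ : Fˣ) : F), (hS y y.2).2⟩,
    Subtype.ext (by simp), Subtype.ext (by simp)⟩
  map_one' := Units.ext (Subtype.ext rfl)
  map_mul' a b := Units.ext (Subtype.ext rfl)

theorem coe_t4eiToUnits {F : Type*} [Field F] (V : ValuationSubring F) (S : Subgroup Fˣ)
    (hS : ∀ y ∈ S, ((y : Fˣ) : F) ∈ V ∧ ((y⁻¹ : Fˣ) : F) ∈ V) (y : ↥S) :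
    (((t4eiToUnits V S hS y : (↥V)ˣ) : ↥V) : F) = ((y : Fˣ) : F) := rfl

/-! ### Frobenius powers on `E` -/

section Frob

variable {k : Type*} [Field k] {N'' q : ℕ} [NeZero N''] [NeZero q] (Fr : T2iFrob k N'' q)

/-- `Φ ^ s`, `Φ = (𝔮 ↦ 𝔮^q)` on `E` -/
def t4eiPhi : ℕ → (↥(modularFunctionFieldFullC k N'') →+* ↥(modularFunctionFieldFullC k N''))
  | 0 => RingHom.id _
  | s + 1 => Fr.Φ.comp (t4eiPhi s)

theorem coe_t4eiPhi : ∀ (s : ℕ) (f : ↥(modularFunctionFieldFullC k N'')),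
    ((t4eiPhi Fr s f : ↥(modularFunctionFieldFullC k N'')) : LaurentSeries k)
      = qExpand k (q ^ s) (f : LaurentSeries k)
  | 0, f => by
    rw [qExpand_congr (pow_zero q) (f : LaurentSeries k), qExpand_one_apply]
    rfl
  | s + 1, f => by
    show ((Fr.Φ (t4eiPhi Fr s f) : ↥(modularFunctionFieldFullC k N'')) : LaurentSeries k) = _
    rw [Fr.coe_Φ, coe_t4eiPhi s f, qExpand_qExpand]
    exact qExpand_congr (by rw [pow_succ, mul_comm]) _

theorem t4eiPhi_algebraMap (s : ℕ) (a : k) :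
    t4eiPhi Fr s (algebraMap k ↥(modularFunctionFieldFullC k N'') a)
      = algebraMap k ↥(modularFunctionFieldFullC k N'') a := by
  apply Subtype.ext
  rw [coe_t4eiPhi]
  show qExpand k (q ^ s) (algebraMap k (LaurentSeries k) a) = algebraMap k (LaurentSeries k) a
  rw [algebraMap_laurentSeries_eq_single]
  exact qExpand_C (R := k) (N := q ^ s) _

end Frob

/-! ### The residue maps of a layer with values in `E` -/

section Layer

variable {L : Type} [Field L] [Algebra ℚ L] {O : ValuationSubring L} {k : Type*} [Field k]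
  {π : ↥O →+* k} [IsDiscreteValuationRing ↥O] {hπ : Function.Surjective π} [IsAlgClosed k]
  {N'' q : ℕ} [NeZero N''] [hq : Fact q.Prime] {j : ℕ} (Y : T4eLayer O π hπ N'' q j)
  (hN'' : (N'' : k) ≠ 0)

include hN'' in
theorem t4ei_rho_mem {w : ℕ} (hw : w ≤ j) (x : ↥(Y.V w)) :
    Y.ρ w x ∈ modularFunctionFieldFullC k N'' := by
  obtain ⟨g, hg⟩ := Y.ρ_range w hw x
  rw [hg]
  exact taResN_mem_full O π hπ N'' hN'' g

/-- `ρ_w : V_w → E` -/
def t4eiRho {w : ℕ} (hw : w ≤ j) : ↥(Y.V w) →+* ↥(modularFunctionFieldFullC k N'') :=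
  (Y.ρ w).codRestrict (modularFunctionFieldFullC k N'') (t4ei_rho_mem Y hN'' hw)

theorem coe_t4eiRho {w : ℕ} (hw : w ≤ j) (x : ↥(Y.V w)) :
    ((t4eiRho Y hN'' hw x : ↥(modularFunctionFieldFullC k N'')) : LaurentSeries k) = Y.ρ w x := rfl

/-- a degeneracy index at which the residue table has exponent `0` -/
theorem t4ei_exp_zero_or (j w : ℕ) (hw : w ≤ j) :
    t4eExp j w (if j ≤ 2 * w then 0 else j) = 0 := by
  unfold t4eExp
  (split_ifs; all_goals omega)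

/-- `ρ_w` is onto `E` -/
theorem t4eiRho_surjective {w : ℕ} (hw : w ≤ j) : Function.Surjective (t4eiRho Y hN'' hw) := by
  intro a
  obtain ⟨f, hf⟩ := exists_taResN_eq_of_mem_full O π hπ N'' a.2
  set n : ℕ := if j ≤ 2 * w then 0 else j with hn
  have hnj : n ≤ j := by
    rw [hn]
    split_ifs
    · exact Nat.zero_le j
    · exact le_rfl
  refine ⟨⟨_, Y.a_mem w hw n hnj (f : ↥(TaF L N'')) f.2⟩, Subtype.ext ?_⟩
  rw [coe_t4eiRho, Y.ρ_a w hw n hnj (f : ↥(TaF L N'')) f.2, ← hf]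
  rw [qExpand_congr (show q ^ t4eExp j w n = 1 by rw [hn, t4ei_exp_zero_or j w hw, pow_zero]),
    qExpand_one_apply]

/-- `ρ_w x = 0 ↔ v_w x < 1` -/
theorem t4eiRho_eq_zero_iff {w : ℕ} (hw : w ≤ j) (x : ↥(Y.V w)) :
    t4eiRho Y hN'' hw x = 0 ↔
      (Y.V w).valuation ((x : ↥(Y.V w)) : ↥(TaF L (t4eLev N'' q j))) < 1 := by
  rw [← Y.ρ_eq_zero w hw x, ← coe_t4eiRho Y hN'' hw x]
  constructor
  · intro h
    rw [h]
    rfl
  · intro h
    exact Subtype.ext h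

/-- congruent elements have the same residue -/
theorem t4eiRho_eq_of_val_sub_lt {w : ℕ} (hw : w ≤ j) {x y : ↥(TaF L (t4eLev N'' q j))}
    (hx : x ∈ Y.V w) (hy : y ∈ Y.V w) (h : (Y.V w).valuation (x - y) < 1) :
    t4eiRho Y hN'' hw ⟨x, hx⟩ = t4eiRho Y hN'' hw ⟨y, hy⟩ := by
  have h1 : t4eiRho Y hN'' hw (⟨x, hx⟩ - ⟨y, hy⟩) = 0 :=
    (t4eiRho_eq_zero_iff Y hN'' hw _).mpr h
  rw [map_sub, sub_eq_zero] at h1
  exact h1

/-- conversely -/
theorem t4ei_val_sub_lt_of_rho_eq {w : ℕ} (hw : w ≤ j) {x y : ↥(TaF L (t4eLev N'' q j))}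
    (hx : x ∈ Y.V w) (hy : y ∈ Y.V w)
    (h : t4eiRho Y hN'' hw ⟨x, hx⟩ = t4eiRho Y hN'' hw ⟨y, hy⟩) :
    (Y.V w).valuation (x - y) < 1 := by
  have h1 : t4eiRho Y hN'' hw (⟨x, hx⟩ - ⟨y, hy⟩) = 0 := by
    rw [map_sub, h, sub_self]
  exact (t4eiRho_eq_zero_iff Y hN'' hw _).mp h1

/-- the residues of the constants -/
theorem t4eiRho_const {w : ℕ} (hw : w ≤ j) (c : ↥O) :
    t4eiRho Y hN'' hw ⟨_, Y.const_mem w hw c⟩
      = algebraMap k ↥(modularFunctionFieldFullC k N'') (π c) := by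
  apply Subtype.ext
  rw [coe_t4eiRho, Y.ρ_const w hw c]
  show HahnSeries.C (π c) = algebraMap k (LaurentSeries k) (π c)
  rw [ta_algebraMap_eq_C]

/-- `q` is small at every vertical -/
theorem T4eLayer.val_q_lt {w : ℕ} (hw : w ≤ j) :
    (Y.V w).valuation (((q : ℕ) : ↥(TaF L (t4eLev N'' q j)))) < 1 := by
  obtain ⟨u, hu, e⟩ := Y.q_eq w hw
  rw [e, map_mul, hu, mul_one, map_pow]
  have hpos : 0 < t4eMult q j w :=
    Nat.totient_pos.mpr (pow_pos hq.out.pos _)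
  exact pow_lt_one₀ zero_le (Y.ϖ_lt w hw) hpos.ne'

/-- the order of `q` is the multiplicity of the component -/
theorem t4eiOrd_q {w : ℕ} (hw : w ≤ j) {Q : (↥(TaF L (t4eLev N'' q j)))ˣ}
    (hQ : (Q : ↥(TaF L (t4eLev N'' q j))) = ((q : ℕ) : ↥(TaF L (t4eLev N'' q j)))) :
    t4eiOrd Y w (Additive.ofMul Q) = (t4eMult q j w : ℤ) := by
  obtain ⟨u, hu, e⟩ := Y.q_eq w hw
  refine t4eiOrd_of_eq Y hw hu ?_
  rw [hQ, e, zpow_natCast]

/-- the residue maps on a subgroup of units of all the `V w` (`1` for junk labels) -/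
def t4eiR (S : Subgroup (↥(TaF L (t4eLev N'' q j)))ˣ)
    (hS : ∀ y ∈ S, ∀ w, w ≤ j → ((y : (↥(TaF L (t4eLev N'' q j)))ˣ) : ↥(TaF L (t4eLev N'' q j))) ∈ Y.V w ∧
      ((y⁻¹ : (↥(TaF L (t4eLev N'' q j)))ˣ) : ↥(TaF L (t4eLev N'' q j))) ∈ Y.V w) (w : ℕ) :
    ↥S →* (↥(modularFunctionFieldFullC k N''))ˣ :=
  if hw : w ≤ j then
    (Units.map ((t4eiRho Y hN'' hw : ↥(Y.V w) →+* ↥(modularFunctionFieldFullC k N'')) :
      ↥(Y.V w) →* ↥(modularFunctionFieldFullC k N''))).comp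
      (t4eiToUnits (Y.V w) S (fun y hy => hS y hy w hw))
  else 1

theorem coe_t4eiR (S : Subgroup (↥(TaF L (t4eLev N'' q j)))ˣ)
    (hS : ∀ y ∈ S, ∀ w, w ≤ j → ((y : (↥(TaF L (t4eLev N'' q j)))ˣ) : ↥(TaF L (t4eLev N'' q j))) ∈ Y.V w ∧
      ((y⁻¹ : (↥(TaF L (t4eLev N'' q j)))ˣ) : ↥(TaF L (t4eLev N'' q j))) ∈ Y.V w) {w : ℕ}
    (hw : w ≤ j) (y : ↥S) :
    ((t4eiR Y hN'' S hS w y : (↥(modularFunctionFieldFullC k N''))ˣ) :
      ↥(modularFunctionFieldFullC k N''))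
      = t4eiRho Y hN'' hw ⟨((y : (↥(TaF L (t4eLev N'' q j)))ˣ) : ↥(TaF L (t4eLev N'' q j))),
          (hS y y.2 w hw).1⟩ := by
  rw [t4eiR, dif_pos hw]
  rfl

end Layer

end Fermat.Agent.T4
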