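/-
T4E-N (helper4), steps A + B at level `q^e`, part 5: the `q`-group step (`T4eB.qgrp`) from
ring-level data, for multiplicities up to `q ^ k`.

`Ov ⊂ F` a subring, `π ∈ Ov` with `q ∈ π · Ov` (`q` a prime number), `t4nU1q Ov π` (from
`Lib/T4/New/QGrp.lean`) the group of units of `Ov` congruent to `1` modulo `π · Ov`.  If `z` is a
unit of `Ov` with `(z - 1) ^ (q ^ k) ∈ π · Ov` (e.g. `z - 1` in the radical of
`π · Ov = ∏ 𝔓_w ^ μ_w`, `μ_w = φ(q ^ min (w, e - w)) ≤ q ^ k` for `2 k ≥ e`), then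
`z ^ (q ^ k) ∈ t4nU1q Ov π`, and for `m` coprime to `q`, `z` is an `m`-th power of a power of `z`
modulo `t4nU1q Ov π`.
-/
import Mathlib
import Fermat.Agent.Lib.T4.New.QGrp

set_option autoImplicit false

namespace Fermat.Agent.T4E

open Fermat.Agent.T4

/-- `q ∈ I` implies `(1 + x) ^ (q ^ k) - 1 - x ^ (q ^ k) ∈ I` -/
theorem t4e_one_add_pow_pow_sub_mem {R : Type*} [CommRing R] {q : ℕ} (hq : q.Prime)
    {I : Ideal R} (hqI : (q : R) ∈ I) (x : R) (k : ℕ) :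
    (1 + x) ^ (q ^ k) - 1 - x ^ (q ^ k) ∈ I := by
  induction k with
  | zero => simp
  | succ k ih =>
    -- `(1 + x) ^ (q ^ k) = (1 + x ^ (q ^ k)) + i`, `i ∈ I`
    set i := (1 + x) ^ (q ^ k) - 1 - x ^ (q ^ k) with hi
    have h1 : (1 + x) ^ (q ^ (k + 1)) = ((1 + x ^ (q ^ k)) + i) ^ q := by
      rw [pow_succ, pow_mul, hi]
      congr 1
      ring
    obtain ⟨r, hr⟩ := exists_add_pow_prime_eq hq (1 + x ^ (q ^ k)) i
    obtain ⟨r', hr'⟩ := exists_add_pow_prime_eq hq 1 (x ^ (q ^ k))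
    have h2 : (1 + x) ^ (q ^ (k + 1)) - 1 - x ^ (q ^ (k + 1)) =
        i ^ q + (q : R) * ((1 + x ^ (q ^ k)) * i * r) + (q : R) * (1 * x ^ (q ^ k) * r') := by
      rw [h1, hr, hr', pow_succ q k, pow_mul x]
      ring
    rw [h2]
    refine I.add_mem (I.add_mem ?_ (I.mul_mem_right _ hqI)) (I.mul_mem_right _ hqI)
    have hq0 : q ≠ 0 := hq.ne_zero
    exact I.pow_mem_of_mem ih q (Nat.pos_of_ne_zero hq0)

/-- `x ^ (q ^ k) ∈ I` and `q ∈ I` imply `(1 + x) ^ (q ^ k) - 1 ∈ I` -/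
theorem t4e_one_add_pow_pow_sub_one_mem {R : Type*} [CommRing R] {q : ℕ} (hq : q.Prime)
    {I : Ideal R} (hqI : (q : R) ∈ I) {x : R} {k : ℕ} (hx : x ^ (q ^ k) ∈ I) :
    (1 + x) ^ (q ^ k) - 1 ∈ I := by
  have h := t4e_one_add_pow_pow_sub_mem hq hqI x k
  have : (1 + x) ^ (q ^ k) - 1 = ((1 + x) ^ (q ^ k) - 1 - x ^ (q ^ k)) + x ^ (q ^ k) := by ring
  rw [this]
  exact I.add_mem h hx

section Field

variable {F : Type*} [Field F]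

/-- **the `q`-group step**, multiplicities `≤ q ^ k`: a unit `z` of `Ov` with
`(z - 1) ^ (q ^ k) ∈ π · Ov` (where `q ∈ π · Ov`) has `z ^ (q ^ k) ≡ 1` modulo `π · Ov` -/
theorem t4e_pow_mem_U1q (Ov : Subring F) {π : F} (hπ : π ∈ Ov) {q : ℕ} (hq : q.Prime) (k : ℕ)
    (hqπ : ∃ o ∈ Ov, (q : F) = π * o) {z : Fˣ} (hz : (z : F) ∈ Ov)
    (hz' : ((z⁻¹ : Fˣ) : F) ∈ Ov) (hx : ∃ o ∈ Ov, ((z : F) - 1) ^ (q ^ k) = π * o) :
    z ^ (q ^ k) ∈ t4nU1q Ov π := by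
  refine ⟨by simpa using Ov.pow_mem hz (q ^ k), by simpa using Ov.pow_mem hz' (q ^ k), ?_⟩
  set πO : ↥Ov := ⟨π, hπ⟩
  set zO : ↥Ov := ⟨(z : F), hz⟩
  obtain ⟨o1, ho1, h1⟩ := hqπ
  obtain ⟨o2, ho2, h2⟩ := hx
  have hqI : ((q : ℕ) : ↥Ov) ∈ Ideal.span {πO} := by
    rw [Ideal.mem_span_singleton]
    refine ⟨⟨o1, ho1⟩, ?_⟩
    apply Subtype.ext
    simpa using h1
  have hxI : (zO - 1) ^ (q ^ k) ∈ Ideal.span {πO} := by
    rw [Ideal.mem_span_singleton]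
    refine ⟨⟨o2, ho2⟩, ?_⟩
    apply Subtype.ext
    simpa using h2
  have h3 := t4e_one_add_pow_pow_sub_one_mem hq hqI hxI
  rw [add_sub_cancel, Ideal.mem_span_singleton] at h3
  obtain ⟨o3, h3⟩ := h3
  refine ⟨(o3 : F), o3.2, ?_⟩
  have := congrArg (Subtype.val) h3
  simpa using this

/-- **`T4eB.qgrp` from ring-level data**: a unit `z` of `Ov` with `(z - 1) ^ (q ^ k) ∈ π · Ov` is an
`m`-th power of a power of `z`, modulo the units `≡ 1` modulo `π · Ov` -/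
theorem t4e_qgrp_of_pow (Ov : Subring F) {π : F} (hπ : π ∈ Ov) {q m : ℕ} (hq : q.Prime) (k : ℕ)
    (hqm : Nat.Coprime m q) (hqπ : ∃ o ∈ Ov, (q : F) = π * o) {z : Fˣ} (hz : (z : F) ∈ Ov)
    (hz' : ((z⁻¹ : Fˣ) : F) ∈ Ov) (hx : ∃ o ∈ Ov, ((z : F) - 1) ^ (q ^ k) = π * o) :
    ∃ a : ℤ, z * ((z ^ a) ^ m)⁻¹ ∈ t4nU1q Ov π :=
  t4n_exists_zpow_of_coprime (Nat.Coprime.pow_right k hqm) _
    (t4e_pow_mem_U1q Ov hπ hq k hqπ hz hz' hx)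

end Field

end Fermat.Agent.T4E
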